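import Mathlib
import Fermat.Prelude.Def_ModularCurve_LaurentCoeff
import Fermat.Agent.S24.LinDisjoint

/-!
# PROJECT J (S30), slice J-3c: `K((q)) ∩ K'(F) = F`  (the hypothesis `cap` of (T5))

`K ⊆ K'` fields, `φ = coeffMap (algebraMap K K') : K((q)) → K'((q))` the coefficientwise base
change, `F` an intermediate field of `K((q)) / K`.  If `φ s` lies in the field generated over `K'`
by `φ '' F`, then `s ∈ F` (`mem_of_coeffMap_mem_adjoin`).  The proof uses the coefficientwise
coordinates `proj B k` with respect to a `K`-basis `B` of `K'` (linear disjointness), no Galois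
theory.

Also: a Laurent series over `K'` all of whose coefficients are in `K` is a `φ s`
(`exists_coeffMap_eq`), and the packaged statement `cap`.
-/

set_option autoImplicit false

namespace Fermat.Agent.S30.Descent.Cap

open ModularCurve Module

variable {K K' : Type*} [Field K] [Field K'] [Algebra K K']

/-- coefficientwise base change `K((q)) → K'((q))` -/
noncomputable abbrev bcL : LaurentSeries K →+* LaurentSeries K' :=
  coeffMap (algebraMap K K')

theorem bcL_injective : Function.Injective (bcL : LaurentSeries K → LaurentSeries K') :=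
  (bcL : LaurentSeries K →+* LaurentSeries K').injective

section Proj

variable {κ : Type*} (B : Basis κ K K') (k : κ)

/-- the coefficientwise `k`-th coordinate with respect to a `K`-basis `B` of `K'` -/
noncomputable def proj (x : LaurentSeries K') : LaurentSeries K :=
  x.map (B.coord k)

@[simp]
theorem proj_coeff (x : LaurentSeries K') (n : ℤ) :
    (proj B k x).coeff n = B.repr (x.coeff n) k := rfl

theorem proj_add (x y : LaurentSeries K') : proj B k (x + y) = proj B k x + proj B k y := by
  ext n
  simp

theorem proj_zero : proj B k (0 : LaurentSeries K') = 0 := by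
  ext n
  simp

/-- `proj` as an additive map -/
noncomputable def projHom : LaurentSeries K' →+ LaurentSeries K where
  toFun := proj B k
  map_zero' := proj_zero B k
  map_add' := proj_add B k

theorem proj_sum {ι : Type*} (t : Finset ι) (x : ι → LaurentSeries K') :
    proj B k (∑ i ∈ t, x i) = ∑ i ∈ t, proj B k (x i) :=
  map_sum (projHom B k) x t

theorem algebraMap_mul_eq_smul {L : Type*} [Field L] (c : L) (x : LaurentSeries L) :
    algebraMap L (LaurentSeries L) c * x = c • x := by
  rw [algebraMap_laurentSeries_eq_single, ← HahnSeries.C_apply, HahnSeries.C_mul_eq_smul]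

theorem proj_algebraMap_mul_bcL (α : K') (h : LaurentSeries K) :
    proj B k (algebraMap K' (LaurentSeries K') α * bcL h) =
      algebraMap K (LaurentSeries K) (B.repr α k) * h := by
  rw [algebraMap_mul_eq_smul, algebraMap_mul_eq_smul]
  ext n
  rw [proj_coeff, HahnSeries.coeff_smul, HahnSeries.coeff_smul, coeffMap_coeff, smul_eq_mul,
    smul_eq_mul, mul_comm α, ← Algebra.smul_def, map_smul, Finsupp.smul_apply, smul_eq_mul,
    mul_comm]

theorem eq_zero_of_proj_eq_zero {x : LaurentSeries K'} (h : ∀ k, proj B k x = 0) : x = 0 := by
  ext n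
  have h1 : B.repr (x.coeff n) = 0 := by
    ext k
    have h2 := congrArg (fun y => y.coeff n) (h k)
    simpa using h2
  simpa using h1

end Proj

/-- **`K((q)) ∩ K'(F) = F`.** -/
theorem mem_of_coeffMap_mem_adjoin (F : IntermediateField K (LaurentSeries K))
    {s : LaurentSeries K}
    (hs : bcL s ∈ IntermediateField.adjoin K'
      ((bcL : LaurentSeries K → LaurentSeries K') '' (F : Set (LaurentSeries K)))) : s ∈ F := by
  classical
  rw [IntermediateField.mem_adjoin_iff_div] at hs
  obtain ⟨a, ha, b, hb, hab⟩ := hs
  -- the subalgebra generated by `φ '' F` is its span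
  have hspan : ∀ x ∈ Algebra.adjoin K'
      ((bcL : LaurentSeries K → LaurentSeries K') '' (F : Set (LaurentSeries K))),
      ∃ t : Finset (LaurentSeries K), (t : Set (LaurentSeries K)) ⊆ F ∧ ∃ c : t → K',
        ∑ i, algebraMap K' (LaurentSeries K') (c i) * bcL (i : LaurentSeries K) = x := by
    intro x hx
    have h1 : x ∈ Subalgebra.toSubmodule (Algebra.adjoin K'
      ((bcL : LaurentSeries K → LaurentSeries K') '' (F : Set (LaurentSeries K)))) := hx
    rw [Algebra.adjoin_eq_span] at h1
    have h2 : ((Submonoid.closure
        ((bcL : LaurentSeries K → LaurentSeries K') '' (F : Set (LaurentSeries K))) :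
          Submonoid (LaurentSeries K')) : Set (LaurentSeries K')) =
        (bcL : LaurentSeries K → LaurentSeries K') '' (F : Set (LaurentSeries K)) := by
      have h3 : (bcL : LaurentSeries K → LaurentSeries K') '' (F : Set (LaurentSeries K)) =
          ((F.toSubalgebra.toSubsemiring.toSubmonoid.map
            ((bcL : LaurentSeries K →+* LaurentSeries K') : LaurentSeries K →* LaurentSeries K') :
              Submonoid (LaurentSeries K')) : Set (LaurentSeries K')) := by
        ext y
        simp only [Set.mem_image, SetLike.mem_coe, Submonoid.mem_map, Subsemiring.mem_toSubmonoid,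
          Subalgebra.mem_toSubsemiring, IntermediateField.mem_toSubalgebra]
        rfl
      rw [h3, Submonoid.closure_eq]
    rw [h2] at h1
    obtain ⟨t, ht, c, hc⟩ :=
      (@Submodule.mem_span_image_iff_exists_fun _ _ K' _ _ Algebra.toModule _ _ _).mp h1
    refine ⟨t, ht, c, ?_⟩
    rw [← hc]
    refine Finset.sum_congr rfl fun i _ => ?_
    rw [Algebra.smul_def]
  rcases eq_or_ne b 0 with rfl | hb0
  · rw [div_zero] at hab
    have : s = 0 := bcL_injective (by rw [hab, map_zero])
    rw [this]
    exact zero_mem F
  have hmul : bcL s * b = a := by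
    rw [hab, div_mul_cancel₀ _ hb0]
  obtain ⟨ta, hta, ca, rfl⟩ := hspan a ha
  obtain ⟨tb, htb, cb, rfl⟩ := hspan b hb
  -- `φ s * b` in terms of the generators
  have hmul' : (∑ j, algebraMap K' (LaurentSeries K') (cb j) *
        bcL (s * (j : LaurentSeries K))) =
      ∑ i, algebraMap K' (LaurentSeries K') (ca i) * bcL (i : LaurentSeries K) := by
    rw [← hmul, Finset.mul_sum]
    refine Finset.sum_congr rfl fun j _ => ?_
    rw [map_mul]
    ring
  let B := Basis.ofVectorSpace K K'
  obtain ⟨k, hk⟩ : ∃ k, proj B k (∑ j, algebraMap K' (LaurentSeries K') (cb j) *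
      bcL (j : LaurentSeries K)) ≠ 0 := by
    by_contra hcon
    push Not at hcon
    exact hb0 (eq_zero_of_proj_eq_zero B hcon)
  have h1 := congrArg (proj B k) hmul'
  rw [proj_sum, proj_sum] at h1
  simp only [proj_algebraMap_mul_bcL] at h1
  rw [proj_sum] at hk
  simp only [proj_algebraMap_mul_bcL] at hk
  -- `s * g = f`
  set g : LaurentSeries K :=
    ∑ j, algebraMap K (LaurentSeries K) (B.repr (cb j) k) * (j : LaurentSeries K) with hg
  set f : LaurentSeries K :=
    ∑ i, algebraMap K (LaurentSeries K) (B.repr (ca i) k) * (i : LaurentSeries K) with hf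
  have hgF : g ∈ F :=
    sum_mem fun j _ => F.mul_mem (F.algebraMap_mem _) (htb j.2)
  have hfF : f ∈ F :=
    sum_mem fun i _ => F.mul_mem (F.algebraMap_mem _) (hta i.2)
  have h2 : s * g = f := by
    rw [hg, Finset.mul_sum, ← h1]
    refine Finset.sum_congr rfl fun j _ => ?_
    ring
  have h3 : s = f * g⁻¹ := by
    rw [← h2, mul_assoc, mul_inv_cancel₀ hk, mul_one]
  rw [h3]
  exact F.mul_mem hfF (F.inv_mem hgF)

/-- a Laurent series over `K'` with all coefficients in `K` comes from `K((q))` -/
theorem exists_coeffMap_eq (x : LaurentSeries K')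
    (h : ∀ n, x.coeff n ∈ Set.range (algebraMap K K')) : ∃ s : LaurentSeries K, bcL s = x := by
  choose c hc using h
  have hsupp : Function.support c ⊆ x.support := by
    intro n hn
    rw [Function.mem_support] at hn
    rw [HahnSeries.mem_support, ← hc n]
    exact fun h0 => hn ((map_eq_zero (algebraMap K K')).mp h0)
  refine ⟨⟨c, x.isPWO_support.mono hsupp⟩, ?_⟩
  ext n
  rw [coeffMap_coeff]
  exact hc n

/-- **(cap)**, packaged: an element of `K'(F)` all of whose coefficients are in `K` is `φ s` with
`s ∈ F`. -/
theorem cap (F : IntermediateField K (LaurentSeries K)) (x : LaurentSeries K')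
    (hx : x ∈ IntermediateField.adjoin K'
      ((bcL : LaurentSeries K → LaurentSeries K') '' (F : Set (LaurentSeries K))))
    (h : ∀ n, x.coeff n ∈ Set.range (algebraMap K K')) : ∃ s ∈ F, bcL s = x := by
  obtain ⟨s, rfl⟩ := exists_coeffMap_eq x h
  exact ⟨s, mem_of_coeffMap_mem_adjoin F hx, rfl⟩

/-! ### the coefficient functionals on an intermediate field of `L((q))` -/

section CoeffLin

variable {L : Type*} [Field L] (E : IntermediateField L (LaurentSeries L))

/-- the `n`-th coefficient as an `L`-linear functional on an intermediate field of `L((q))`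
(the `L`-module structure of `E` is the one coming from `Algebra L (LaurentSeries L)`, which is
only propositionally the coefficientwise one) -/
noncomputable def coeffLin (n : ℤ) : E →ₗ[L] L where
  toFun x := (x : LaurentSeries L).coeff n
  map_add' x y := by
    show ((x : LaurentSeries L) + (y : LaurentSeries L)).coeff n = _
    rw [HahnSeries.coeff_add]
  map_smul' a x := by
    show ((a • x : E) : LaurentSeries L).coeff n = a * (x : LaurentSeries L).coeff n
    rw [IntermediateField.coe_smul, Algebra.smul_def, algebraMap_mul_eq_smul,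
      HahnSeries.coeff_smul, smul_eq_mul]

@[simp]
theorem coeffLin_apply (n : ℤ) (x : E) : coeffLin E n x = (x : LaurentSeries L).coeff n := rfl

theorem coeffLin_sep (x : E) (h : ∀ n, coeffLin E n x = 0) : x = 0 := by
  apply Subtype.ext
  ext n
  exact h n

end CoeffLin

section Model

variable (F : IntermediateField K (LaurentSeries K))
  (F' : IntermediateField K' (LaurentSeries K'))
  (bc : F →+* F')
  (hbc : ∀ f : F, ((bc f : F') : LaurentSeries K') = bcL (f : LaurentSeries K))

include hbc

/-- the field `cap` of `RRBaseChange.IsGaloisCoord` in the Laurent model -/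
theorem cap_field
    (hF' : F' = IntermediateField.adjoin K'
      ((bcL : LaurentSeries K → LaurentSeries K') '' (F : Set (LaurentSeries K))))
    (f' : F') (h : ∀ n, coeffLin F' n f' ∈ Set.range (algebraMap K K')) :
    f' ∈ Set.range bc := by
  obtain ⟨s, hs, hsf⟩ := cap F (f' : LaurentSeries K') (by rw [← hF']; exact f'.2) h
  refine ⟨⟨s, hs⟩, Subtype.ext ?_⟩
  rw [hbc, hsf]

/-- compatibility of the coefficient functionals -/
theorem coeffLin_bc (n : ℤ) (f : F) :
    coeffLin F' n (bc f) = algebraMap K K' (coeffLin F n f) := by
  rw [coeffLin_apply, hbc, coeffMap_coeff, coeffLin_apply]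

/-- linear disjointness: `bc` preserves linear independence -/
theorem linearIndependent_bc {ι : Type*} {v : ι → F} (hv : LinearIndependent K v) :
    LinearIndependent K' fun i => bc (v i) :=
  Fermat.Agent.S24.LinDisjoint.linearIndependent_of_coords (φ := bc) (coeffLin F)
    (coeffLin F') (fun n f => coeffLin_bc F F' bc hbc n f) (coeffLin_sep F) hv

/-- `bc` is compatible with the constants -/
theorem bc_algebraMap (a : K) :
    bc (algebraMap K F a) = algebraMap K' F' (algebraMap K K' a) := by
  apply Subtype.ext
  rw [hbc]
  show bcL (algebraMap K (LaurentSeries K) a) = algebraMap K' (LaurentSeries K') (algebraMap K K' a)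
  rw [algebraMap_laurentSeries_eq_single, algebraMap_laurentSeries_eq_single, coeffMap_single]

end Model

end Fermat.Agent.S30.Descent.Cap
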