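import Mathlib
import Fermat.Prelude.Def_ModularCurve_LaurentCoeff
import Fermat.Agent.S24.LinDisjoint
import Fermat.Agent.S24.FF
import Fermat.Agent.S37.Deuring.GaussLemmas
import Fermat.Agent.S37.Deuring.OrthoBasis

/-!
# PROJECT J (S30), slice J-3a: constant field extension of a function field of Laurent type

`K ⊆ K'` fields, `F : IntermediateField K (LaurentSeries K)`.  The constant field extension is
`constExt K' F := K'(bc F) ⊆ K'((q))`, `bc = coeffMap (algebraMap K K')` the coefficientwise base
change.  (For `F = laurentBaseChange K F₀` this is the prelude's `laurentBaseChange K' F₀`.)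

* `bcHom F : F →+* constExt K' F`;
* `mem_constExt_iff` : every element of `constExt K' F` is a quotient of two `K'`-linear
  combinations of elements of `bc F`;
* `linearIndependent_bcHom` : linear disjointness (`K`-independent families stay `K'`-independent);
* `transcendental_bcHom`, `finrank_bcHom`, `isFF_bcHom` : **degree preservation**: for `y ∈ F`
  transcendental over `K` with `[F : K(y)] < ∞`: `[F' : K'(bc y)] = [F : K(y)]`.
-/

set_option autoImplicit false
set_option linter.unusedSectionVars false

noncomputable section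

namespace Fermat.Agent.S30.Descent.ConstExt

open ModularCurve IntermediateField Polynomial Fermat.Agent.S24.FF

variable {K : Type*} {K' : Type*} [Field K] [Field K'] [Algebra K K']

/-- coefficientwise base change of Laurent series -/
abbrev bc (K K' : Type*) [Field K] [Field K'] [Algebra K K'] :
    LaurentSeries K →+* LaurentSeries K' :=
  coeffMap (algebraMap K K')

theorem bc_injective : Function.Injective (bc K K') := by
  intro x y h
  ext n
  have := congrArg (fun z : LaurentSeries K' => z.coeff n) h
  simp only [coeffMap_coeff] at this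
  exact (algebraMap K K').injective this

theorem bc_algebraMap (c : K) :
    bc K K' (algebraMap K (LaurentSeries K) c) =
      algebraMap K' (LaurentSeries K') (algebraMap K K' c) := by
  rw [algebraMap_laurentSeries_eq_single, algebraMap_laurentSeries_eq_single, coeffMap_single]

theorem coeff_algebraMap_mul (c : K) (x : LaurentSeries K) (n : ℤ) :
    (algebraMap K (LaurentSeries K) c * x).coeff n = c * x.coeff n := by
  rw [algebraMap_laurentSeries_eq_single, HahnSeries.single_zero_mul_eq_smul, HahnSeries.coeff_smul,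
    smul_eq_mul]

variable (K') in
/-- **The constant field extension** `K'(bc F) ⊆ K'((q))`. -/
def constExt (F : IntermediateField K (LaurentSeries K)) :
    IntermediateField K' (LaurentSeries K') :=
  IntermediateField.adjoin K' (⇑(bc K K') '' (F : Set (LaurentSeries K)))

variable (F : IntermediateField K (LaurentSeries K))

theorem bc_mem_constExt {f : LaurentSeries K} (hf : f ∈ F) : bc K K' f ∈ constExt K' F :=
  IntermediateField.subset_adjoin K' _ ⟨f, hf, rfl⟩

variable (K') in
/-- the base change homomorphism `F → F'` -/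
def bcHom : F →+* constExt K' F where
  toFun f := ⟨bc K K' (f : LaurentSeries K), bc_mem_constExt F f.2⟩
  map_one' := Subtype.ext (map_one (bc K K'))
  map_mul' a b := Subtype.ext (map_mul (bc K K') (a : LaurentSeries K) (b : LaurentSeries K))
  map_zero' := Subtype.ext (map_zero (bc K K'))
  map_add' a b := Subtype.ext (map_add (bc K K') (a : LaurentSeries K) (b : LaurentSeries K))

@[simp] theorem coe_bcHom (f : F) :
    ((bcHom K' F f : constExt K' F) : LaurentSeries K') = bc K K' (f : LaurentSeries K) := rfl

theorem bcHom_injective : Function.Injective (bcHom K' F) := (bcHom K' F).injective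

theorem bcHom_algebraMap (c : K) :
    bcHom K' F (algebraMap K F c) = algebraMap K' (constExt K' F) (algebraMap K K' c) :=
  Subtype.ext (bc_algebraMap c)

/-! ### linear combinations of elements of `bc F` -/

/-- a `K'`-linear combination of elements of `bc F` (list form) -/
def lsum (l : List (K' × F)) : constExt K' F :=
  (l.map fun p => algebraMap K' (constExt K' F) p.1 * bcHom K' F p.2).sum

@[simp] theorem lsum_nil : lsum F ([] : List (K' × F)) = 0 := rfl

@[simp] theorem lsum_cons (p : K' × F) (l : List (K' × F)) :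
    lsum F (p :: l) = algebraMap K' (constExt K' F) p.1 * bcHom K' F p.2 + lsum F l := by
  simp [lsum]

@[simp] theorem lsum_append (l₁ l₂ : List (K' × F)) :
    lsum F (l₁ ++ l₂) = lsum F l₁ + lsum F l₂ := by
  simp [lsum]

theorem exists_lsum_mul (l₁ l₂ : List (K' × F)) :
    ∃ l : List (K' × F), lsum F l = lsum F l₁ * lsum F l₂ := by
  induction l₁ with
  | nil => exact ⟨[], by simp⟩
  | cons p l₁ ih =>
    obtain ⟨l, hl⟩ := ih
    refine ⟨(l₂.map fun q => (p.1 * q.1, p.2 * q.2)) ++ l, ?_⟩
    rw [lsum_append, hl, lsum_cons, add_mul]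
    congr 1
    clear hl
    induction l₂ with
    | nil => simp
    | cons q l₂ ih2 =>
      rw [List.map_cons, lsum_cons, lsum_cons, ih2, mul_add]
      congr 1
      simp only [map_mul]
      ring

theorem coe_lsum (l : List (K' × F)) :
    ((lsum F l : constExt K' F) : LaurentSeries K') =
      (l.map fun p => algebraMap K' (LaurentSeries K') p.1 *
        bc K K' (p.2 : LaurentSeries K)).sum := by
  induction l with
  | nil => rfl
  | cons p l ih =>
    rw [lsum_cons, List.map_cons, List.sum_cons, ← ih]
    rfl

theorem exists_lsum_of_mem_adjoin {r : LaurentSeries K'}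
    (hr : r ∈ Algebra.adjoin K' (⇑(bc K K') '' (F : Set (LaurentSeries K)))) :
    ∃ l : List (K' × F), ((lsum F l : constExt K' F) : LaurentSeries K') = r := by
  induction hr using Algebra.adjoin_induction with
  | mem x hx =>
    obtain ⟨f, hf, rfl⟩ := hx
    exact ⟨[(1, ⟨f, hf⟩)], by simp⟩
  | algebraMap c =>
    refine ⟨[(c, 1)], ?_⟩
    simp
  | add x y _ _ hx hy =>
    obtain ⟨l₁, h₁⟩ := hx
    obtain ⟨l₂, h₂⟩ := hy
    exact ⟨l₁ ++ l₂, by rw [lsum_append, ← h₁, ← h₂]; rfl⟩
  | mul x y _ _ hx hy =>
    obtain ⟨l₁, h₁⟩ := hx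
    obtain ⟨l₂, h₂⟩ := hy
    obtain ⟨l, hl⟩ := exists_lsum_mul F l₁ l₂
    exact ⟨l, by rw [hl, ← h₁, ← h₂]; rfl⟩

/-- **every element of `F'` is a quotient of two `K'`-linear combinations of elements of
`bc F`** -/
theorem exists_lsum_div (y : constExt K' F) :
    ∃ l₁ l₂ : List (K' × F), lsum F l₂ ≠ 0 ∧ y = lsum F l₁ / lsum F l₂ := by
  have hy : (y : LaurentSeries K') ∈
      IntermediateField.adjoin K' (⇑(bc K K') '' (F : Set (LaurentSeries K))) := y.2
  rw [IntermediateField.mem_adjoin_iff_div] at hy
  obtain ⟨r, hr, s, hs, hrs⟩ := hy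
  obtain ⟨l₁, h₁⟩ := exists_lsum_of_mem_adjoin F hr
  obtain ⟨l₂, h₂⟩ := exists_lsum_of_mem_adjoin F hs
  by_cases hs0 : lsum F l₂ = 0
  · refine ⟨[], [(1, 1)], by simp, ?_⟩
    apply Subtype.ext
    have : s = 0 := by rw [← h₂, hs0]; rfl
    rw [hrs, this, div_zero]
    simp
  · refine ⟨l₁, l₂, hs0, Subtype.ext ?_⟩
    rw [hrs, ← h₁, ← h₂]
    rfl

/-! ### linear disjointness -/

/-- the `n`-th coefficient as a `K`-linear functional on `F` -/
def coeffL (n : ℤ) : F →ₗ[K] K where
  toFun f := (f : LaurentSeries K).coeff n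
  map_add' _ _ := rfl
  map_smul' c f := by
    show ((c • f : F) : LaurentSeries K).coeff n = c * (f : LaurentSeries K).coeff n
    rw [Algebra.smul_def, ← coeff_algebraMap_mul]
    rfl

/-- **Linear disjointness**: `K`-linearly independent families of `F` stay `K'`-linearly
independent in `F'`. -/
theorem linearIndependent_bcHom {ι : Type*} {v : ι → F} (hv : LinearIndependent K v) :
    LinearIndependent K' (fun i => bcHom K' F (v i)) := by
  refine Fermat.Agent.S24.LinDisjoint.linearIndependent_of_coords (K := K) (L := K')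
    (fun f => bcHom K' F f) (coeffL F) (coeffL (constExt K' F)) (fun n f => ?_) (fun f hf => ?_) hv
  · rfl
  · apply Subtype.ext
    ext n
    exact hf n

/-! ### degree preservation -/

section Degree

open Fermat.Agent.S37.Deuring

variable {F}

/-- polynomial independence over `K'` of the images of a `K(y)`-independent family -/
theorem aeval_bcHom_eq_zero {ι : Type*} [Fintype ι] {y : F} (hy : Transcendental K y) (z : ι → F)
    (hz : LinearIndependent K⟮y⟯ z) (p : ι → K'[X])
    (hp : ∑ i, aeval (bcHom K' F y) (p i) * bcHom K' F (z i) = 0) : ∀ i, p i = 0 := by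
  classical
  have h1 := OrthoBasis.linearIndependent_monomials hy z hz
  have h2 := linearIndependent_bcHom (K' := K') F h1
  -- a common bound for the degrees
  set d : ℕ := (Finset.univ.sup fun i => (p i).natDegree) + 1 with hd
  have hdeg : ∀ i, (p i).natDegree < d := fun i =>
    Nat.lt_succ_of_le (Finset.le_sup (f := fun i => (p i).natDegree) (Finset.mem_univ i))
  rw [linearIndependent_iff'] at h2
  have h3 := h2 (Finset.univ ×ˢ Finset.range d) (fun q => (p q.1).coeff q.2) (by
    rw [Finset.sum_product, ← hp]
    refine Finset.sum_congr rfl fun i _ => ?_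
    rw [aeval_eq_sum_range' (hdeg i), Finset.sum_mul]
    refine Finset.sum_congr rfl fun j _ => ?_
    simp only [map_mul, map_pow]
    rw [smul_mul_assoc])
  intro i
  ext j
  rw [coeff_zero]
  by_cases hj : j < d
  · exact h3 (i, j) (Finset.mem_product.mpr ⟨Finset.mem_univ i, Finset.mem_range.mpr hj⟩)
  · exact coeff_eq_zero_of_natDegree_lt (lt_of_lt_of_le (hdeg i) (not_lt.mp hj))

variable {y : F} (hy : Transcendental K y) [FiniteDimensional K⟮y⟯ F]

include hy in
/-- `bc y` is transcendental over `K'` -/
theorem transcendental_bcHom : Transcendental K' (bcHom K' F y) := by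
  rw [transcendental_iff]
  intro p hp
  have hz : LinearIndependent K⟮y⟯ (fun _ : Unit => (1 : F)) :=
    LinearIndependent.of_subsingleton () one_ne_zero
  have := aeval_bcHom_eq_zero (K' := K') hy (fun _ : Unit => (1 : F)) hz (fun _ => p) (by simp [hp])
  exact this ()

omit [FiniteDimensional K⟮y⟯ F] in
theorem bcHom_aeval (y : F) (P : K[X]) :
    bcHom K' F (aeval y P) = aeval (bcHom K' F y) (P.map (algebraMap K K')) := by
  show bcHom K' F (eval₂ (algebraMap K F) y P) =
    eval₂ (algebraMap K' (constExt K' F)) (bcHom K' F y) (P.map (algebraMap K K'))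
  rw [hom_eval₂, eval₂_map]
  congr 1
  exact RingHom.ext fun c => bcHom_algebraMap (K' := K') F c

omit [FiniteDimensional K⟮y⟯ F] in
include hy in
theorem bcHom_mem_adjoin (r : K⟮y⟯) : bcHom K' F (r : F) ∈ K'⟮bcHom K' F y⟯ := by
  obtain ⟨P, Q, hPQ⟩ := (IntermediateField.mem_adjoin_simple_iff K (r : F)).mp r.2
  rw [hPQ, map_div₀, bcHom_aeval, bcHom_aeval]
  exact (IntermediateField.mem_adjoin_simple_iff K' _).mpr ⟨_, _, rfl⟩

/-- the `K'(bc y)`-span of the images of a `K(y)`-basis of `F` -/
def spanV (y : F) [FiniteDimensional K⟮y⟯ F] : Submodule K'⟮bcHom K' F y⟯ (constExt K' F) :=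
  Submodule.span K'⟮bcHom K' F y⟯
    (Set.range fun i => bcHom K' F (Module.finBasis K⟮y⟯ F i))

include hy in
theorem bcHom_mem_spanV (f : F) : bcHom K' F f ∈ spanV (K' := K') y := by
  have hf := (Module.finBasis K⟮y⟯ F).sum_repr f
  rw [← hf, map_sum]
  refine Submodule.sum_mem _ fun i _ => ?_
  rw [IntermediateField.smul_def, smul_eq_mul, map_mul]
  have h1 := bcHom_mem_adjoin (K' := K') hy ((Module.finBasis K⟮y⟯ F).repr f i)
  have h2 : bcHom K' F (((Module.finBasis K⟮y⟯ F).repr f i : K⟮y⟯) : F) *
      bcHom K' F (Module.finBasis K⟮y⟯ F i) =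
      (⟨_, h1⟩ : K'⟮bcHom K' F y⟯) • bcHom K' F (Module.finBasis K⟮y⟯ F i) := by
    rw [IntermediateField.smul_def, smul_eq_mul]
  rw [h2]
  exact Submodule.smul_mem _ _ (Submodule.subset_span ⟨i, rfl⟩)

include hy in
theorem mul_mem_spanV {u v : constExt K' F} (hu : u ∈ spanV (K' := K') y)
    (hv : v ∈ spanV (K' := K') y) : u * v ∈ spanV (K' := K') y := by
  induction hu using Submodule.span_induction with
  | mem u hu =>
    obtain ⟨i, rfl⟩ := hu
    induction hv using Submodule.span_induction with
    | mem v hv =>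
      obtain ⟨j, rfl⟩ := hv
      rw [← map_mul]
      exact bcHom_mem_spanV hy _
    | zero => rw [mul_zero]; exact Submodule.zero_mem _
    | add a b _ _ ha hb => rw [mul_add]; exact Submodule.add_mem _ ha hb
    | smul r a _ ha => rw [mul_smul_comm]; exact Submodule.smul_mem _ _ ha
  | zero => rw [zero_mul]; exact Submodule.zero_mem _
  | add a b _ _ ha hb => rw [add_mul]; exact Submodule.add_mem _ ha hb
  | smul r a _ ha => rw [smul_mul_assoc]; exact Submodule.smul_mem _ _ ha

include hy in
theorem lsum_mem_spanV (l : List (K' × F)) : lsum F l ∈ spanV (K' := K') y := by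
  induction l with
  | nil => exact Submodule.zero_mem _
  | cons p l ih =>
    rw [lsum_cons]
    refine Submodule.add_mem _ ?_ ih
    have h2 : algebraMap K' (constExt K' F) p.1 * bcHom K' F p.2 =
        (algebraMap K' K'⟮bcHom K' F y⟯ p.1) • bcHom K' F p.2 := by
      rw [IntermediateField.smul_def, smul_eq_mul]
      rfl
    rw [h2]
    exact Submodule.smul_mem _ _ (bcHom_mem_spanV hy _)

include hy in
theorem inv_mem_spanV {s : constExt K' F} (hs : s ∈ spanV (K' := K') y) :
    s⁻¹ ∈ spanV (K' := K') y := by
  rcases eq_or_ne s 0 with rfl | hs0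
  · rw [inv_zero]; exact Submodule.zero_mem _
  have : FiniteDimensional K'⟮bcHom K' F y⟯ (spanV (K' := K') y) :=
    FiniteDimensional.span_of_finite _ (Set.finite_range _)
  let m : spanV (K' := K') y →ₗ[K'⟮bcHom K' F y⟯] spanV (K' := K') y :=
    { toFun := fun v => ⟨s * v, mul_mem_spanV hy hs v.2⟩
      map_add' := fun a b => Subtype.ext (mul_add _ _ _)
      map_smul' := fun r a => Subtype.ext (mul_smul_comm _ _ _) }
  have hinj : Function.Injective m := by
    intro a b hab
    have : s * (a : constExt K' F) = s * b := congrArg Subtype.val hab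
    exact Subtype.ext (mul_left_cancel₀ hs0 this)
  have hsurj := LinearMap.surjective_of_injective hinj
  have h1 : (1 : constExt K' F) ∈ spanV (K' := K') y := by
    have := bcHom_mem_spanV (K' := K') hy (1 : F)
    rwa [map_one] at this
  obtain ⟨t, ht⟩ := hsurj ⟨1, h1⟩
  have ht' : s * (t : constExt K' F) = 1 := congrArg Subtype.val ht
  have : s⁻¹ = t := by
    rw [inv_eq_iff_eq_inv, eq_comm, inv_eq_iff_eq_inv.symm.symm]
    exact (eq_inv_of_mul_eq_one_right ht').symm ▸ rfl
  rw [this]
  exact t.2

include hy in
theorem spanV_eq_top : spanV (K' := K') y = ⊤ := by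
  rw [eq_top_iff]
  intro z _
  obtain ⟨l₁, l₂, -, rfl⟩ := exists_lsum_div F z
  rw [div_eq_mul_inv]
  exact mul_mem_spanV hy (lsum_mem_spanV hy l₁) (inv_mem_spanV hy (lsum_mem_spanV hy l₂))

include hy in
/-- **Degree preservation**: `[F' : K'(bc y)] = [F : K(y)]`. -/
theorem finrank_bcHom :
    FiniteDimensional K'⟮bcHom K' F y⟯ (constExt K' F) ∧
      Module.finrank K'⟮bcHom K' F y⟯ (constExt K' F) = Module.finrank K⟮y⟯ F := by
  have hli : LinearIndependent K'⟮bcHom K' F y⟯
      (fun i => bcHom K' F (Module.finBasis K⟮y⟯ F i)) :=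
    GaussLemmas.linearIndependent_field_of_aeval _ _
      (aeval_bcHom_eq_zero (K' := K') hy _ (Module.finBasis K⟮y⟯ F).linearIndependent)
  have hsp : ⊤ ≤ Submodule.span K'⟮bcHom K' F y⟯
      (Set.range fun i => bcHom K' F (Module.finBasis K⟮y⟯ F i)) :=
    (spanV_eq_top (K' := K') hy).ge
  let b' := Module.Basis.mk hli hsp
  refine ⟨Module.Finite.of_basis b', ?_⟩
  rw [Module.finrank_eq_card_basis b', Fintype.card_fin]

end Degree

variable {F} in
/-- the base change of a separating/generating coordinate is one -/
theorem isFF_bcHom {x : F} (hx : IsFF K x) : IsFF K' (bcHom K' F x) := by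
  have := hx.finite
  exact ⟨transcendental_bcHom hx.transcendental, (finrank_bcHom hx.transcendental).1⟩

/-! ### the prelude's `laurentBaseChange` family -/

section LaurentBaseChange

variable [Algebra ℚ K] [Algebra ℚ K'] (F₀ : IntermediateField ℚ (LaurentSeries ℚ))

omit F in
theorem bc_coeffEmb (z : LaurentSeries ℚ) : bc K K' (coeffEmb K z) = coeffEmb K' z := by
  rw [coeffEmb, coeffEmb, coeffMap_coeffMap]
  exact coeffMap_congr (RingHom.ext_rat _ _) z

omit F in
/-- the constant field extension of `laurentBaseChange K F₀` is `laurentBaseChange K' F₀` -/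
theorem constExt_laurentBaseChange :
    constExt K' (laurentBaseChange K F₀) = laurentBaseChange K' F₀ := by
  apply le_antisymm
  · rw [constExt, IntermediateField.adjoin_le_iff]
    rintro _ ⟨x, hx, rfl⟩
    have hx' : x ∈ laurentBaseChange K F₀ := hx
    clear hx
    rw [mem_laurentBaseChange_iff] at hx'
    induction hx' using Subfield.closure_induction with
    | mem y hy =>
      rcases hy with ⟨a, rfl⟩ | ⟨z, hz, rfl⟩
      · rw [bc_algebraMap]
        exact (laurentBaseChange K' F₀).algebraMap_mem _
      · rw [bc_coeffEmb]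
        exact coeffEmb_mem_laurentBaseChange K' hz
    | one => rw [map_one]; exact one_mem _
    | add x y _ _ hx hy => rw [map_add]; exact add_mem hx hy
    | neg x _ hx => rw [map_neg]; exact neg_mem hx
    | inv x _ hx => rw [map_inv₀]; exact inv_mem hx
    | mul x y _ _ hx hy => rw [map_mul]; exact mul_mem hx hy
  · rw [laurentBaseChange, IntermediateField.adjoin_le_iff]
    rintro _ ⟨z, hz, rfl⟩
    rw [← bc_coeffEmb (K := K)]
    exact bc_mem_constExt _ (coeffEmb_mem_laurentBaseChange K hz)

end LaurentBaseChange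

end Fermat.Agent.S30.Descent.ConstExt
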