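import Mathlib
import Fermat.Prelude.Def_AlgebraicCurve_BaseChangeGalois
import Fermat.Prelude.Def_AlgebraicCurve_Repartitions

/-!
# PROJECT J (S30), slice J-3c (T5): Riemann–Roch spaces under extension of the constant field

Abstract, hypotheses-first.  `K ⊆ K'` fields, `F / K` and `F' / K'` fields with a ring
homomorphism `bc : F →+* F'` and a map of places `e : Place K F → Place K' F'`
(`IsPlaceExt bc e` : `ord_{e P} (bc f) = ord_P f`, `e` injective, every place of `F'` is an
`e P` or is trivial on `bc F`).  `extDiv D := Finsupp.mapDomain e D`.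

* `exists_dual_coordinates` (Mathlib only): in a finite dimensional subspace `V` of a space
  with a point separating family of coordinate functionals `c n` there are `d = dim V`
  coordinates `n j` and a basis `v i` of `V` with `c (n j) (v i) = δ i j`.
* `bc_mem_rr_iff` : `bc f ∈ L(extDiv D) ↔ f ∈ L(D)`; `span_le_rr`.
* `rr_le_span` : with a family `ρ σ` of semilinear automorphisms of `F' / K'` fixing every
  `e P`, acting coefficientwise on point separating coordinates `c n`, with fixed field `K`
  and `(cap)` ("coordinates in `K` ⇒ in `bc F`"): `L(extDiv D) ≤ span_{K'} (bc '' L(D))`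
  as soon as `L(extDiv D)` is finite dimensional.
* `rr_eq_span`, `finrank_rr_eq` : `ℓ(extDiv D) = ℓ(D)` (given that `bc` preserves linear
  independence, i.e. linear disjointness), `finite_rr_of_finite`.
-/

set_option autoImplicit false

namespace Fermat.Agent.S30.Descent.RRBaseChange

open AlgebraicCurve Module

section FixedBasis

variable {K' : Type*} [Field K'] {M : Type*} [AddCommGroup M] [Module K' M]

/-- In a finite-dimensional subspace `V` of a space `M` with a point-separating family of
coordinate functionals `c n`, there are `d = dim V` coordinates `n j` and a basis `v i` of `V`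
with `c (n j) (v i) = δ i j`. -/
theorem exists_dual_coordinates {I : Type*} (c : I → M →ₗ[K'] K')
    (hsep : ∀ v : M, (∀ n, c n v = 0) → v = 0)
    (V : Submodule K' M) [FiniteDimensional K' V] :
    ∃ (n : Fin (finrank K' V) → I) (v : Basis (Fin (finrank K' V)) K' V),
      ∀ i j, c (n j) (v i : M) = if i = j then 1 else 0 := by
  classical
  -- restricted functionals
  set r : I → Module.Dual K' V := fun n => (c n).domRestrict V with hr
  -- they span the dual
  have hspan : Submodule.span K' (Set.range r) = ⊤ := by
    have h1 : (Submodule.span K' (Set.range r)).dualCoannihilator = ⊥ := by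
      rw [eq_bot_iff]
      intro v hv
      rw [Submodule.mem_dualCoannihilator] at hv
      have h2 : (v : M) = 0 := hsep v fun n => hv (r n) (Submodule.subset_span ⟨n, rfl⟩)
      exact (Submodule.mem_bot K').mpr (Subtype.ext h2)
    have h3 := Subspace.dualCoannihilator_dualAnnihilator_eq
      (W := Submodule.span K' (Set.range r))
    rw [h1, Submodule.dualAnnihilator_bot] at h3
    exact h3.symm
  -- extract a basis of the dual from the spanning family
  obtain ⟨b, hb, hbspan, hbli⟩ := exists_linearIndependent K' (Set.range r)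
  have hbtop : ⊤ ≤ Submodule.span K' (Set.range (Subtype.val : b → Module.Dual K' V)) := by
    rw [Subtype.range_coe, hbspan, hspan]
  let β₀ : Basis b K' (Module.Dual K' V) := Basis.mk hbli hbtop
  have : Fintype b := FiniteDimensional.fintypeBasisIndex β₀
  have hcard : Fintype.card b = finrank K' V := by
    rw [← finrank_eq_card_basis β₀, Subspace.dual_finrank_eq]
  let e : b ≃ Fin (finrank K' V) := Fintype.equivFinOfCardEq hcard
  let β : Basis (Fin (finrank K' V)) K' (Module.Dual K' V) := β₀.reindex e
  have hβ : ∀ j, ∃ n, β j = r n := by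
    intro j
    have h1 : β j = ((e.symm j : b) : Module.Dual K' V) := by
      rw [Basis.reindex_apply, Basis.mk_apply]
    rw [h1]
    obtain ⟨n, hn⟩ := hb (e.symm j).2
    exact ⟨n, hn.symm⟩
  choose n hn using hβ
  let v : Basis (Fin (finrank K' V)) K' V := β.dualBasis.map (Module.evalEquiv K' V).symm
  refine ⟨n, v, fun i j => ?_⟩
  have h1 : c (n j) (v i : M) = β j (v i) := by rw [hn j]; rfl
  have h2 : β j (v i) = β.dualBasis i (β j) := by
    have h3 : Module.evalEquiv K' V (v i) = β.dualBasis i := by
      rw [Basis.map_apply, LinearEquiv.apply_symm_apply]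
    rw [← h3]
    rfl
  rw [h1, h2, Basis.dualBasis_apply_self]
  by_cases hij : i = j
  · rw [if_pos hij, if_pos hij.symm]
  · rw [if_neg hij, if_neg (Ne.symm hij)]

end FixedBasis

section Abstract

variable {K K' F F' : Type*} [Field K] [Field K'] [Field F] [Field F']
  [Algebra K F] [Algebra K' F']

/-- The exports of the place extension map (T2): `e P` restricts to `P` with `e = 1`, `e` is
injective, and every place of `F'` is either an `e P` or trivial on `bc F`. -/
structure IsPlaceExt (bc : F →+* F') (e : Place K F → Place K' F') : Prop where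
  ord : ∀ (P : Place K F) (f : F), (e P).ord (bc f) = P.ord f
  inj : Function.Injective e
  dich : ∀ Q' : Place K' F', (∃ Q, Q' = e Q) ∨ ∀ f : F, f ≠ 0 → Q'.ord (bc f) = 0

variable {bc : F →+* F'} {e : Place K F → Place K' F'}

namespace IsPlaceExt

variable (h : IsPlaceExt bc e)
include h

theorem mapDomain_apply (D : Divisor K F) (P : Place K F) :
    (Finsupp.mapDomain e D : Divisor K' F') (e P) = D P :=
  Finsupp.mapDomain_apply h.inj D P

omit h in
theorem mapDomain_apply_of_forall_ne (D : Divisor K F) (Q' : Place K' F')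
    (hQ : ∀ Q, Q' ≠ e Q) : (Finsupp.mapDomain e D : Divisor K' F') Q' = 0 :=
  Finsupp.mapDomain_of_notMem_range D Q' (by rintro ⟨Q, rfl⟩; exact hQ Q rfl)

/-- `bc f ∈ L(extDiv D) ↔ f ∈ L(D)`. -/
theorem bc_mem_rr_iff (D : Divisor K F) (f : F) :
    bc f ∈ riemannRochSpace (Finsupp.mapDomain e D : Divisor K' F') ↔
      f ∈ riemannRochSpace D := by
  rw [mem_riemannRochSpace_iff, mem_riemannRochSpace_iff]
  constructor
  · intro hf P
    rcases hf (e P) with h0 | h1
    · left
      exact (map_eq_zero bc).mp h0
    · right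
      rwa [h.mapDomain_apply, h.ord] at h1
  · intro hf Q'
    rcases eq_or_ne f 0 with rfl | hf0
    · left
      exact map_zero bc
    right
    rcases h.dich Q' with ⟨Q, rfl⟩ | htriv
    · rw [h.mapDomain_apply, h.ord]
      rcases hf Q with h0 | h1
      · exact absurd h0 hf0
      · exact h1
    · have hne : ∀ Q, Q' ≠ e Q := by
        rintro Q rfl
        -- `e Q` is not trivial on `bc F`: a uniformiser at `Q`
        obtain ⟨π, hπ⟩ := IsDiscreteValuationRing.exists_irreducible Q.toValuationSubring
        have h1 : Q.ord (π : F) = 1 := Q.ord_coe_irreducible hπ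
        have h2 := htriv (π : F) (by
          intro h0
          exact hπ.ne_zero (Subtype.ext h0))
        rw [h.ord, h1] at h2
        exact one_ne_zero h2
      rw [mapDomain_apply_of_forall_ne D Q' hne, htriv f hf0, neg_zero]

/-- `extDiv (div f) = div (bc f)`. -/
theorem mapDomain_eq_ord {D : Divisor K F} {f : F} (hf : f ≠ 0)
    (hD : ∀ P : Place K F, D P = P.ord f) (Q' : Place K' F') :
    (Finsupp.mapDomain e D : Divisor K' F') Q' = Q'.ord (bc f) := by
  by_cases hQ : ∃ Q, Q' = e Q
  · obtain ⟨Q, rfl⟩ := hQ
    rw [h.mapDomain_apply, h.ord, hD]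
  · have hne : ∀ Q, Q' ≠ e Q := fun Q hQ2 => hQ ⟨Q, hQ2⟩
    rw [mapDomain_apply_of_forall_ne D Q' hne]
    rcases h.dich Q' with hQ2 | htriv
    · exact absurd hQ2 hQ
    · exact (htriv f hf).symm

/-- the extension of a principal divisor is principal -/
theorem isPrincipal_mapDomain {D : Divisor K F} (hD : Divisor.IsPrincipal D) :
    Divisor.IsPrincipal (Finsupp.mapDomain e D : Divisor K' F') := by
  obtain ⟨f, hf, hD⟩ := hD
  exact ⟨bc f, (map_ne_zero bc).mpr hf, h.mapDomain_eq_ord hf hD⟩

theorem span_le_rr (D : Divisor K F) :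
    Submodule.span K' (bc '' (riemannRochSpace D : Set F)) ≤
      riemannRochSpace (Finsupp.mapDomain e D : Divisor K' F') := by
  rw [Submodule.span_le]
  rintro _ ⟨f, hf, rfl⟩
  exact (h.bc_mem_rr_iff D f).mpr hf

end IsPlaceExt

/-! ### the Galois argument -/

section Galois

variable [Algebra K K']

/-- The exports of the constant-field Galois action (T4): a family `ρ σ` of semilinear
automorphisms of `F' / K'` fixing every extended place, acting coefficientwise on a point
separating family of `K'`-linear coordinates `c n` (the `q`-expansion coefficients), whose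
common fixed field in `K'` is `K`, and such that an element of `F'` all of whose coordinates are
in `K` comes from `F`. -/
structure IsGaloisCoord (bc : F →+* F') (e : Place K F → Place K' F') {G I : Type*}
    (ρ : G → SemilinearAut K' F') (c : I → F' →ₗ[K'] K') : Prop where
  smul_place : ∀ (σ : G) (P : Place K F), ρ σ • e P = e P
  sep : ∀ f' : F', (∀ n, c n f' = 0) → f' = 0
  coord_smul : ∀ (σ : G) (n : I) (f' : F'),
    c n (ρ σ • f') = SemilinearAut.baseAut (ρ σ) (c n f')
  fixed : ∀ a : K', (∀ σ : G, SemilinearAut.baseAut (ρ σ) a = a) →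
    a ∈ Set.range (algebraMap K K')
  cap : ∀ f' : F', (∀ n, c n f' ∈ Set.range (algebraMap K K')) → f' ∈ Set.range bc

variable {G I : Type*} {ρ : G → SemilinearAut K' F'} {c : I → F' →ₗ[K'] K'}

namespace IsGaloisCoord

variable (hg : IsGaloisCoord bc e ρ c)
include hg

/-- the extended divisor is invariant under the Galois family -/
theorem mapDomain_inv_smul (D : Divisor K F) (σ : G) (Q' : Place K' F') :
    (Finsupp.mapDomain e D : Divisor K' F') ((ρ σ)⁻¹ • Q') =
      (Finsupp.mapDomain e D : Divisor K' F') Q' := by
  by_cases hQ : ∃ Q, Q' = e Q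
  · obtain ⟨Q, rfl⟩ := hQ
    have h1 : (ρ σ)⁻¹ • e Q = e Q := by
      rw [inv_smul_eq_iff, hg.smul_place]
    rw [h1]
  · have hQ' : ∀ Q, Q' ≠ e Q := fun Q hQ2 => hQ ⟨Q, hQ2⟩
    rw [IsPlaceExt.mapDomain_apply_of_forall_ne D Q' hQ']
    apply IsPlaceExt.mapDomain_apply_of_forall_ne
    intro Q hQ2
    apply hQ' Q
    rw [inv_smul_eq_iff, hg.smul_place] at hQ2
    exact hQ2

/-- `L(extDiv D)` is stable under the Galois family. -/
theorem smul_mem_rr (D : Divisor K F) (σ : G) {f' : F'}
    (hf : f' ∈ riemannRochSpace (Finsupp.mapDomain e D : Divisor K' F')) :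
    ρ σ • f' ∈ riemannRochSpace (Finsupp.mapDomain e D : Divisor K' F') := by
  rw [mem_riemannRochSpace_iff] at hf ⊢
  intro Q'
  rcases hf ((ρ σ)⁻¹ • Q') with h0 | h1
  · left
    rw [h0, smul_zero]
  · right
    have h2 := SemilinearAut.ord_smul (ρ σ) ((ρ σ)⁻¹ • Q') f'
    rw [smul_inv_smul] at h2
    rw [h2, ← hg.mapDomain_inv_smul D σ Q']
    exact h1

/-- **(T5), hard inclusion**: `L(extDiv D) ≤ span_{K'} (bc '' L(D))`. -/
theorem rr_le_span (hp : IsPlaceExt bc e) (D : Divisor K F)
    [FiniteDimensional K' (riemannRochSpace (Finsupp.mapDomain e D : Divisor K' F'))] :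
    riemannRochSpace (Finsupp.mapDomain e D : Divisor K' F') ≤
      Submodule.span K' (bc '' (riemannRochSpace D : Set F)) := by
  classical
  obtain ⟨n, v, hnv⟩ := exists_dual_coordinates c hg.sep
    (riemannRochSpace (Finsupp.mapDomain e D : Divisor K' F'))
  -- the coordinates `c (n j)` compute the coordinates with respect to `v`
  have hcoord : ∀ (w : riemannRochSpace (Finsupp.mapDomain e D : Divisor K' F')) (j),
      c (n j) (w : F') = v.repr w j := by
    intro w j
    have h1 : (w : F') = ∑ i, v.repr w i • (v i : F') := by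
      have h2 := congrArg Subtype.val (v.sum_repr w)
      rw [← h2, Submodule.coe_sum]
      rfl
    rw [h1, map_sum]
    simp only [map_smul, smul_eq_mul, hnv]
    rw [Finset.sum_eq_single j]
    · rw [if_pos rfl, mul_one]
    · intro i _ hij
      rw [if_neg hij, mul_zero]
    · intro hj
      exact absurd (Finset.mem_univ j) hj
  -- each `v i` is fixed by the Galois family
  have hfixv : ∀ σ i, ρ σ • (v i : F') = v i := by
    intro σ i
    have hmem := hg.smul_mem_rr D σ (v i).2
    have h1 : (⟨ρ σ • (v i : F'), hmem⟩ :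
        riemannRochSpace (Finsupp.mapDomain e D : Divisor K' F')) = v i := by
      apply v.repr.injective
      ext j
      rw [← hcoord _ j, ← hcoord (v i) j]
      show c (n j) (ρ σ • (v i : F')) = _
      rw [hg.coord_smul, hnv]
      split_ifs
      · exact map_one _
      · exact map_zero _
    exact congrArg Subtype.val h1
  -- hence all its coordinates are in `K`
  have hK : ∀ i m, c m (v i : F') ∈ Set.range (algebraMap K K') := by
    intro i m
    apply hg.fixed
    intro σ
    rw [← hg.coord_smul, hfixv]
  -- hence `v i = bc f_i` with `f_i ∈ L(D)`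
  have hbc : ∀ i, ∃ f ∈ riemannRochSpace D, bc f = v i := by
    intro i
    obtain ⟨f, hf⟩ := hg.cap (v i) (hK i)
    refine ⟨f, ?_, hf⟩
    rw [← hp.bc_mem_rr_iff D f, hf]
    exact (v i).2
  intro x hx
  have hx' : x = ∑ i, v.repr ⟨x, hx⟩ i • (v i : F') := by
    have h2 := congrArg Subtype.val (v.sum_repr ⟨x, hx⟩)
    rw [Submodule.coe_sum] at h2
    exact h2.symm
  rw [hx']
  refine Submodule.sum_mem _ fun i _ => Submodule.smul_mem _ _ ?_
  obtain ⟨f, hf, hfv⟩ := hbc i
  exact Submodule.subset_span ⟨f, hf, hfv⟩

/-- **(T5)**: `L(extDiv D) = span_{K'} (bc '' L(D))`. -/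
theorem rr_eq_span (hp : IsPlaceExt bc e) (D : Divisor K F)
    [FiniteDimensional K' (riemannRochSpace (Finsupp.mapDomain e D : Divisor K' F'))] :
    riemannRochSpace (Finsupp.mapDomain e D : Divisor K' F') =
      Submodule.span K' (bc '' (riemannRochSpace D : Set F)) :=
  le_antisymm (hg.rr_le_span hp D) (hp.span_le_rr D)

end IsGaloisCoord

end Galois

/-! ### dimensions -/

section Dimension

variable [Algebra K K']

omit [Algebra K K'] in
/-- `L(D)` is finite dimensional over `K` as soon as `L(extDiv D)` is over `K'` (given linear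
disjointness, in the form: `bc` preserves linear independence of finite families). -/
theorem finite_rr_of_finite (hp : IsPlaceExt bc e)
    (hlin : ∀ (n : ℕ) (v : Fin n → F), LinearIndependent K v →
      LinearIndependent K' fun i => bc (v i))
    (D : Divisor K F)
    [FiniteDimensional K' (riemannRochSpace (Finsupp.mapDomain e D : Divisor K' F'))] :
    Module.Finite K (riemannRochSpace D) := by
  classical
  rw [← Module.rank_lt_aleph0_iff]
  refine lt_of_le_of_lt (rank_le (n := finrank K'
    (riemannRochSpace (Finsupp.mapDomain e D : Divisor K' F'))) fun s hs => ?_)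
    (Cardinal.natCast_lt_aleph0)
  -- a `Fin`-indexed independent family in `F`
  have h1 : LinearIndependent K fun i : Fin s.card =>
      (((s.equivFin.symm i : s) : riemannRochSpace D) : F) := by
    have h2 := hs.map' (riemannRochSpace D).subtype (Submodule.ker_subtype _)
    exact h2.comp _ s.equivFin.symm.injective
  have h3 := hlin _ _ h1
  -- corestrict to `L(extDiv D)`
  let w : Fin s.card → riemannRochSpace (Finsupp.mapDomain e D : Divisor K' F') := fun i =>
    ⟨bc (((s.equivFin.symm i : s) : riemannRochSpace D) : F),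
      (hp.bc_mem_rr_iff D _).mpr ((s.equivFin.symm i : s) : riemannRochSpace D).2⟩
  have h4 : LinearIndependent K' w :=
    LinearIndependent.of_comp
      (riemannRochSpace (Finsupp.mapDomain e D : Divisor K' F')).subtype h3
  have h5 := h4.fintype_card_le_finrank
  rwa [Fintype.card_fin] at h5

variable {G I : Type*} {ρ : G → SemilinearAut K' F'} {c : I → F' →ₗ[K'] K'}

/-- **(T5)**: `L(extDiv D)` is the `K'`-span of the image of a `K`-basis of `L(D)`. -/
theorem rr_eq_span_basis (hp : IsPlaceExt bc e) (hg : IsGaloisCoord bc e ρ c)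
    (hbc : ∀ a : K, bc (algebraMap K F a) = algebraMap K' F' (algebraMap K K' a))
    (D : Divisor K F)
    [FiniteDimensional K' (riemannRochSpace (Finsupp.mapDomain e D : Divisor K' F'))]
    {ι : Type*} (b : Basis ι K (riemannRochSpace D)) :
    riemannRochSpace (Finsupp.mapDomain e D : Divisor K' F') =
      Submodule.span K' (Set.range fun i => bc (b i : F)) := by
  rw [hg.rr_eq_span hp D]
  apply le_antisymm
  · rw [Submodule.span_le]
    rintro _ ⟨f, hf, rfl⟩
    -- `f = ∑ a_i b_i`
    have h1 : f = (b.repr ⟨f, hf⟩).sum fun i a => a • (b i : F) := by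
      have h2 := congrArg Subtype.val (b.linearCombination_repr ⟨f, hf⟩)
      rw [Finsupp.linearCombination_apply, Finsupp.sum, Submodule.coe_sum] at h2
      exact h2.symm
    rw [h1, Finsupp.sum, map_sum]
    refine Submodule.sum_mem _ fun i _ => ?_
    rw [Algebra.smul_def, map_mul, hbc, ← Algebra.smul_def]
    exact Submodule.smul_mem _ _ (Submodule.subset_span ⟨i, rfl⟩)
  · rw [Submodule.span_le]
    rintro _ ⟨i, rfl⟩
    exact Submodule.subset_span ⟨(b i : F), (b i).2, rfl⟩

/-- **(T5)**: `ℓ(extDiv D) = ℓ(D)`. -/
theorem finrank_rr_eq (hp : IsPlaceExt bc e) (hg : IsGaloisCoord bc e ρ c)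
    (hbc : ∀ a : K, bc (algebraMap K F a) = algebraMap K' F' (algebraMap K K' a))
    (hlin : ∀ (n : ℕ) (v : Fin n → F), LinearIndependent K v →
      LinearIndependent K' fun i => bc (v i))
    (D : Divisor K F)
    [FiniteDimensional K' (riemannRochSpace (Finsupp.mapDomain e D : Divisor K' F'))] :
    finrank K' (riemannRochSpace (Finsupp.mapDomain e D : Divisor K' F')) =
      finrank K (riemannRochSpace D) := by
  have := finite_rr_of_finite hp hlin D
  have hli : LinearIndependent K' fun i =>
      bc ((Module.finBasis K (riemannRochSpace D) i : riemannRochSpace D) : F) :=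
    hlin _ _ ((Module.finBasis K (riemannRochSpace D)).linearIndependent.map'
      (riemannRochSpace D).subtype (Submodule.ker_subtype _))
  rw [rr_eq_span_basis hp hg hbc D (Module.finBasis K (riemannRochSpace D)),
    finrank_span_eq_card hli, Fintype.card_fin]

/-- a nonzero element of `L(extDiv D)` forces a nonzero element of `L(D)` -/
theorem exists_ne_zero_of_rr_ne_bot (hp : IsPlaceExt bc e) (hg : IsGaloisCoord bc e ρ c)
    (D : Divisor K F)
    [FiniteDimensional K' (riemannRochSpace (Finsupp.mapDomain e D : Divisor K' F'))]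
    {g' : F'} (hg' : g' ∈ riemannRochSpace (Finsupp.mapDomain e D : Divisor K' F'))
    (hne : g' ≠ 0) : ∃ f ∈ riemannRochSpace D, f ≠ 0 := by
  by_contra hcon
  push Not at hcon
  have h1 : Submodule.span K' (bc '' (riemannRochSpace D : Set F)) = ⊥ := by
    rw [Submodule.span_eq_bot]
    rintro _ ⟨f, hf, rfl⟩
    rw [hcon f hf, map_zero]
  have h2 := hg.rr_le_span hp D hg'
  rw [h1, Submodule.mem_bot] at h2
  exact hne h2

/-- the weak form of (T5), in the hypothesis shape `hT5` of
`Descent.Surjective.isPrincipal_of_extDiv` -/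
theorem exists_ne_zero_of_exists (hp : IsPlaceExt bc e) (hg : IsGaloisCoord bc e ρ c)
    (hfin : ∀ D : Divisor K F,
      FiniteDimensional K' (riemannRochSpace (Finsupp.mapDomain e D : Divisor K' F')))
    (D : Divisor K F)
    (hex : ∃ f' : F', f' ≠ 0 ∧
      f' ∈ riemannRochSpace (Finsupp.mapDomain e D : Divisor K' F')) :
    ∃ f : F, f ≠ 0 ∧ f ∈ riemannRochSpace D := by
  obtain ⟨f', hne, hf'⟩ := hex
  have := hfin D
  obtain ⟨f, hf, hf0⟩ := exists_ne_zero_of_rr_ne_bot hp hg D hf' hne
  exact ⟨f, hf0, hf⟩

end Dimension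

end Abstract

end Fermat.Agent.S30.Descent.RRBaseChange
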