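import Mathlib
import Fermat.Prelude.Def_AlgebraicCurve_BaseChangeGalois
import Fermat.Agent.S18.NonSpecial
import Fermat.Agent.S18.A.RiemannBasic

/-!
# PROJECT J (S30), slice J-3b: descent of torsion divisor classes, abstract form

`F / K` and `F' / K'` function fields, `ext : Place K F → Place K' F'` an injective map of places
("rational places"), `G` a group acting semilinearly on `F' / K'` through `φ` and fixing every
rational place.  Assume

* `(T7)` a place of `F'` whose orbit under a subgroup of finite index of `G` is finite is rational;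
* Riemann's theorem for `F' / K'`.

Then every degree-zero divisor class of `F'` with finite `G`-orbit (e.g. a torsion class, when the
torsion is finite) contains `ext_* D` for a divisor `D` of `F` (`exists_descent`).

The argument: for `m` minimal with `ℓ(D' + m P₀) ≥ 1` the linear system `|D' + m P₀|` consists of
one effective divisor `E'` (`exists_canonical`); the stabiliser of the class fixes `E'`
(`smul_eq_self_of_canonical`, by the rigidity lemma `S18.NonSpecial.eq_of_effective_of_isPrincipal_sub`),
hence permutes its support, so the support consists of rational places.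

The second part builds `extPic0 : Pic0 K F →+ Pic0 K' F'` and the isomorphism on `n`-torsion
(`torsionEquiv`) from the divisor-level statements.
-/

set_option autoImplicit false
set_option linter.unusedSectionVars false
set_option linter.style.haveILetI false

noncomputable section

namespace Fermat.Agent.S30.Descent.Surjective

open AlgebraicCurve Fermat.Agent.S18.NonSpecial

/-! ### the canonical effective representative -/

section Canonical

variable {K : Type*} {F : Type*} [Field K] [Field F] [Algebra K F]

theorem degree_add_single (D : Divisor K F) (P : Place K F) (hP : P.deg = 1) (m : ℤ) :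
    Divisor.degree (D + Finsupp.single P m) = Divisor.degree D + m := by
  rw [map_add, Divisor.degree_single, hP, Nat.cast_one, mul_one]

/-- For a divisor `D` of degree zero and a place `P₀` there are `m` and an effective divisor `E`,
linearly equivalent to `D + m P₀`, with `ℓ(E) = 1`. -/
theorem exists_canonical {g : ℕ} (h : RiemannHyp K F g) [HasPrincipalDivisors K F]
    (P₀ : Place K F) (D : Divisor K F) (hD : Divisor.degree D = 0) :
    ∃ (m : ℕ) (E : Divisor K F), 0 ≤ E ∧ ell E = 1 ∧
      Divisor.IsPrincipal (E - (D + Finsupp.single P₀ (m : ℤ))) := by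
  classical
  have hP₀ := h.deg_one P₀
  have hex : ∃ m : ℕ, 1 ≤ ell (D + Finsupp.single P₀ (m : ℤ)) := by
    refine ⟨g, ?_⟩
    have h1 := riemann_ineq h (D + Finsupp.single P₀ (g : ℤ))
    rw [degree_add_single D P₀ hP₀, hD] at h1
    have : (1 : ℤ) ≤ ell (D + Finsupp.single P₀ (g : ℤ)) := by linarith
    exact_mod_cast this
  set m := Nat.find hex with hm
  have hm1 : 1 ≤ ell (D + Finsupp.single P₀ (m : ℤ)) := Nat.find_spec hex
  -- `ℓ(D + (m-1) P₀) = 0`
  have hprev : ell (D + Finsupp.single P₀ ((m : ℤ) - 1)) = 0 := by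
    rcases Nat.eq_zero_or_pos m with h0 | hpos
    · have hdeg : Divisor.degree (D + Finsupp.single P₀ ((m : ℤ) - 1)) < 0 := by
        rw [degree_add_single D P₀ hP₀, hD, h0]
        norm_num
      exact Fermat.Agent.S18.A.Riemann.ell_eq_zero_of_degree_neg hdeg
    · have hlt : m - 1 < m := Nat.sub_lt hpos one_pos
      have := Nat.find_min hex hlt
      have hcast : ((m - 1 : ℕ) : ℤ) = (m : ℤ) - 1 := by
        rw [Nat.cast_sub hpos, Nat.cast_one]
      rw [hcast] at this
      omega
  have hle : ell (D + Finsupp.single P₀ (m : ℤ)) ≤ 1 := by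
    have h1 := ell_add_single_le h.finite (D + Finsupp.single P₀ ((m : ℤ) - 1)) hP₀
    have h2 : D + Finsupp.single P₀ ((m : ℤ) - 1) + Finsupp.single P₀ 1 =
        D + Finsupp.single P₀ (m : ℤ) := by
      rw [add_assoc, ← Finsupp.single_add, sub_add_cancel]
    rw [h2, hprev] at h1
    exact h1
  have hell : ell (D + Finsupp.single P₀ (m : ℤ)) = 1 := le_antisymm hle hm1
  have := h.finite (D + Finsupp.single P₀ (m : ℤ))
  have hnt : Nontrivial (riemannRochSpace (D + Finsupp.single P₀ (m : ℤ))) :=
    Module.nontrivial_of_finrank_pos (by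
      show 0 < ell (D + Finsupp.single P₀ (m : ℤ))
      omega)
  obtain ⟨f, hf⟩ := exists_ne (0 : riemannRochSpace (D + Finsupp.single P₀ (m : ℤ)))
  have hf0 : (f : F) ≠ 0 := fun h0 => hf (Subtype.ext h0)
  obtain ⟨P, hP, -⟩ := HasPrincipalDivisors.exists_divisor (K := K) (f : F) hf0
  refine ⟨m, D + Finsupp.single P₀ (m : ℤ) + P, ?_, ?_, ⟨(f : F), hf0, fun v => ?_⟩⟩
  · rw [Finsupp.le_def]
    intro v
    have h1 := ((mem_riemannRochSpace_iff.mp f.2) v).resolve_left hf0
    rw [Finsupp.add_apply, hP v]
    simp only [Finsupp.coe_zero, Pi.zero_apply]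
    omega
  · rw [← hell]
    exact Fermat.Agent.S18.A.Riemann.ell_add_div hf0 hP
  · rw [add_sub_cancel_left, hP v]

end Canonical

/-! ### equivariance -/

section Equivariant

variable {K : Type*} {F : Type*} [Field K] [Field F] [Algebra K F] (γ : SemilinearAut K F)

theorem smul_nonneg {E : Divisor K F} (hE : 0 ≤ E) : 0 ≤ γ • E := by
  rw [Finsupp.le_def]
  intro w
  rw [SemilinearAut.divisor_smul_apply]
  exact Finsupp.le_def.mp hE _

theorem isPrincipal_smul {D : Divisor K F} (hD : Divisor.IsPrincipal D) :
    Divisor.IsPrincipal (γ • D) :=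
  Divisor.mem_principal.mp (SemilinearAut.smul_mem_principal γ (Divisor.mem_principal.mpr hD))

/-- An automorphism fixing `P₀` and the class of `D` fixes the canonical effective representative
of `D + m P₀`. -/
theorem smul_eq_self_of_canonical {E D : Divisor K F} {P₀ : Place K F} {m : ℤ} (hE : 0 ≤ E)
    (hE1 : ell E = 1) (hprin : Divisor.IsPrincipal (E - (D + Finsupp.single P₀ m)))
    (hP₀ : γ • P₀ = P₀) (hD : Divisor.IsPrincipal (γ • D - D)) : γ • E = E := by
  apply eq_of_effective_of_isPrincipal_sub hE hE1 (smul_nonneg γ hE)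
  have h1 : γ • E - E = γ • (E - (D + Finsupp.single P₀ m)) - (E - (D + Finsupp.single P₀ m))
      + (γ • D - D) := by
    rw [smul_sub, smul_add, SemilinearAut.smul_single, hP₀]
    abel
  rw [h1]
  exact Divisor.mem_principal.mp ((Divisor.principal (K := K) (F := F)).add_mem
    ((Divisor.principal (K := K) (F := F)).sub_mem
      (Divisor.mem_principal.mpr (isPrincipal_smul γ hprin)) (Divisor.mem_principal.mpr hprin))
    (Divisor.mem_principal.mpr hD))

/-- `γ` fixes the class of `D` iff `γ D - D` is principal. -/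
theorem isPrincipal_smul_sub_of_fix (D : Divisor.degZero (K := K) (F := F))
    (h : γ • Pic0.mk D = Pic0.mk D) :
    Divisor.IsPrincipal (γ • (D : Divisor K F) - (D : Divisor K F)) := by
  rw [SemilinearAut.pic0_smul_mk] at h
  have h1 := (QuotientAddGroup.eq (s := (Divisor.principal (K := K) (F := F)).addSubgroupOf
    (Divisor.degZero (K := K) (F := F)))).mp h.symm
  rw [AddSubgroup.mem_addSubgroupOf] at h1
  have h2 : ((-D + SemilinearAut.degZeroSMulHom γ D : Divisor.degZero (K := K) (F := F)) :
      Divisor K F) = γ • (D : Divisor K F) - (D : Divisor K F) := by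
    rw [AddSubgroup.coe_add, AddSubgroup.coe_neg, SemilinearAut.coe_degZeroSMulHom]
    abel
  rw [h2] at h1
  exact Divisor.mem_principal.mp h1

end Equivariant

/-! ### the descent theorem -/

section Main

variable {K : Type*} {F : Type*} [Field K] [Field F] [Algebra K F]
variable {K' : Type*} {F' : Type*} [Field K'] [Field F'] [Algebra K' F']
variable {G : Type*} [Group G] (φ : G →* SemilinearAut K' F') (ext : Place K F → Place K' F')

/-- the stabiliser of a divisor class -/
def stab (c : Pic0 K' F') : Subgroup G where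
  carrier := {γ | φ γ • c = c}
  one_mem' := by
    show φ 1 • c = c
    rw [map_one, one_smul]
  mul_mem' := by
    intro a b ha hb
    show φ (a * b) • c = c
    rw [map_mul, mul_smul, show φ b • c = c from hb, show φ a • c = c from ha]
  inv_mem' := by
    intro a ha
    show φ a⁻¹ • c = c
    rw [map_inv, inv_smul_eq_iff, show φ a • c = c from ha]

theorem mem_stab {c : Pic0 K' F'} {γ : G} : γ ∈ stab φ c ↔ φ γ • c = c := Iff.rfl

/-- the stabiliser of a class with finite orbit has finite index -/
theorem finiteIndex_stab (c : Pic0 K' F') (horb : (Set.range fun γ : G => φ γ • c).Finite) :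
    (stab φ c).FiniteIndex := by
  classical
  haveI : Finite (Set.range fun γ : G => φ γ • c) := horb
  let f : G ⧸ stab φ c → Set.range fun γ : G => φ γ • c :=
    Quotient.lift (fun γ : G => (⟨φ γ • c, γ, rfl⟩ : Set.range fun γ : G => φ γ • c)) (by
      intro a b hab
      have h1 : a⁻¹ * b ∈ stab φ c := QuotientGroup.leftRel_apply.mp hab
      apply Subtype.ext
      show φ a • c = φ b • c
      have h2 : φ (a⁻¹ * b) • c = c := h1
      rw [map_mul, map_inv, mul_smul, inv_smul_eq_iff] at h2
      exact h2.symm)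
  have hf : Function.Injective f := by
    intro x y
    refine Quotient.inductionOn₂ x y fun a b hab => ?_
    have h1 : φ a • c = φ b • c := congrArg Subtype.val hab
    apply Quotient.sound
    apply QuotientGroup.leftRel_apply.mpr
    show φ (a⁻¹ * b) • c = c
    rw [map_mul, map_inv, mul_smul, inv_smul_eq_iff]
    exact h1.symm
  haveI : Finite (G ⧸ stab φ c) := Finite.of_injective f hf
  exact Subgroup.finiteIndex_of_finite_quotient

/-- **Descent of divisor classes with finite orbit.** -/
theorem exists_descent {g' : ℕ} (HR' : RiemannHyp K' F' g') [HasPrincipalDivisors K' F']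
    (hinj : Function.Injective ext) (hfix : ∀ (γ : G) (P : Place K F), φ γ • ext P = ext P)
    (hT7 : ∀ (H : Subgroup G), H.FiniteIndex → ∀ Q : Place K' F',
      (Set.range fun h : H => φ (h : G) • Q).Finite → Q ∈ Set.range ext)
    (P₀ : Place K F) (D' : Divisor.degZero (K := K') (F := F'))
    (horb : (Set.range fun γ : G => φ γ • Pic0.mk D').Finite) :
    ∃ D : Divisor K F, Divisor.IsPrincipal (Finsupp.mapDomain ext D - (D' : Divisor K' F')) := by
  classical
  obtain ⟨m, E', hE'0, hE'1, hE'p⟩ := exists_canonical HR' (ext P₀) (D' : Divisor K' F') D'.2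
  have hH := finiteIndex_stab φ (Pic0.mk D') horb
  -- the stabiliser fixes `E'`
  have hfixE : ∀ h : stab φ (Pic0.mk D'), φ (h : G) • E' = E' := by
    intro h
    exact smul_eq_self_of_canonical (φ (h : G)) hE'0 hE'1 hE'p (hfix _ P₀)
      (isPrincipal_smul_sub_of_fix (φ (h : G)) D' h.2)
  -- the support of `E'` consists of rational places
  have hsupp : ∀ Q ∈ E'.support, Q ∈ Set.range ext := by
    intro Q hQ
    apply hT7 (stab φ (Pic0.mk D')) hH Q
    refine E'.support.finite_toSet.subset ?_
    rintro _ ⟨h, rfl⟩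
    rw [Finset.mem_coe, Finsupp.mem_support_iff]
    have h1 := SemilinearAut.divisor_smul_apply_smul (φ (h : G)) E' Q
    rw [hfixE h] at h1
    rw [h1]
    exact Finsupp.mem_support_iff.mp hQ
  set E : Divisor K F := Finsupp.comapDomain ext E' hinj.injOn with hE
  have hEE' : Finsupp.mapDomain ext E = E' :=
    Finsupp.mapDomain_comapDomain ext hinj E' (fun Q hQ => hsupp Q (Finset.mem_coe.mp hQ))
  refine ⟨E - Finsupp.single P₀ (m : ℤ), ?_⟩
  have h1 : Finsupp.mapDomain ext (E - Finsupp.single P₀ (m : ℤ)) - (D' : Divisor K' F') =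
      E' - ((D' : Divisor K' F') + Finsupp.single (ext P₀) (m : ℤ)) := by
    rw [Finsupp.mapDomain_sub, hEE', Finsupp.mapDomain_single]
    abel
  rw [h1]
  exact hE'p

end Main

/-! ### the map on `Pic⁰` and the isomorphism on torsion -/

section Pic

variable {K : Type*} {F : Type*} [Field K] [Field F] [Algebra K F]
variable {K' : Type*} {F' : Type*} [Field K'] [Field F'] [Algebra K' F']
variable (ext : Place K F → Place K' F')

/-- push-forward of divisors along the map of places -/
def extDiv : Divisor K F →+ Divisor K' F' := Finsupp.mapDomain.addMonoidHom ext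

theorem extDiv_apply (D : Divisor K F) : extDiv ext D = Finsupp.mapDomain ext D := rfl

theorem degree_extDiv (hdeg : ∀ P : Place K F, P.deg = 1) (hdeg' : ∀ Q : Place K' F', Q.deg = 1)
    (D : Divisor K F) : Divisor.degree (extDiv ext D) = Divisor.degree D := by
  induction D using Finsupp.induction with
  | zero => simp
  | single_add v n D _ _ ih =>
    rw [map_add, map_add, map_add, ih, extDiv_apply, Finsupp.mapDomain_single,
      Divisor.degree_single, Divisor.degree_single, hdeg, hdeg']

/-- compatibility of `ext` with degrees and principal divisors -/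
structure Compat : Prop where
  deg : ∀ D : Divisor K F, Divisor.degree (extDiv ext D) = Divisor.degree D
  principal : ∀ D : Divisor K F, Divisor.IsPrincipal D → Divisor.IsPrincipal (extDiv ext D)

variable {ext}

/-- `ext_*` on divisors of degree zero -/
def extDegZero (h : Compat ext) :
    Divisor.degZero (K := K) (F := F) →+ Divisor.degZero (K := K') (F := F') :=
  ((extDiv ext).comp (Divisor.degZero (K := K) (F := F)).subtype).codRestrict _ (fun D => by
    rw [Divisor.mem_degZero, AddMonoidHom.comp_apply, h.deg]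
    exact D.2)

@[simp] theorem coe_extDegZero (h : Compat ext) (D : Divisor.degZero (K := K) (F := F)) :
    (extDegZero h D : Divisor K' F') = extDiv ext (D : Divisor K F) := rfl

/-- `ext_*` on divisor classes of degree zero -/
def extPic0 (h : Compat ext) : Pic0 K F →+ Pic0 K' F' :=
  QuotientAddGroup.map _ _ (extDegZero h) (by
    rintro ⟨D, hD0⟩ hD
    simp only [AddSubgroup.mem_addSubgroupOf] at hD
    show extDegZero h ⟨D, hD0⟩ ∈ (Divisor.principal (K := K') (F := F')).addSubgroupOf
      (Divisor.degZero (K := K') (F := F'))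
    rw [AddSubgroup.mem_addSubgroupOf, coe_extDegZero]
    exact Divisor.mem_principal.mpr (h.principal D (Divisor.mem_principal.mp hD)))

theorem extPic0_mk (h : Compat ext) (D : Divisor.degZero (K := K) (F := F)) :
    extPic0 h (Pic0.mk D) = Pic0.mk (extDegZero h D) := rfl

theorem mk_eq_mk_iff {D E : Divisor.degZero (K := K') (F := F')} :
    Pic0.mk D = Pic0.mk E ↔ Divisor.IsPrincipal ((E : Divisor K' F') - (D : Divisor K' F')) := by
  unfold Pic0.mk
  rw [QuotientAddGroup.eq, AddSubgroup.mem_addSubgroupOf, Divisor.mem_principal]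
  have : ((-D + E : Divisor.degZero (K := K') (F := F')) : Divisor K' F') =
      (E : Divisor K' F') - (D : Divisor K' F') := by
    rw [AddSubgroup.coe_add, AddSubgroup.coe_neg]
    abel
  rw [this]

theorem mk_eq_zero_iff {K : Type*} {F : Type*} [Field K] [Field F] [Algebra K F]
    {D : Divisor.degZero (K := K) (F := F)} :
    Pic0.mk D = 0 ↔ Divisor.IsPrincipal (D : Divisor K F) := by
  unfold Pic0.mk
  rw [QuotientAddGroup.eq_zero_iff, AddSubgroup.mem_addSubgroupOf, Divisor.mem_principal]

/-- injectivity on `Pic⁰` from the divisor-level statement `(T6)` -/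
theorem extPic0_injective (h : Compat ext)
    (hT6 : ∀ D : Divisor K F, Divisor.degree D = 0 → Divisor.IsPrincipal (extDiv ext D) →
      Divisor.IsPrincipal D) : Function.Injective (extPic0 h) := by
  rw [injective_iff_map_eq_zero]
  intro c hc
  obtain ⟨D, rfl⟩ := Pic0.mk_surjective c
  rw [extPic0_mk, mk_eq_zero_iff, coe_extDegZero] at hc
  rw [mk_eq_zero_iff]
  exact hT6 _ D.2 hc

variable {G : Type*} [Group G] (φ : G →* SemilinearAut K' F')

/-- **Descent**: a class of `F'` with finite orbit comes from `F`. -/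
theorem exists_extPic0_eq (h : Compat ext) {g' : ℕ} (HR' : RiemannHyp K' F' g')
    [HasPrincipalDivisors K' F']
    (hinj : Function.Injective ext) (hfix : ∀ (γ : G) (P : Place K F), φ γ • ext P = ext P)
    (hT7 : ∀ (H : Subgroup G), H.FiniteIndex → ∀ Q : Place K' F',
      (Set.range fun h : H => φ (h : G) • Q).Finite → Q ∈ Set.range ext)
    (P₀ : Place K F) (c' : Pic0 K' F')
    (horb : (Set.range fun γ : G => φ γ • c').Finite) : ∃ c : Pic0 K F, extPic0 h c = c' := by
  obtain ⟨D', rfl⟩ := Pic0.mk_surjective c'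
  obtain ⟨D, hD⟩ := exists_descent φ ext HR' hinj hfix hT7 P₀ D' horb
  have hdeg : Divisor.degree D = 0 := by
    rw [← h.deg D]
    obtain ⟨f, hf0, hf⟩ := hD
    obtain ⟨P, hP, hP0⟩ := HasPrincipalDivisors.exists_divisor (K := K') f hf0
    have h1 : extDiv ext D - (D' : Divisor K' F') = P := by
      ext v
      rw [hP v, ← hf v]
      rfl
    have h2 : Divisor.degree (extDiv ext D - (D' : Divisor K' F')) = 0 := by rw [h1, hP0]
    rw [map_sub, show Divisor.degree (D' : Divisor K' F') = 0 from D'.2, sub_zero] at h2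
    exact h2
  refine ⟨Pic0.mk ⟨D, hdeg⟩, ?_⟩
  rw [extPic0_mk, mk_eq_mk_iff]
  have h3 : ((D' : Divisor K' F') - (extDegZero h ⟨D, hdeg⟩ : Divisor K' F')) =
      -(Finsupp.mapDomain ext D - (D' : Divisor K' F')) := by
    rw [coe_extDegZero, extDiv_apply]
    abel
  rw [h3]
  exact Divisor.mem_principal.mp ((Divisor.principal (K := K') (F := F')).neg_mem
    (Divisor.mem_principal.mpr hD))

theorem extPic0_mem_torsion (h : Compat ext) {n : ℕ} {c : Pic0 K F}
    (hc : c ∈ Pic0.torsion K F n) : extPic0 h c ∈ Pic0.torsion K' F' n := by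
  rw [Pic0.mem_torsion] at hc ⊢
  rw [← map_zsmul, hc, map_zero]

/-- `ext_*` on `n`-torsion -/
def extTorsion (h : Compat ext) (n : ℕ) : Pic0.torsion K F n →+ Pic0.torsion K' F' n :=
  ((extPic0 h).comp (Pic0.torsion K F n).subtype).codRestrict _
    (fun c => extPic0_mem_torsion h c.2)

@[simp] theorem coe_extTorsion (h : Compat ext) (n : ℕ) (c : Pic0.torsion K F n) :
    (extTorsion h n c : Pic0 K' F') = extPic0 h (c : Pic0 K F) := rfl

/-- **(T8)+(T9)**: `ext_*` is an isomorphism on `n`-torsion, when the `n`-torsion of `F'` is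
finite. -/
theorem extTorsion_bijective (h : Compat ext) {g' : ℕ} (HR' : RiemannHyp K' F' g')
    [HasPrincipalDivisors K' F']
    (hinj : Function.Injective ext) (hfix : ∀ (γ : G) (P : Place K F), φ γ • ext P = ext P)
    (hT7 : ∀ (H : Subgroup G), H.FiniteIndex → ∀ Q : Place K' F',
      (Set.range fun h : H => φ (h : G) • Q).Finite → Q ∈ Set.range ext)
    (hT6 : ∀ D : Divisor K F, Divisor.degree D = 0 → Divisor.IsPrincipal (extDiv ext D) →
      Divisor.IsPrincipal D)
    (P₀ : Place K F) (n : ℕ) [Finite (Pic0.torsion K' F' n)] :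
    Function.Bijective (extTorsion h n) := by
  have hI := extPic0_injective h hT6
  refine ⟨fun a b hab => Subtype.ext (hI (congrArg Subtype.val hab)), fun c' => ?_⟩
  have horb : (Set.range fun γ : G => φ γ • (c' : Pic0 K' F')).Finite := by
    refine (Set.toFinite ((Pic0.torsion K' F' n : AddSubgroup (Pic0 K' F')) : Set (Pic0 K' F'))).subset ?_
    rintro _ ⟨γ, rfl⟩
    exact SemilinearAut.smul_mem_torsion (φ γ) c'.2
  obtain ⟨c, hc⟩ := exists_extPic0_eq φ h HR' hinj hfix hT7 P₀ (c' : Pic0 K' F') horb
  have hct : c ∈ Pic0.torsion K F n := by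
    rw [Pic0.mem_torsion]
    apply hI
    rw [map_zsmul, hc, map_zero]
    exact Pic0.mem_torsion.mp c'.2
  exact ⟨⟨c, hct⟩, Subtype.ext hc⟩

/-- the isomorphism on `n`-torsion -/
def torsionEquiv (h : Compat ext) {g' : ℕ} (HR' : RiemannHyp K' F' g')
    [HasPrincipalDivisors K' F']
    (hinj : Function.Injective ext) (hfix : ∀ (γ : G) (P : Place K F), φ γ • ext P = ext P)
    (hT7 : ∀ (H : Subgroup G), H.FiniteIndex → ∀ Q : Place K' F',
      (Set.range fun h : H => φ (h : G) • Q).Finite → Q ∈ Set.range ext)
    (hT6 : ∀ D : Divisor K F, Divisor.degree D = 0 → Divisor.IsPrincipal (extDiv ext D) →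
      Divisor.IsPrincipal D)
    (P₀ : Place K F) (n : ℕ) [Finite (Pic0.torsion K' F' n)] :
    Pic0.torsion K F n ≃+ Pic0.torsion K' F' n :=
  AddEquiv.ofBijective (extTorsion h n) (extTorsion_bijective φ h HR' hinj hfix hT7 hT6 P₀ n)

@[simp] theorem coe_torsionEquiv (h : Compat ext) {g' : ℕ} (HR' : RiemannHyp K' F' g')
    [HasPrincipalDivisors K' F']
    (hinj : Function.Injective ext) (hfix : ∀ (γ : G) (P : Place K F), φ γ • ext P = ext P)
    (hT7 : ∀ (H : Subgroup G), H.FiniteIndex → ∀ Q : Place K' F',
      (Set.range fun h : H => φ (h : G) • Q).Finite → Q ∈ Set.range ext)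
    (hT6 : ∀ D : Divisor K F, Divisor.degree D = 0 → Divisor.IsPrincipal (extDiv ext D) →
      Divisor.IsPrincipal D)
    (P₀ : Place K F) (n : ℕ) [Finite (Pic0.torsion K' F' n)] (c : Pic0.torsion K F n) :
    (torsionEquiv φ h HR' hinj hfix hT7 hT6 P₀ n c : Pic0 K' F') = extPic0 h (c : Pic0 K F) := rfl

/-- `(T6)` from the weak form of `(T5)`: if `L(ext_* D) ≠ 0` implies `L(D) ≠ 0`, then a divisor of
degree zero which becomes principal is principal. -/
theorem isPrincipal_of_extDiv (hdeg : ∀ P : Place K F, P.deg = 1) [HasPrincipalDivisors K F]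
    (hT5 : ∀ D : Divisor K F, (∃ f' : F', f' ≠ 0 ∧ f' ∈ riemannRochSpace (extDiv ext D)) →
      ∃ f : F, f ≠ 0 ∧ f ∈ riemannRochSpace D)
    (D : Divisor K F) (hD : Divisor.degree D = 0) (hp : Divisor.IsPrincipal (extDiv ext D)) :
    Divisor.IsPrincipal D := by
  obtain ⟨f', hf'0, hf'⟩ := hp
  -- `f'⁻¹ ∈ L(ext_* D)`
  have h1 : ∃ f'' : F', f'' ≠ 0 ∧ f'' ∈ riemannRochSpace (extDiv ext D) := by
    refine ⟨f'⁻¹, inv_ne_zero hf'0, ?_⟩
    rw [mem_riemannRochSpace_iff]
    intro v
    right
    rw [Place.ord_inv, hf' v]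
  obtain ⟨f, hf0, hf⟩ := hT5 D h1
  obtain ⟨P, hP, hP0⟩ := HasPrincipalDivisors.exists_divisor (K := K) f hf0
  have hpos : 0 ≤ D + P := by
    rw [Finsupp.le_def]
    intro v
    have h2 := ((mem_riemannRochSpace_iff.mp hf) v).resolve_left hf0
    rw [Finsupp.add_apply, hP v]
    simp only [Finsupp.coe_zero, Pi.zero_apply]
    omega
  have hz : D + P = 0 :=
    Fermat.Agent.S18.A.Riemann.eq_zero_of_degree_eq_zero hdeg hpos (by rw [map_add, hD, hP0, add_zero])
  refine ⟨f⁻¹, inv_ne_zero hf0, fun v => ?_⟩
  rw [Place.ord_inv, ← hP v]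
  have h3 := congrArg (fun E : Divisor K F => E v) hz
  simp only [Finsupp.add_apply, Finsupp.coe_zero, Pi.zero_apply] at h3
  omega

end Pic

end Fermat.Agent.S30.Descent.Surjective
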