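import Mathlib
import Fermat.Prelude.Def_AlgebraicCurve_BaseChangeGalois
import Fermat.Prelude.Def_ModularCurve_LaurentCoeff

/-!
# PROJECT J (S30), slice J-3b, step (T4): the coefficientwise action of `Aut(K'/K)`

Laurent model: `K ⊆ K'` fields and `F' : IntermediateField K' (LaurentSeries K')` stable under the
coefficientwise action of `Aut(K'/K)` (`Stable K F'`), e.g. `F' = K'(bc '' S)` for any set `S` of
series with coefficients in `K` (`stable_adjoin_image`; `bc = coeffMap (algebraMap K K')`).

* `constGalois : (K' ≃ₐ[K] K') →* SemilinearAut K' F'` with `coe_constGalois_smul`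
  (coefficientwise), `constGalois_smul_algebraMap` (action on constants), `baseAut_constGalois`,
  `constGalois_smul_of_bc` (series with coefficients in `K` are fixed);
* `smul_ext_eq` : a semilinear automorphism fixing the image of `ι : F → F'` pointwise fixes every
  place of `F'` which is determined by its restriction to `F`.
-/

set_option autoImplicit false
set_option linter.unusedSectionVars false

noncomputable section

namespace Fermat.Agent.S30.Descent.ConstGalois

open AlgebraicCurve ModularCurve IntermediateField HahnSeries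

variable (K : Type*) {K' : Type*} [Field K] [Field K'] [Algebra K K']

/-- `F'` is stable under the coefficientwise action of `Aut(K'/K)`. -/
def Stable (F' : IntermediateField K' (LaurentSeries K')) : Prop :=
  ∀ (s : K' ≃ₐ[K] K') (y : LaurentSeries K'), y ∈ F' → coeffMap (s : K' →+* K') y ∈ F'

variable {K}

/-- base change of coefficients of Laurent series -/
abbrev bc : LaurentSeries K →+* LaurentSeries K' := coeffMap (algebraMap K K')

theorem coeffMap_bc (s : K' ≃ₐ[K] K') (y : LaurentSeries K) :
    coeffMap (s : K' →+* K') (bc (K' := K') y) = bc y := by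
  rw [bc, coeffMap_coeffMap]
  exact coeffMap_congr (RingHom.ext fun c => s.commutes c) y

/-- the field generated over `K'` by series with coefficients in `K` is stable -/
theorem stable_adjoin_image (S : Set (LaurentSeries K)) :
    Stable K (IntermediateField.adjoin K' ((bc (K' := K')) '' S)) := by
  intro s y hy
  have hy' : y ∈ Subfield.closure (Set.range (algebraMap K' (LaurentSeries K')) ∪
      ((bc (K' := K')) '' S)) := hy
  clear hy
  induction hy' using Subfield.closure_induction with
  | mem z hz =>
      rcases hz with ⟨a, rfl⟩ | ⟨w, hw, rfl⟩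
      · rw [coeffMap_algebraMap]
        exact (IntermediateField.adjoin K' ((bc (K' := K')) '' S)).algebraMap_mem _
      · rw [coeffMap_bc]
        exact IntermediateField.subset_adjoin K' _ ⟨w, hw, rfl⟩
  | one => simp
  | add x y _ _ hx hy => simpa using add_mem hx hy
  | neg x _ hx => simpa using neg_mem hx
  | inv x _ hx => simpa using inv_mem hx
  | mul x y _ _ hx hy => simpa using mul_mem hx hy

variable {F' : IntermediateField K' (LaurentSeries K')} (hst : Stable K F')

/-- the coefficientwise ring automorphism of `F'` attached to `s ∈ Aut(K'/K)` -/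
def coeffRingAut (s : K' ≃ₐ[K] K') : F' ≃+* F' where
  toFun x := ⟨coeffMap (s : K' →+* K') (x : LaurentSeries K'), hst s _ x.2⟩
  invFun x := ⟨coeffMap (s.symm : K' →+* K') (x : LaurentSeries K'), hst s.symm _ x.2⟩
  left_inv x := Subtype.ext <| by
    show coeffMap (s.symm : K' →+* K') (coeffMap (s : K' →+* K') (x : LaurentSeries K'))
      = (x : LaurentSeries K')
    rw [coeffMap_coeffMap,
      coeffMap_congr (g := RingHom.id K') (RingHom.ext fun a => s.symm_apply_apply a)
        (x : LaurentSeries K'), coeffMap_id]
  right_inv x := Subtype.ext <| by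
    show coeffMap (s : K' →+* K') (coeffMap (s.symm : K' →+* K') (x : LaurentSeries K'))
      = (x : LaurentSeries K')
    rw [coeffMap_coeffMap,
      coeffMap_congr (g := RingHom.id K') (RingHom.ext fun a => s.apply_symm_apply a)
        (x : LaurentSeries K'), coeffMap_id]
  map_mul' x y :=
    Subtype.ext (map_mul (coeffMap (s : K' →+* K')) (x : LaurentSeries K') (y : LaurentSeries K'))
  map_add' x y :=
    Subtype.ext (map_add (coeffMap (s : K' →+* K')) (x : LaurentSeries K') (y : LaurentSeries K'))

@[simp]
theorem coe_coeffRingAut_apply (s : K' ≃ₐ[K] K') (x : F') :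
    (coeffRingAut hst s x : LaurentSeries K') = coeffMap (s : K' →+* K') (x : LaurentSeries K') :=
  rfl

theorem coeffRingAut_algebraMap (s : K' ≃ₐ[K] K') (a : K') :
    coeffRingAut hst s (algebraMap K' F' a) = algebraMap K' F' (s a) :=
  Subtype.ext (coeffMap_algebraMap (s : K' →+* K') a)

/-- **(T4)** the coefficientwise action of `Aut(K'/K)` on `F' / K'`. -/
def constGalois : (K' ≃ₐ[K] K') →* SemilinearAut K' F' where
  toFun s := ⟨(coeffRingAut hst s, s.toRingEquiv), fun a => coeffRingAut_algebraMap hst s a⟩
  map_one' := by
    refine Subtype.ext (Prod.ext (RingEquiv.ext fun x => Subtype.ext ?_) rfl)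
    show coeffMap ((1 : K' ≃ₐ[K] K') : K' →+* K') (x : LaurentSeries K') = (x : LaurentSeries K')
    rw [show ((1 : K' ≃ₐ[K] K') : K' →+* K') = RingHom.id K' from RingHom.ext fun _ => rfl,
      coeffMap_id]
  map_mul' s t := by
    refine Subtype.ext (Prod.ext (RingEquiv.ext fun x => Subtype.ext ?_) rfl)
    show coeffMap ((s * t : K' ≃ₐ[K] K') : K' →+* K') (x : LaurentSeries K')
      = coeffMap (s : K' →+* K') (coeffMap (t : K' →+* K') (x : LaurentSeries K'))
    rw [coeffMap_coeffMap]
    exact coeffMap_congr (RingHom.ext fun _ => rfl) _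

@[simp]
theorem toRingAut_constGalois (s : K' ≃ₐ[K] K') :
    SemilinearAut.toRingAut (constGalois hst s) = coeffRingAut hst s := rfl

@[simp]
theorem baseAut_constGalois (s : K' ≃ₐ[K] K') :
    SemilinearAut.baseAut (constGalois hst s) = s.toRingEquiv := rfl

theorem coe_constGalois_smul (s : K' ≃ₐ[K] K') (x : F') :
    ((constGalois hst s • x : F') : LaurentSeries K')
      = coeffMap (s : K' →+* K') (x : LaurentSeries K') := rfl

/-- the action on constants -/
theorem constGalois_smul_algebraMap (s : K' ≃ₐ[K] K') (a : K') :
    constGalois hst s • algebraMap K' F' a = algebraMap K' F' (s a) :=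
  coeffRingAut_algebraMap hst s a

/-- series with coefficients in `K` are fixed -/
theorem constGalois_smul_of_bc (s : K' ≃ₐ[K] K') (x : F') (y : LaurentSeries K)
    (hxy : (x : LaurentSeries K') = bc y) : constGalois hst s • x = x := by
  apply Subtype.ext
  rw [coe_constGalois_smul, hxy, coeffMap_bc]

/-! ### rational places are fixed -/

section Fix

variable {K₁ : Type*} {F₁ : Type*} [Field K₁] [Field F₁] [Algebra K₁ F₁]
variable {K₂ : Type*} {F₂ : Type*} [Field K₂] [Field F₂] [Algebra K₂ F₂]

/-- A semilinear automorphism fixing `ι F₁` pointwise fixes every place of `F₂` which is the only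
place with its restriction to `F₁`. -/
theorem smul_ext_eq (ι : F₁ →+* F₂) (ext : Place K₁ F₁ → Place K₂ F₂)
    (hord : ∀ (P : Place K₁ F₁) (f : F₁), (ext P).ord (ι f) = P.ord f)
    (huniq : ∀ (P : Place K₁ F₁) (Q : Place K₂ F₂), (∀ f : F₁, Q.ord (ι f) = P.ord f) → Q = ext P)
    (γ : SemilinearAut K₂ F₂) (hγ : ∀ f : F₁, γ • ι f = ι f) (P : Place K₁ F₁) :
    γ • ext P = ext P := by
  apply huniq
  intro f
  have h1 := SemilinearAut.ord_smul γ (ext P) (ι f)
  rw [hγ f] at h1
  rw [h1, hord]

end Fix

end Fermat.Agent.S30.Descent.ConstGalois
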