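import Mathlib

/-!
# PROJECT J (S30), slice J-3b: automorphisms of an algebraically closed field over a subfield

`K ⊆ K'` fields, `K'` algebraically closed.

* `exists_algEquiv_add` : for `a : K'` transcendental over `K` and `c : K` there is a
  `K`-automorphism `σ` of `K'` with `σ a = a + c` (extend `{a}` to a transcendence basis, shift the
  variable `a` in the polynomial ring, extend to the algebraic closure).
* `infinite_orbit_of_transcendental` (characteristic zero): the orbit of a transcendental element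
  under a subgroup of finite index of `Aut(K'/K)` is infinite.
* `isAlgebraic_of_finite_orbit`, `mem_range_of_finite_orbit` : an element with finite orbit under a
  subgroup of finite index is algebraic over `K`, hence in `K` if `K` is algebraically closed.
-/

set_option autoImplicit false
set_option linter.style.haveILetI false

noncomputable section

namespace Fermat.Agent.S30.Descent.FixedField

open MvPolynomial IntermediateField

variable {K : Type*} {K' : Type*} [Field K] [Field K'] [Algebra K K']

section Shift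

variable {ι : Type*} [DecidableEq ι] (K) (i₀ : ι) (c : K)

/-- the substitution `X i₀ ↦ X i₀ + c` -/
def shiftHom : MvPolynomial ι K →ₐ[K] MvPolynomial ι K :=
  aeval fun i => if i = i₀ then X i + C c else X i

@[simp] theorem shiftHom_X_self : shiftHom K i₀ c (X i₀) = X i₀ + C c := by
  simp [shiftHom]

theorem shiftHom_X_of_ne {i : ι} (h : i ≠ i₀) : shiftHom K i₀ c (X i) = X i := by
  simp [shiftHom, h]

theorem shiftHom_comp_neg : (shiftHom K i₀ c).comp (shiftHom K i₀ (-c)) = AlgHom.id K _ := by
  apply MvPolynomial.algHom_ext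
  intro i
  by_cases h : i = i₀
  · subst h
    simp
  · simp [shiftHom_X_of_ne K i₀ _ h]

/-- the substitution `X i₀ ↦ X i₀ + c` as an automorphism -/
def shiftEquiv : MvPolynomial ι K ≃ₐ[K] MvPolynomial ι K :=
  AlgEquiv.ofAlgHom (shiftHom K i₀ c) (shiftHom K i₀ (-c)) (shiftHom_comp_neg K i₀ c)
    (by simpa using shiftHom_comp_neg K i₀ (-c))

@[simp] theorem shiftEquiv_X_self : shiftEquiv K i₀ c (X i₀) = X i₀ + C c :=
  shiftHom_X_self K i₀ c

end Shift

/-- **Shifting a transcendental element**: there is a `K`-automorphism of the algebraically closed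
field `K'` sending the transcendental element `a` to `a + c`. -/
theorem exists_algEquiv_add [IsAlgClosed K'] {a : K'} (ha : Transcendental K a) (c : K) :
    ∃ σ : K' ≃ₐ[K] K', σ a = a + algebraMap K K' c := by
  classical
  have hs : AlgebraicIndepOn K id ({a} : Set K') := by
    have : AlgebraicIndependent K (fun x : ({a} : Set K') => (x : K')) :=
      (algebraicIndependent_singleton_iff (⟨a, rfl⟩ : ({a} : Set K'))).mpr ha
    exact this
  obtain ⟨t, hst, ht⟩ := exists_isTranscendenceBasis_superset hs
  have hat : a ∈ t := hst rfl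
  set x : t → K' := fun i => (i : K') with hxdef
  set i₀ : t := ⟨a, hat⟩ with hi₀
  have hx : AlgebraicIndependent K x := ht.1
  haveI := IsAlgClosed.isAlgClosure_of_transcendence_basis x ht
  let e := hx.aevalEquiv
  let θ : Algebra.adjoin K (Set.range x) ≃ₐ[K] Algebra.adjoin K (Set.range x) :=
    e.symm.trans ((shiftEquiv K i₀ c).trans e)
  let σ₀ : K' ≃+* K' := IsAlgClosure.equivOfEquiv K' K' θ.toRingEquiv
  have hσ₀ : ∀ s : Algebra.adjoin K (Set.range x),
      σ₀ (algebraMap _ K' s) = algebraMap _ K' (θ s) := fun s =>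
    IsAlgClosure.equivOfEquiv_algebraMap K' K' θ.toRingEquiv s
  have hcomm : ∀ r : K, σ₀ (algebraMap K K' r) = algebraMap K K' r := by
    intro r
    have h1 : algebraMap K K' r =
        algebraMap (Algebra.adjoin K (Set.range x)) K' (algebraMap K _ r) := rfl
    rw [h1, hσ₀, AlgEquiv.commutes]
  refine ⟨AlgEquiv.ofRingEquiv (f := σ₀) hcomm, ?_⟩
  show σ₀ a = _
  have h2 : a = algebraMap (Algebra.adjoin K (Set.range x)) K' (e (X i₀)) := by
    rw [hx.algebraMap_aevalEquiv, aeval_X]
  have h3 : θ (e (X i₀)) = e (X i₀ + C c) := by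
    show e ((shiftEquiv K i₀ c) (e.symm (e (X i₀)))) = _
    rw [AlgEquiv.symm_apply_apply, shiftEquiv_X_self]
  conv_lhs => rw [h2]
  rw [hσ₀, h3, hx.algebraMap_aevalEquiv, map_add, aeval_X, aeval_C]

/-- The orbit of a transcendental element under a subgroup of finite index of `Aut(K'/K)` is
infinite (characteristic zero). -/
theorem infinite_orbit_of_transcendental [IsAlgClosed K'] [CharZero K] {a : K'}
    (ha : Transcendental K a) (H : Subgroup (K' ≃ₐ[K] K')) [H.FiniteIndex] :
    (Set.range fun h : H => (h : K' ≃ₐ[K] K') a).Infinite := by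
  classical
  haveI : CharZero K' := charZero_of_injective_algebraMap (algebraMap K K').injective
  choose σ hσ using fun n : ℕ => exists_algEquiv_add ha (n : K)
  haveI : Finite ((K' ≃ₐ[K] K') ⧸ H) := Subgroup.finite_quotient_of_finiteIndex
  obtain ⟨y, hy⟩ := Finite.exists_infinite_fiber
    (fun n : ℕ => (QuotientGroup.mk (σ n) : (K' ≃ₐ[K] K') ⧸ H))
  obtain ⟨⟨m, hm⟩⟩ := hy.nonempty
  -- the elements `(σ m)⁻¹ * σ n`, `n` in the fibre, lie in `H`
  have hmem : ∀ n : (fun n : ℕ => (QuotientGroup.mk (σ n) : (K' ≃ₐ[K] K') ⧸ H)) ⁻¹' {y},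
      (σ m)⁻¹ * σ n ∈ H := by
    intro n
    rw [← QuotientGroup.eq]
    have h1 : (QuotientGroup.mk (σ n) : (K' ≃ₐ[K] K') ⧸ H) = y := n.2
    have h2 : (QuotientGroup.mk (σ m) : (K' ≃ₐ[K] K') ⧸ H) = y := hm
    rw [h1, h2]
  let f : (fun n : ℕ => (QuotientGroup.mk (σ n) : (K' ≃ₐ[K] K') ⧸ H)) ⁻¹' {y} → K' :=
    fun n => ((σ m)⁻¹ * σ n) a
  have hf : Function.Injective f := by
    intro n n' hnn'
    have h1 : (σ m)⁻¹ ((σ n) a) = (σ m)⁻¹ ((σ n') a) := hnn'
    have h2 := (σ m)⁻¹.injective h1
    rw [hσ, hσ] at h2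
    have h3 : ((n : ℕ) : K) = ((n' : ℕ) : K) :=
      (algebraMap K K').injective (add_left_cancel h2)
    exact Subtype.ext (by exact_mod_cast h3)
  refine Set.infinite_of_injective_forall_mem hf fun n => ?_
  exact ⟨⟨_, hmem n⟩, rfl⟩

/-- An element with finite orbit under a subgroup of finite index is algebraic. -/
theorem isAlgebraic_of_finite_orbit [IsAlgClosed K'] [CharZero K] {a : K'}
    (H : Subgroup (K' ≃ₐ[K] K')) [H.FiniteIndex]
    (hfin : (Set.range fun h : H => (h : K' ≃ₐ[K] K') a).Finite) : IsAlgebraic K a := by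
  by_contra hna
  exact infinite_orbit_of_transcendental (K := K) hna H hfin

/-- `K` algebraically closed: an element of `K'` with finite orbit under a subgroup of finite index
of `Aut(K'/K)` lies in `K`. -/
theorem mem_range_of_finite_orbit [IsAlgClosed K] [IsAlgClosed K'] [CharZero K] {a : K'}
    (H : Subgroup (K' ≃ₐ[K] K')) [H.FiniteIndex]
    (hfin : (Set.range fun h : H => (h : K' ≃ₐ[K] K') a).Finite) :
    a ∈ Set.range (algebraMap K K') := by
  have halg := isAlgebraic_of_finite_orbit H hfin
  have : Algebra.IsAlgebraic K K⟮a⟯ :=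
    IntermediateField.isAlgebraic_adjoin_simple halg.isIntegral
  have h := IntermediateField.eq_bot_of_isAlgClosed_of_isAlgebraic K⟮a⟯
  have hmem : a ∈ K⟮a⟯ := IntermediateField.mem_adjoin_simple_self K a
  rw [h, IntermediateField.mem_bot] at hmem
  exact hmem

/-- `K` algebraically closed: the fixed field of `Aut(K'/K)` is `K`. -/
theorem mem_range_of_fixed [IsAlgClosed K] [IsAlgClosed K'] [CharZero K] {a : K'}
    (hfix : ∀ σ : K' ≃ₐ[K] K', σ a = a) : a ∈ Set.range (algebraMap K K') := by
  haveI : (⊤ : Subgroup (K' ≃ₐ[K] K')).FiniteIndex := inferInstance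
  apply mem_range_of_finite_orbit (⊤ : Subgroup (K' ≃ₐ[K] K'))
  refine (Set.finite_singleton a).subset ?_
  rintro _ ⟨h, rfl⟩
  exact hfix _

end Fermat.Agent.S30.Descent.FixedField
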