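import Mathlib
import Fermat.Agent.S30.Descent.RRBaseChange
import Fermat.Agent.S30.Descent.Surjective

/-!
# PROJECT J (S30), slice J-3c (T6): `extPic0` is injective

Glue of `Descent.RRBaseChange` ((T5): `L(extDiv D) = span (bc '' L(D))`) with the abstract
statements of `Descent.Surjective` (`Compat`, `extPic0`, `isPrincipal_of_extDiv`,
`extTorsion_bijective`).

* `compat` : `Surjective.Compat e` from `IsPlaceExt bc e` and degree-one places on both sides;
* `isPrincipal_of_extDiv` : **(T6)** a divisor of degree zero of `F` which becomes principal in `F'`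
  is principal;
* `extPic0_injective`;
* `extTorsion_bijective`, `torsionEquiv` : the `hT6`-free versions of the (T8)+(T9) statements.
-/

set_option autoImplicit false

namespace Fermat.Agent.S30.Descent.Injective

open AlgebraicCurve Fermat.Agent.S30.Descent Fermat.Agent.S18.NonSpecial

variable {K K' F F' : Type*} [Field K] [Field K'] [Field F] [Field F']
  [Algebra K F] [Algebra K' F']
variable {bc : F →+* F'} {e : Place K F → Place K' F'}

/-- `Surjective.Compat` from the (T2) exports and degree-one places. -/
theorem compat (hp : RRBaseChange.IsPlaceExt bc e) (hdeg : ∀ P : Place K F, P.deg = 1)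
    (hdeg' : ∀ Q : Place K' F', Q.deg = 1) : Surjective.Compat e :=
  ⟨Surjective.degree_extDiv e hdeg hdeg', fun _ hD => hp.isPrincipal_mapDomain hD⟩

variable [Algebra K K'] {G I : Type*} {ρ : G → SemilinearAut K' F'} {c : I → F' →ₗ[K'] K'}

/-- **(T6)**: a divisor of degree zero which becomes principal after extension of the constant
field is principal. -/
theorem isPrincipal_of_extDiv (hp : RRBaseChange.IsPlaceExt bc e)
    (hg : RRBaseChange.IsGaloisCoord bc e ρ c) (hdeg : ∀ P : Place K F, P.deg = 1)
    [HasPrincipalDivisors K F]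
    (hfin : ∀ D : Divisor K F,
      FiniteDimensional K' (riemannRochSpace (Finsupp.mapDomain e D : Divisor K' F')))
    (D : Divisor K F) (hD : Divisor.degree D = 0)
    (hprin : Divisor.IsPrincipal (Surjective.extDiv e D)) : Divisor.IsPrincipal D :=
  Surjective.isPrincipal_of_extDiv hdeg
    (fun D hex => RRBaseChange.exists_ne_zero_of_exists hp hg hfin D hex) D hD hprin

/-- **(T6)** on `Pic⁰`. -/
theorem extPic0_injective (h : Surjective.Compat e) (hp : RRBaseChange.IsPlaceExt bc e)
    (hg : RRBaseChange.IsGaloisCoord bc e ρ c) (hdeg : ∀ P : Place K F, P.deg = 1)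
    [HasPrincipalDivisors K F]
    (hfin : ∀ D : Divisor K F,
      FiniteDimensional K' (riemannRochSpace (Finsupp.mapDomain e D : Divisor K' F'))) :
    Function.Injective (Surjective.extPic0 h) :=
  Surjective.extPic0_injective h fun D hD hprin =>
    isPrincipal_of_extDiv hp hg hdeg hfin D hD hprin

omit [Algebra K K'] in
/-- finite dimensionality of all `L(E)` on `F'` from Riemann's theorem -/
theorem finiteDimensional_of_riemannHyp {g' : ℕ} (HR' : RiemannHyp K' F' g')
    (D : Divisor K F) :
    FiniteDimensional K' (riemannRochSpace (Finsupp.mapDomain e D : Divisor K' F')) :=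
  HR'.finite _

/-- **(T8)+(T9)** without the hypothesis `hT6`: `ext_*` is bijective on `n`-torsion. -/
theorem extTorsion_bijective {Γ : Type*} [Group Γ] (φ : Γ →* SemilinearAut K' F')
    (h : Surjective.Compat e) (hp : RRBaseChange.IsPlaceExt bc e)
    (hg : RRBaseChange.IsGaloisCoord bc e ρ c) {g' : ℕ} (HR' : RiemannHyp K' F' g')
    [HasPrincipalDivisors K' F'] [HasPrincipalDivisors K F]
    (hdeg : ∀ P : Place K F, P.deg = 1)
    (hfix : ∀ (γ : Γ) (P : Place K F), φ γ • e P = e P)
    (hT7 : ∀ (H : Subgroup Γ), H.FiniteIndex → ∀ Q : Place K' F',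
      (Set.range fun h : H => φ (h : Γ) • Q).Finite → Q ∈ Set.range e)
    (P₀ : Place K F) (n : ℕ) [Finite (Pic0.torsion K' F' n)] :
    Function.Bijective (Surjective.extTorsion h n) :=
  Surjective.extTorsion_bijective φ h HR' hp.inj hfix hT7
    (fun D hD hprin => isPrincipal_of_extDiv hp hg hdeg
      (fun _ => HR'.finite _) D hD hprin) P₀ n

end Fermat.Agent.S30.Descent.Injective
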