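import Mathlib
import Fermat.Agent.S24.Ord
import Fermat.Agent.S30.Descent.RRBaseChange
import Fermat.Agent.S30.Descent.Cap
import Fermat.Agent.S30.Descent.ConstExt
import Fermat.Agent.S30.Descent.ConstGalois
import Fermat.Agent.S30.Descent.FixedField
import Fermat.Agent.S30.Descent.Injective

/-!
# PROJECT J (S30), slice J-3c: (T5) + (T6) in the Laurent model

* `uniq_of_isPlaceExt` : (abstract) a place of `F'` with the same orders on `bc F` as `P` is `e P`;
  `smul_eq_of_isPlaceExt` : a semilinear automorphism fixing `bc F` pointwise fixes every `e P`.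
* `isGaloisCoord` : for `K ⊆ K'` algebraically closed of characteristic zero,
  `F : IntermediateField K K((q))`, `F' = constExt K' F`, `bc = bcHom K' F`, any `e` with
  `IsPlaceExt (bcHom K' F) e` : the family `constGalois σ` (`σ ∈ Aut(K'/K)`) with the coefficient
  functionals `coeffLin` satisfies `RRBaseChange.IsGaloisCoord` — no further hypothesis.
* `rr_eq_span`, `finrank_rr_eq`, `isPrincipal_of_extDiv`, `extPic0_injective` : (T5), (T6) for
  `constExt K' F`.
-/

set_option autoImplicit false

namespace Fermat.Agent.S30.Descent.GaloisCoordLaurent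

open AlgebraicCurve ModularCurve Fermat.Agent.S30.Descent
open Fermat.Agent.S30.Descent.RRBaseChange

section Abstract

variable {K K' F F' : Type*} [Field K] [Field K'] [Field F] [Field F']
  [Algebra K F] [Algebra K' F']
variable {bc : F →+* F'} {e : Place K F → Place K' F'}

/-- a place is determined by its order function -/
theorem place_ext_of_ord {P Q : Place K F} (h : ∀ f : F, P.ord f = Q.ord f) : P = Q := by
  apply Place.ext
  ext f
  rcases eq_or_ne f 0 with rfl | hf
  · simp only [zero_mem]
  rw [Fermat.Agent.S24.Ord.mem_iff, Fermat.Agent.S24.Ord.mem_iff,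
    ← Fermat.Agent.S24.Ord.ord_nonneg_iff P hf, ← Fermat.Agent.S24.Ord.ord_nonneg_iff Q hf, h f]

/-- a place of `F'` with the same orders on `bc F` as `P` is `e P` -/
theorem uniq_of_isPlaceExt (h : IsPlaceExt bc e) (P : Place K F) (Q' : Place K' F')
    (hQ : ∀ f : F, Q'.ord (bc f) = P.ord f) : Q' = e P := by
  rcases h.dich Q' with ⟨Q, rfl⟩ | htriv
  · congr 1
    apply place_ext_of_ord
    intro f
    rw [← hQ f, h.ord]
  · exfalso
    obtain ⟨π, hπ⟩ := IsDiscreteValuationRing.exists_irreducible P.toValuationSubring
    have h1 : P.ord (π : F) = 1 := P.ord_coe_irreducible hπ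
    have h2 := htriv (π : F) (fun h0 => hπ.ne_zero (Subtype.ext h0))
    rw [hQ, h1] at h2
    exact one_ne_zero h2

/-- a semilinear automorphism fixing `bc F` pointwise fixes every extended place -/
theorem smul_eq_of_isPlaceExt (h : IsPlaceExt bc e) (γ : SemilinearAut K' F')
    (hγ : ∀ f : F, γ • bc f = bc f) (P : Place K F) : γ • e P = e P :=
  ConstGalois.smul_ext_eq bc e h.ord (uniq_of_isPlaceExt h) γ hγ P

end Abstract

section Laurent

variable {K K' : Type*} [Field K] [Field K'] [Algebra K K']
variable (F : IntermediateField K (LaurentSeries K))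

/-- `constExt K' F` is stable under the coefficientwise action of `Aut(K'/K)` -/
theorem stable : ConstGalois.Stable K (ConstExt.constExt K' F) :=
  ConstGalois.stable_adjoin_image (F : Set (LaurentSeries K))

/-- the Galois family on `constExt K' F` -/
noncomputable def rho (σ : K' ≃ₐ[K] K') : SemilinearAut K' (ConstExt.constExt K' F) :=
  ConstGalois.constGalois (stable F) σ

theorem rho_smul_bcHom (σ : K' ≃ₐ[K] K') (f : F) :
    rho F σ • ConstExt.bcHom K' F f = ConstExt.bcHom K' F f :=
  ConstGalois.constGalois_smul_of_bc (stable F) σ _ (f : LaurentSeries K) rfl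

variable {F}
variable {e : Place K F → Place K' (ConstExt.constExt K' F)}

/-- **the Galois data of (T5) in the Laurent model**, from the place extension data alone -/
theorem isGaloisCoord [IsAlgClosed K] [IsAlgClosed K'] [CharZero K]
    (hp : IsPlaceExt (ConstExt.bcHom K' F) e) :
    IsGaloisCoord (ConstExt.bcHom K' F) e (rho F) (Cap.coeffLin (ConstExt.constExt K' F)) where
  smul_place σ P := smul_eq_of_isPlaceExt hp (rho F σ) (rho_smul_bcHom F σ) P
  sep := Cap.coeffLin_sep _
  coord_smul _ _ _ := rfl
  fixed _ ha := FixedField.mem_range_of_fixed (K := K) ha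
  cap f' hf' := Cap.cap_field F (ConstExt.constExt K' F) (ConstExt.bcHom K' F)
    (fun _ => rfl) rfl f' hf'

variable [IsAlgClosed K] [IsAlgClosed K'] [CharZero K]

/-- **(T5)** for `constExt K' F`. -/
theorem rr_eq_span (hp : IsPlaceExt (ConstExt.bcHom K' F) e) (D : Divisor K F)
    [FiniteDimensional K' (riemannRochSpace
      (Finsupp.mapDomain e D : Divisor K' (ConstExt.constExt K' F)))] :
    riemannRochSpace (Finsupp.mapDomain e D : Divisor K' (ConstExt.constExt K' F)) =
      Submodule.span K' (ConstExt.bcHom K' F '' (riemannRochSpace D : Set F)) :=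
  (isGaloisCoord hp).rr_eq_span hp D

/-- **(T5)**: `ℓ(extDiv D) = ℓ(D)` for `constExt K' F`. -/
theorem finrank_rr_eq (hp : IsPlaceExt (ConstExt.bcHom K' F) e) (D : Divisor K F)
    [FiniteDimensional K' (riemannRochSpace
      (Finsupp.mapDomain e D : Divisor K' (ConstExt.constExt K' F)))] :
    Module.finrank K' (riemannRochSpace
      (Finsupp.mapDomain e D : Divisor K' (ConstExt.constExt K' F))) =
      Module.finrank K (riemannRochSpace D) :=
  RRBaseChange.finrank_rr_eq hp (isGaloisCoord hp) (ConstExt.bcHom_algebraMap F)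
    (fun _ _ hv => ConstExt.linearIndependent_bcHom F hv) D

/-- **(T6)** for `constExt K' F`. -/
theorem isPrincipal_of_extDiv (hp : IsPlaceExt (ConstExt.bcHom K' F) e)
    (hdeg : ∀ P : Place K F, P.deg = 1) [HasPrincipalDivisors K F]
    (hfin : ∀ D : Divisor K F, FiniteDimensional K' (riemannRochSpace
      (Finsupp.mapDomain e D : Divisor K' (ConstExt.constExt K' F))))
    (D : Divisor K F) (hD : Divisor.degree D = 0)
    (hprin : Divisor.IsPrincipal (Surjective.extDiv e D)) : Divisor.IsPrincipal D :=
  Injective.isPrincipal_of_extDiv hp (isGaloisCoord hp) hdeg hfin D hD hprin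

/-- **(T6)** on `Pic⁰` for `constExt K' F`. -/
theorem extPic0_injective (h : Surjective.Compat e)
    (hp : IsPlaceExt (ConstExt.bcHom K' F) e)
    (hdeg : ∀ P : Place K F, P.deg = 1) [HasPrincipalDivisors K F]
    (hfin : ∀ D : Divisor K F, FiniteDimensional K' (riemannRochSpace
      (Finsupp.mapDomain e D : Divisor K' (ConstExt.constExt K' F)))) :
    Function.Injective (Surjective.extPic0 h) :=
  Injective.extPic0_injective h hp (isGaloisCoord hp) hdeg hfin

end Laurent

end Fermat.Agent.S30.Descent.GaloisCoordLaurent
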