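import Mathlib
import Fermat.Agent.S24.Ord
import Fermat.Agent.S18.A.FibreSep
import Fermat.Agent.S18.A.RiemannThm
import Fermat.Agent.S18.A.Instances
import Fermat.Agent.S18.A.RiemannX1
import Fermat.Agent.S30.Descent.ConstExt
import Fermat.Agent.S30.Descent.RRBaseChange

/-!
# PROJECT J (S30), slice J-3a (T2): extension of places to the constant field extension

Part A (abstract): `φ : F →+* F'` a homomorphism of fields over `K → K'`; restriction of a place
`w` of `F' / K'` to `F`: either trivial on `φ F` or a place `restr φ hφ w hne` of `F / K` with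
`w.ord (φ f) = ramIdx · (restr ..).ord f`.

Part B (Laurent model): `K ⊆ K'` algebraically closed of characteristic zero, `F / K` a function
field of Laurent type, `F' = constExt K' F`: every place `P` of `F` has a unique extension
`extPlace P` to `F'`, it is unramified, and `IsPlaceExt (bcHom K' F) extPlace`.
-/

set_option autoImplicit false
set_option linter.unusedSectionVars false

noncomputable section

namespace Fermat.Agent.S30.Descent.ExtPlace

open AlgebraicCurve IsDedekindDomain WithZero Fermat.Agent.S24.Ord

/-! ### Part A: restriction of places -/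

section Restrict

variable {K K' F F' : Type*} [Field K] [Field K'] [Field F] [Field F'] [Algebra K K']
  [Algebra K F] [Algebra K' F']
variable (φ : F →+* F')

/-- the valuation subring of `F` below the place `w` of `F'` -/
def below (w : Place K' F') : ValuationSubring F := w.toValuationSubring.comap φ

theorem mem_below (w : Place K' F') (f : F) :
    f ∈ below φ w ↔ w.adicValuation (φ f) ≤ 1 := by
  rw [below, ValuationSubring.mem_comap, mem_iff]

theorem map_ne_zero' {f : F} (hf : f ≠ 0) : φ f ≠ 0 := (map_ne_zero_iff _ φ.injective).mpr hf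

theorem ord_nonneg_of_mem (w : Place K' F') {f : F} (hf : f ∈ below φ w) :
    0 ≤ w.ord (φ f) := by
  rcases eq_or_ne f 0 with rfl | hf0
  · simp
  · rw [ord_nonneg_iff w (map_ne_zero' φ hf0), ← mem_below]
    exact hf

theorem mem_below_iff_ord_nonneg (w : Place K' F') {f : F} (hf : f ≠ 0) :
    f ∈ below φ w ↔ 0 ≤ w.ord (φ f) := by
  rw [mem_below, ord_nonneg_iff w (map_ne_zero' φ hf)]

/-- if the ring below is everything, `w` is trivial on `φ F` -/
theorem ord_map_eq_zero_of_below_eq_top (w : Place K' F') (h : below φ w = ⊤) {f : F}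
    (hf : f ≠ 0) : w.ord (φ f) = 0 := by
  have h1 : f ∈ below φ w := h ▸ ValuationSubring.mem_top f
  have h2 : f⁻¹ ∈ below φ w := h ▸ ValuationSubring.mem_top _
  have h3 := (mem_below_iff_ord_nonneg φ w hf).mp h1
  have h4 := (mem_below_iff_ord_nonneg φ w (inv_ne_zero hf)).mp h2
  rw [map_inv₀, w.ord_inv] at h4
  omega

theorem isPrincipalIdealRing_below (w : Place K' F') : IsPrincipalIdealRing (below φ w) := by
  classical
  refine ⟨fun I => ?_⟩
  by_cases hI : I = ⊥
  · subst hI
    exact ⟨⟨0, by simp⟩⟩
  · obtain ⟨g₁, hg₁I, hg₁0⟩ := Submodule.exists_mem_ne_zero_of_ne_bot hI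
    let S : Set ℕ := {n | ∃ g : below φ w, g ∈ I ∧ g ≠ 0 ∧ (w.ord (φ (g : F))).toNat = n}
    have hS : ∃ n, n ∈ S := ⟨_, g₁, hg₁I, hg₁0, rfl⟩
    obtain ⟨g, hgI, hg0, hgn⟩ := Nat.find_spec hS
    refine ⟨⟨g, le_antisymm (fun h hh => ?_) ?_⟩⟩
    · rw [Submodule.mem_span_singleton]
      rcases eq_or_ne h 0 with rfl | hh0
      · exact ⟨0, by simp⟩
      · have hmin : Nat.find hS ≤ (w.ord (φ (h : F))).toNat :=
          Nat.find_min' hS ⟨h, hh, hh0, rfl⟩
        have hgF : (g : F) ≠ 0 := fun h0 => hg0 (Subtype.ext h0)
        have hhF : (h : F) ≠ 0 := fun h0 => hh0 (Subtype.ext h0)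
        have hg2 := map_ne_zero' φ hgF
        have hh2 := map_ne_zero' φ hhF
        have hgn0 := ord_nonneg_of_mem φ w g.2
        have hhn0 := ord_nonneg_of_mem φ w h.2
        have hle : w.ord (φ (g : F)) ≤ w.ord (φ (h : F)) := by
          rw [← hgn] at hmin
          omega
        have hq : (h : F) / (g : F) ∈ below φ w := by
          rw [mem_below, map_div₀, ← ord_nonneg_iff w (div_ne_zero hh2 hg2), div_eq_mul_inv,
            w.ord_mul hh2 (inv_ne_zero hg2), w.ord_inv]
          omega
        refine ⟨⟨_, hq⟩, Subtype.ext ?_⟩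
        show (h : F) / (g : F) * (g : F) = (h : F)
        field_simp
    · rw [Submodule.span_le, Set.singleton_subset_iff]
      exact hgI

variable (hφ : ∀ c : K, φ (algebraMap K F c) = algebraMap K' F' (algebraMap K K' c))

/-- **Restriction of a place** of `F' / K'` which is not trivial on `φ F`. -/
def restr (w : Place K' F') (hne : below φ w ≠ ⊤) : Place K F where
  toValuationSubring := below φ w
  algebraMap_mem' a := by
    show φ (algebraMap K F a) ∈ w.toValuationSubring
    rw [hφ]
    exact w.algebraMap_mem' _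
  ne_top' := hne
  isPrincipalIdealRing' := isPrincipalIdealRing_below φ w

variable (w : Place K' F') (hne : below φ w ≠ ⊤)

theorem mem_restr (f : F) :
    f ∈ (restr φ hφ w hne).toValuationSubring ↔ φ f ∈ w.toValuationSubring := Iff.rfl

/-- images of units of the ring below have `ord = 0` -/
theorem ord_map_unit (u : (restr φ hφ w hne).toValuationSubringˣ) :
    w.ord (φ ((u : (restr φ hφ w hne).toValuationSubring) : F)) = 0 := by
  have h1 := ord_nonneg_of_mem φ w (u : (restr φ hφ w hne).toValuationSubring).2
  have h2 := ord_nonneg_of_mem φ w ((u⁻¹ : (restr φ hφ w hne).toValuationSubringˣ) :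
    (restr φ hφ w hne).toValuationSubring).2
  have hmul : ((u : (restr φ hφ w hne).toValuationSubring) : F) *
      (((u⁻¹ : (restr φ hφ w hne).toValuationSubringˣ) :
        (restr φ hφ w hne).toValuationSubring) : F) = 1 := by
    have h := congrArg (Subtype.val) (Units.mul_inv u)
    rw [Subring.coe_mul, Subring.coe_one] at h
    exact h
  have hu0 : ((u : (restr φ hφ w hne).toValuationSubring) : F) ≠ 0 :=
    left_ne_zero_of_mul_eq_one hmul
  have hv0 : (((u⁻¹ : (restr φ hφ w hne).toValuationSubringˣ) :
      (restr φ hφ w hne).toValuationSubring) : F) ≠ 0 := right_ne_zero_of_mul_eq_one hmul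
  have h3 := w.ord_mul (map_ne_zero' φ hu0) (map_ne_zero' φ hv0)
  rw [← map_mul, hmul, map_one, w.ord_one] at h3
  omega

/-- a uniformiser of the place below -/
def unif : (restr φ hφ w hne).toValuationSubring :=
  (IsDiscreteValuationRing.exists_irreducible (restr φ hφ w hne).toValuationSubring).choose

theorem irreducible_unif : Irreducible (unif φ hφ w hne) :=
  (IsDiscreteValuationRing.exists_irreducible
    (restr φ hφ w hne).toValuationSubring).choose_spec

/-- **The ramification index** of `w` over the place below. -/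
def ramIdx : ℕ := (w.ord (φ ((unif φ hφ w hne : _) : F))).toNat

theorem ord_unif_pos : 0 < w.ord (φ ((unif φ hφ w hne : _) : F)) := by
  have hirr := irreducible_unif φ hφ w hne
  have hπ0 : ((unif φ hφ w hne : _) : F) ≠ 0 := fun h => hirr.ne_zero (Subtype.ext h)
  have h2 := map_ne_zero' φ hπ0
  rw [ord_pos_iff w h2]
  by_contra hnot
  rw [not_lt] at hnot
  have hinv : ((unif φ hφ w hne : _) : F)⁻¹ ∈ (restr φ hφ w hne).toValuationSubring := by
    rw [mem_restr, mem_iff, map_inv₀, map_inv₀]
    exact inv_le_one_of_one_le₀ hnot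
  apply hirr.not_isUnit
  refine IsUnit.of_mul_eq_one ⟨_, hinv⟩ (Subtype.ext ?_)
  show ((unif φ hφ w hne : _) : F) * ((unif φ hφ w hne : _) : F)⁻¹ = 1
  exact mul_inv_cancel₀ hπ0

theorem ramIdx_pos : 0 < ramIdx φ hφ w hne := by
  have := ord_unif_pos φ hφ w hne
  rw [ramIdx]
  omega

theorem ord_map_unif :
    w.ord (φ ((unif φ hφ w hne : _) : F)) = (ramIdx φ hφ w hne : ℤ) := by
  have := ord_unif_pos φ hφ w hne
  rw [ramIdx]
  omega

/-- **`ord` of a restricted function**: `ord_w (φ f) = e(w) · ord_{w|F} f`. -/
theorem ord_map (f : F) :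
    w.ord (φ f) = (ramIdx φ hφ w hne : ℤ) * (restr φ hφ w hne).ord f := by
  rcases eq_or_ne f 0 with rfl | hf
  · simp
  · obtain ⟨u, hu⟩ := (restr φ hφ w hne).exists_unit_mul_zpow hf (irreducible_unif φ hφ w hne)
    have hirr := irreducible_unif φ hφ w hne
    have hπ0 : ((unif φ hφ w hne : _) : F) ≠ 0 := fun h => hirr.ne_zero (Subtype.ext h)
    have hu0 : ((u : (restr φ hφ w hne).toValuationSubring) : F) ≠ 0 := by
      intro h0
      rw [h0, zero_mul] at hu
      exact hf hu
    conv_lhs => rw [hu]
    rw [map_mul, map_zpow₀, w.ord_mul (map_ne_zero' φ hu0) (zpow_ne_zero _ (map_ne_zero' φ hπ0)),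
      ord_map_unit, zero_add, w.ord_zpow, ord_map_unif]
    ring

end Restrict

/-! ### a function with a single pole -/

section SinglePole

open Fermat.Agent.S24.FF Fermat.Agent.S18.A IntermediateField

variable {K F : Type*} [Field K] [Field F] [Algebra K F] [IsAlgClosed K] [CharZero K] {x : F}

theorem isSeparable_of_charZero (hx : IsFF K x) : Algebra.IsSeparable K⟮x⟯ F := by
  have := hx.finite
  have : CharZero K⟮x⟯ := charZero_of_injective_algebraMap (algebraMap K K⟮x⟯).injective
  exact Algebra.IsAlgebraic.isSeparable_of_perfectField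

/-- **Riemann**: for every place `P` there is a non-constant function whose only pole is `P`. -/
theorem exists_single_pole (hx : IsFF K x) (P : Place K F) :
    ∃ y : F, (∀ c : K, algebraMap K F c ≠ y) ∧ ∀ v : Place K F, v ≠ P → 0 ≤ v.ord y := by
  classical
  have := Instances.hasPrincipalDivisors_of_charZero hx
  have hsep := isSeparable_of_charZero hx
  obtain ⟨g, hR, -⟩ := RiemannX1.exists_riemannHyp_of_sep hx hsep
  set D : Divisor K F := Finsupp.single P ((g : ℤ) + 1) with hD
  have hdeg : Divisor.degree D = (g : ℤ) + 1 := by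
    rw [hD, Divisor.degree_single, Instances.deg_one hx P, Nat.cast_one, mul_one]
  have h2 : (2 : ℤ) ≤ Fermat.Agent.S18.NonSpecial.ell D := by
    have := Fermat.Agent.S18.NonSpecial.riemann_ineq hR D
    omega
  have hfin := hR.finite D
  by_contra hcon
  push Not at hcon
  -- every element of `L(D)` is constant
  have hconst : ∀ y ∈ riemannRochSpace D, ∃ c : K, algebraMap K F c = y := by
    intro y hy
    by_contra hc
    push Not at hc
    obtain ⟨v, hv, hlt⟩ := hcon y hc
    have hy0 : y ≠ 0 := fun h0 => hc 0 (by rw [map_zero, h0])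
    have := (Fermat.Agent.S18.A.Riemann.mem_iff_of_ne_zero hy0).mp hy v
    rw [hD, Finsupp.single_apply, if_neg (Ne.symm hv)] at this
    omega
  have hle : riemannRochSpace D ≤ Submodule.span K {(1 : F)} := by
    intro y hy
    obtain ⟨c, rfl⟩ := hconst y hy
    rw [Submodule.mem_span_singleton]
    exact ⟨c, by rw [Algebra.smul_def, mul_one]⟩
  have h1 : Fermat.Agent.S18.NonSpecial.ell D ≤ 1 := by
    have := Submodule.finrank_mono hle
    rw [finrank_span_singleton (one_ne_zero)] at this
    exact this
  omega

end SinglePole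

/-! ### Part B: existence and uniqueness of the unramified extension of a place -/

section Unique

open Fermat.Agent.S24.FF Fermat.Agent.S18.A IntermediateField

variable {K K' F F' : Type*} [Field K] [Field K'] [Field F] [Field F'] [Algebra K K']
  [Algebra K F] [Algebra K' F']
variable (φ : F →+* F')

/-- `φ : F → F'` is a constant field extension: compatible with `K → K'` and preserving the
degree over every rational subfield `K(y)`. -/
structure PreservesDegree : Prop where
  map_algebraMap : ∀ c : K, φ (algebraMap K F c) = algebraMap K' F' (algebraMap K K' c)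
  isFF : ∀ {y : F}, IsFF K y → IsFF K' (φ y)
  finrank_eq : ∀ {y : F}, IsFF K y → Module.finrank K'⟮φ y⟯ F' = Module.finrank K⟮y⟯ F

/-- the place `w` of `F'` lies over the place `P` of `F` -/
def LiesOver (w : Place K' F') (P : Place K F) : Prop := below φ w = P.toValuationSubring

variable {φ}

theorem LiesOver.ne_top {w : Place K' F'} {P : Place K F} (h : LiesOver φ w P) :
    below φ w ≠ ⊤ := by
  rw [h]
  exact P.ne_top'

theorem LiesOver.restr_eq (hφ : ∀ c : K, φ (algebraMap K F c) = algebraMap K' F' (algebraMap K K' c))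
    {w : Place K' F'} {P : Place K F} (h : LiesOver φ w P) :
    restr φ hφ w h.ne_top = P := Place.ext h

theorem LiesOver.ord_map (hφ : ∀ c : K, φ (algebraMap K F c) = algebraMap K' F' (algebraMap K K' c))
    {w : Place K' F'} {P : Place K F} (h : LiesOver φ w P) (f : F) :
    w.ord (φ f) = (ramIdx φ hφ w h.ne_top : ℤ) * P.ord f := by
  have h1 := ExtPlace.ord_map φ hφ w h.ne_top f
  rw [h.restr_eq hφ] at h1
  exact h1

theorem LiesOver.unique_below {w : Place K' F'} {P Q : Place K F} (h : LiesOver φ w P)
    (h' : LiesOver φ w Q) : P = Q := Place.ext (h.symm.trans h')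

theorem liesOver_restr (hφ : ∀ c : K, φ (algebraMap K F c) = algebraMap K' F' (algebraMap K K' c))
    (w : Place K' F') (hne : below φ w ≠ ⊤) : LiesOver φ w (restr φ hφ w hne) := rfl

variable [IsAlgClosed K] [IsAlgClosed K'] [CharZero K]

/-- **Every place has exactly one extension to the constant field extension, and it is
unramified.** -/
theorem exists_unique_liesOver (hd : PreservesDegree (K := K) (K' := K') φ) {x : F}
    (hx : IsFF K x) (P : Place K F) :
    ∃ w : Place K' F', LiesOver φ w P ∧ (∀ f : F, w.ord (φ f) = P.ord f) ∧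
      ∀ w' : Place K' F', LiesOver φ w' P → w' = w := by
  classical
  have hφ := hd.map_algebraMap
  have : CharZero K' := charZero_of_injective_algebraMap (algebraMap K K').injective
  obtain ⟨y, hyc, hyv⟩ := exists_single_pole hx P
  have hy : IsFF K y := hx.of_not_mem_range hyc
  have hsep := isSeparable_of_charZero hy
  have hy' : IsFF K' (φ y) := hd.isFF hy
  have hsep' := isSeparable_of_charZero hy'
  have := hy.finite
  have hnpos : 0 < Module.finrank K⟮y⟯ F := Module.finrank_pos
  -- the poles of `y`
  have hsub : ∀ v ∈ FibreSep.poles hy hsep, v = P := by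
    intro v hv
    rw [FibreSep.mem_poles_iff_ord_neg] at hv
    by_contra hne
    have := hyv v hne
    omega
  have hne : (FibreSep.poles hy hsep).Nonempty := by
    rw [Finset.nonempty_iff_ne_empty]
    intro h0
    have h1 := FibreSep.sum_poles hy hsep
    rw [h0, Finset.sum_empty] at h1
    omega
  have hpoles : FibreSep.poles hy hsep = {P} := by
    rw [Finset.eq_singleton_iff_unique_mem]
    obtain ⟨v, hv⟩ := hne
    exact ⟨hsub v hv ▸ hv, hsub⟩
  have hm : -P.ord y = (Module.finrank K⟮y⟯ F : ℤ) := by
    have h1 := FibreSep.sum_poles hy hsep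
    rw [hpoles, Finset.sum_singleton] at h1
    exact h1
  have hPneg : P.ord y < 0 := by omega
  -- the poles of `φ y`
  have hsum' := FibreSep.sum_poles hy' hsep'
  rw [hd.finrank_eq hy, ← hm] at hsum'
  let e' : Place K' F' → ℕ := fun v' => if h : below φ v' = ⊤ then 0 else ramIdx φ hφ v' h
  have hkey : ∀ v' ∈ FibreSep.poles hy' hsep',
      LiesOver φ v' P ∧ 1 ≤ e' v' ∧ -v'.ord (φ y) = (e' v' : ℤ) * (-P.ord y) := by
    intro v' hv'
    rw [FibreSep.mem_poles_iff_ord_neg] at hv'
    have hbt : below φ v' ≠ ⊤ := by
      intro h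
      have := ord_map_eq_zero_of_below_eq_top φ v' h hy.ne_zero
      omega
    have hom := ExtPlace.ord_map φ hφ v' hbt y
    have hepos := ramIdx_pos φ hφ v' hbt
    have hQ : restr φ hφ v' hbt = P := by
      by_contra hne
      have h0 := hyv _ hne
      have : (0 : ℤ) ≤ (ramIdx φ hφ v' hbt : ℤ) * (restr φ hφ v' hbt).ord y :=
        mul_nonneg (Int.natCast_nonneg _) h0
      omega
    have hlies : LiesOver φ v' P := by
      have := liesOver_restr hφ v' hbt
      rw [hQ] at this
      exact this
    refine ⟨hlies, ?_, ?_⟩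
    · show 1 ≤ (if h : below φ v' = ⊤ then 0 else ramIdx φ hφ v' h)
      rw [dif_neg hbt]
      exact hepos
    · show -v'.ord (φ y) = ((if h : below φ v' = ⊤ then 0 else ramIdx φ hφ v' h : ℕ) : ℤ) * _
      rw [dif_neg hbt, hom, hQ]
      ring
  have hsum2 : (∑ v' ∈ FibreSep.poles hy' hsep', (e' v' : ℤ)) * (-P.ord y) = -P.ord y := by
    rw [Finset.sum_mul]
    exact (Finset.sum_congr rfl fun v' hv' => ((hkey v' hv').2.2).symm).trans hsum' 
  have hsum3 : ∑ v' ∈ FibreSep.poles hy' hsep', e' v' = 1 := by
    have h1 : (∑ v' ∈ FibreSep.poles hy' hsep', (e' v' : ℤ)) = 1 := by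
      have hne0 : -P.ord y ≠ 0 := by omega
      exact mul_right_cancel₀ hne0 (by rw [hsum2, one_mul])
    exact_mod_cast h1
  have hcard : (FibreSep.poles hy' hsep').card ≤ 1 := by
    calc (FibreSep.poles hy' hsep').card = ∑ _v' ∈ FibreSep.poles hy' hsep', 1 := by simp
      _ ≤ ∑ v' ∈ FibreSep.poles hy' hsep', e' v' :=
        Finset.sum_le_sum fun v' hv' => (hkey v' hv').2.1
      _ = 1 := hsum3
  have hne' : (FibreSep.poles hy' hsep').Nonempty := by
    rw [Finset.nonempty_iff_ne_empty]
    intro h0
    rw [h0, Finset.sum_empty] at hsum3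
    omega
  obtain ⟨w, hw⟩ := hne'
  have hall : ∀ v' ∈ FibreSep.poles hy' hsep', v' = w := fun v' hv' =>
    Finset.card_le_one.mp hcard v' hv' w hw
  have hew : e' w = 1 := by
    have h1 : FibreSep.poles hy' hsep' = {w} := by
      rw [Finset.eq_singleton_iff_unique_mem]
      exact ⟨hw, hall⟩
    rw [h1, Finset.sum_singleton] at hsum3
    exact hsum3
  obtain ⟨hlies, -, -⟩ := hkey w hw
  refine ⟨w, hlies, fun f => ?_, fun w' hw' => ?_⟩
  · have h1 := hlies.ord_map hφ f
    have h2 : ramIdx φ hφ w hlies.ne_top = 1 := by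
      have : e' w = ramIdx φ hφ w hlies.ne_top := dif_neg hlies.ne_top
      rw [← this, hew]
    rw [h2] at h1
    simpa using h1
  · apply hall
    rw [FibreSep.mem_poles_iff_ord_neg, hw'.ord_map hφ y]
    have := ramIdx_pos φ hφ w' hw'.ne_top
    have h1 : (0 : ℤ) < (ramIdx φ hφ w' hw'.ne_top : ℤ) := by exact_mod_cast this
    exact mul_neg_of_pos_of_neg h1 hPneg

end Unique

/-! ### the extension map on places -/

section ExtMap

open Fermat.Agent.S24.FF Fermat.Agent.S18.A IntermediateField

variable {K K' F F' : Type*} [Field K] [Field K'] [Field F] [Field F'] [Algebra K K']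
  [Algebra K F] [Algebra K' F'] [IsAlgClosed K] [IsAlgClosed K'] [CharZero K]
variable {φ : F →+* F'} (hd : PreservesDegree (K := K) (K' := K') φ) {x : F} (hx : IsFF K x)

/-- **The extension of a place** of `F / K` to the constant field extension `F' / K'`. -/
def extPlace (P : Place K F) : Place K' F' := (exists_unique_liesOver hd hx P).choose

theorem liesOver_extPlace (P : Place K F) : LiesOver φ (extPlace hd hx P) P :=
  (exists_unique_liesOver hd hx P).choose_spec.1

/-- the extension is unramified: `ord_{ext P} (φ f) = ord_P f` -/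
theorem ord_extPlace (P : Place K F) (f : F) : (extPlace hd hx P).ord (φ f) = P.ord f :=
  (exists_unique_liesOver hd hx P).choose_spec.2.1 f

theorem eq_extPlace_of_liesOver {w : Place K' F'} {P : Place K F} (h : LiesOver φ w P) :
    w = extPlace hd hx P :=
  (exists_unique_liesOver hd hx P).choose_spec.2.2 w h

theorem extPlace_injective : Function.Injective (extPlace (K := K) (K' := K') hd hx) := by
  intro P Q hPQ
  have h1 := liesOver_extPlace hd hx P
  have h2 := liesOver_extPlace hd hx Q
  rw [← hPQ] at h2
  exact h1.unique_below h2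

theorem mem_extPlace_iff (P : Place K F) (f : F) :
    φ f ∈ (extPlace hd hx P).toValuationSubring ↔ f ∈ P.toValuationSubring := by
  have h := liesOver_extPlace hd hx P
  rw [← h]
  rfl

/-- every place of `F'` is an extended place or is trivial on `φ F` -/
theorem extPlace_dich (Q' : Place K' F') :
    (∃ Q, Q' = extPlace hd hx Q) ∨ ∀ f : F, f ≠ 0 → Q'.ord (φ f) = 0 := by
  by_cases h : below φ Q' = ⊤
  · exact Or.inr fun f hf => ord_map_eq_zero_of_below_eq_top φ Q' h hf
  · exact Or.inl ⟨restr φ hd.map_algebraMap Q' h,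
      eq_extPlace_of_liesOver hd hx (liesOver_restr hd.map_algebraMap Q' h)⟩

/-- **(T2)** the extension map on places satisfies the interface of the descent files. -/
theorem isPlaceExt : RRBaseChange.IsPlaceExt φ (extPlace (K := K) (K' := K') hd hx) where
  ord := ord_extPlace hd hx
  inj := extPlace_injective hd hx
  dich := extPlace_dich hd hx

/-- a place of `F'` is an extended place iff it is not trivial on `φ F` -/
theorem mem_range_extPlace_iff (Q' : Place K' F') :
    Q' ∈ Set.range (extPlace (K := K) (K' := K') hd hx) ↔ below φ Q' ≠ ⊤ := by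
  constructor
  · rintro ⟨Q, rfl⟩
    exact (liesOver_extPlace hd hx Q).ne_top
  · intro h
    rcases extPlace_dich hd hx Q' with ⟨Q, hQ⟩ | htriv
    · exact ⟨Q, hQ.symm⟩
    · exfalso
      apply h
      refine SetLike.ext fun f => ⟨fun _ => ValuationSubring.mem_top f, fun _ => ?_⟩
      rcases eq_or_ne f 0 with rfl | hf
      · exact (below φ Q').zero_mem
      · rw [mem_below_iff_ord_nonneg φ Q' hf, htriv f hf]

end ExtMap

/-! ### the Laurent model -/

section Laurent

open Fermat.Agent.S24.FF Fermat.Agent.S30.Descent.ConstExt IntermediateField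

variable {K : Type*} (K' : Type*) [Field K] [Field K'] [Algebra K K']
  (F : IntermediateField K (LaurentSeries K))

/-- the constant field extension of the Laurent model preserves degrees (T1) -/
theorem preservesDegree_bcHom : PreservesDegree (K := K) (K' := K') (bcHom K' F) where
  map_algebraMap := bcHom_algebraMap F
  isFF := fun hy => isFF_bcHom hy
  finrank_eq := fun hy => by
    have := hy.finite
    exact (finrank_bcHom hy.transcendental).2

variable [IsAlgClosed K] [IsAlgClosed K'] [CharZero K] {F} {x : F} (hx : IsFF K x)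

/-- the extension of places `Place K F → Place K' (constExt K' F)` -/
def extL : Place K F → Place K' (constExt K' F) :=
  extPlace (preservesDegree_bcHom K' F) hx

theorem isPlaceExt_extL : RRBaseChange.IsPlaceExt (bcHom K' F) (extL K' hx) :=
  isPlaceExt (preservesDegree_bcHom K' F) hx

theorem ord_extL (P : Place K F) (f : F) : (extL K' hx P).ord (bcHom K' F f) = P.ord f :=
  ord_extPlace _ hx P f

theorem extL_injective : Function.Injective (extL K' hx) := extPlace_injective _ hx

end Laurent

end Fermat.Agent.S30.Descent.ExtPlace
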