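import Mathlib
import Fermat.Prelude.Def_AlgebraicCurve_BaseChangeGalois
import Fermat.Prelude.Def_AlgebraicCurve_Repartitions
import Fermat.Agent.S18.A.FibreSep
import Fermat.Agent.S30.Descent.FixedField

/-!
# PROJECT J (S30), slice J-3b, step (T7): places with finite Galois orbit are rational

Abstract constant-field extension: `K ⊆ K'` algebraically closed of characteristic zero, function
fields `F / K`, `F' / K'`, a ring homomorphism `ι : F → F'` over `K → K'`, a separating variable
`x : F` with `[F' : K'(ι x)] = [F : K(x)]`, and an injective map of places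
`ext : Place K F → Place K' F'` with `ord_{ext P} (ι f) = ord_P f`.

* `image_zeros`, `image_poles` : the fibre of `ι x` over a `K`-rational value (resp. over `∞`) is
  the image under `ext` of the corresponding fibre of `x` (both fibres have `n` points counted with
  multiplicity, `S18.A.FibreSep.sum_zeros / sum_poles`).
* `mem_range_ext_of_finite_orbit` : if `Aut(K'/K)` acts semilinearly on `F'` fixing `ι x` and acting
  on the constants in the natural way, a place of `F'` whose orbit under a subgroup of finite index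
  is finite lies in the range of `ext` (its `x`-value has finitely many conjugates, hence lies in
  `K`, by `FixedField.mem_range_of_finite_orbit`).
-/

set_option autoImplicit false
set_option linter.unusedSectionVars false
set_option linter.style.haveILetI false

noncomputable section

namespace Fermat.Agent.S30.Descent.RationalPlaces

open AlgebraicCurve IntermediateField Fermat.Agent.S24.FF Fermat.Agent.S18.A.FibreSep

/-- a subset with the same (positive) weight is everything -/
theorem finset_eq_of_subset_of_sum_eq {α : Type*} [DecidableEq α] {T S : Finset α} (hTS : T ⊆ S)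
    (w : α → ℤ) (hpos : ∀ a ∈ S, 0 < w a) (hsum : ∑ a ∈ T, w a = ∑ a ∈ S, w a) : T = S := by
  by_contra hne
  obtain ⟨a, haS, haT⟩ : ∃ a ∈ S, a ∉ T := by
    by_contra hcon
    push Not at hcon
    exact hne (Finset.Subset.antisymm hTS hcon)
  have := Finset.sum_lt_sum_of_subset hTS haS haT (hpos a haS) (fun j hj _ => (hpos j hj).le)
  omega

universe u w u' w'

variable {K : Type w} {F : Type u} [Field K] [Field F] [Algebra K F]
variable {K' : Type w'} {F' : Type u'} [Field K'] [Field F'] [Algebra K' F']
variable [Algebra K K'] [IsAlgClosed K] [IsAlgClosed K']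

section Fibres

variable (ι : F →+* F')
  (hι : ∀ c : K, ι (algebraMap K F c) = algebraMap K' F' (algebraMap K K' c))
  {x : F} (hx : IsFF K x) (hsep : Algebra.IsSeparable K⟮x⟯ F)
  (hx' : IsFF K' (ι x)) (hsep' : Algebra.IsSeparable K'⟮ι x⟯ F')
  (hn : Module.finrank K'⟮ι x⟯ F' = Module.finrank K⟮x⟯ F)
  (ext : Place K F → Place K' F') (hinj : Function.Injective ext)
  (hord : ∀ (P : Place K F) (f : F), (ext P).ord (ι f) = P.ord f)

include hι hn hinj hord

/-- the fibre of `ι x` over a `K`-rational value is the image of the fibre of `x` -/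
theorem image_zeros [DecidableEq (Place K' F')] (c : K) :
    (zeros hx hsep c).image ext = zeros hx' hsep' (algebraMap K K' c) := by
  have hsub : ι x - algebraMap K' F' (algebraMap K K' c) = ι (x - algebraMap K F c) := by
    rw [map_sub, hι]
  refine finset_eq_of_subset_of_sum_eq ?_
    (fun Q => Q.ord (ι x - algebraMap K' F' (algebraMap K K' c))) ?_ ?_
  · intro Q hQ
    obtain ⟨P, hP, rfl⟩ := Finset.mem_image.mp hQ
    rw [mem_zeros_iff_ord_pos, hsub, hord]
    exact (mem_zeros_iff_ord_pos hx hsep c P).mp hP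
  · intro Q hQ
    exact (mem_zeros_iff_ord_pos hx' hsep' _ Q).mp hQ
  · rw [sum_zeros hx' hsep', hn, ← sum_zeros hx hsep c, Finset.sum_image (fun a _ b _ h => hinj h)]
    refine Finset.sum_congr rfl fun P _ => ?_
    rw [hsub, hord]

/-- the poles of `ι x` are the images of the poles of `x` -/
theorem image_poles [DecidableEq (Place K' F')] :
    (poles hx hsep).image ext = poles hx' hsep' := by
  refine finset_eq_of_subset_of_sum_eq ?_ (fun Q => - Q.ord (ι x)) ?_ ?_
  · intro Q hQ
    obtain ⟨P, hP, rfl⟩ := Finset.mem_image.mp hQ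
    rw [mem_poles_iff_ord_neg, hord]
    exact (mem_poles_iff_ord_neg hx hsep P).mp hP
  · intro Q hQ
    have := (mem_poles_iff_ord_neg hx' hsep' Q).mp hQ
    omega
  · rw [sum_poles hx' hsep', hn, ← sum_poles hx hsep, Finset.sum_image (fun a _ b _ h => hinj h)]
    refine Finset.sum_congr rfl fun P _ => ?_
    rw [hord]

end Fibres

section Orbit

variable [CharZero K]
variable (ι : F →+* F')
  (hι : ∀ c : K, ι (algebraMap K F c) = algebraMap K' F' (algebraMap K K' c))
  {x : F} (hx : IsFF K x) (hx' : IsFF K' (ι x))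
  (hn : Module.finrank K'⟮ι x⟯ F' = Module.finrank K⟮x⟯ F)
  (ext : Place K F → Place K' F') (hinj : Function.Injective ext)
  (hord : ∀ (P : Place K F) (f : F), (ext P).ord (ι f) = P.ord f)
  (φ : (K' ≃ₐ[K] K') →* SemilinearAut K' F')
  (hφx : ∀ s : K' ≃ₐ[K] K', φ s • ι x = ι x)
  (hφc : ∀ (s : K' ≃ₐ[K] K') (a : K'), φ s • algebraMap K' F' a = algebraMap K' F' (s a))

include hι hx hx' hn hinj hord hφx hφc

/-- **(T7)** a place of `F'` with finite orbit under a subgroup of finite index of `Aut(K'/K)` is
rational. -/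
theorem mem_range_ext_of_finite_orbit (H : Subgroup (K' ≃ₐ[K] K')) [H.FiniteIndex]
    (Q : Place K' F') (hfin : (Set.range fun h : H => φ (h : K' ≃ₐ[K] K') • Q).Finite) :
    Q ∈ Set.range ext := by
  classical
  haveI : CharZero K' := charZero_of_injective_algebraMap (algebraMap K K').injective
  haveI := hx.finite
  haveI := hx'.finite
  have hsep : Algebra.IsSeparable K⟮x⟯ F := inferInstance
  have hsep' : Algebra.IsSeparable K'⟮ι x⟯ F' := inferInstance
  by_cases hpole : Q.ord (ι x) < 0
  · -- a pole of `ι x`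
    have h1 : Q ∈ poles hx' hsep' := (mem_poles_iff_ord_neg hx' hsep' Q).mpr hpole
    rw [← image_poles ι hι hx hsep hx' hsep' hn ext hinj hord] at h1
    obtain ⟨P, -, rfl⟩ := Finset.mem_image.mp h1
    exact ⟨P, rfl⟩
  · -- a finite value
    have hreg : Q.adicValuation (ι x) ≤ 1 := by
      by_contra hcon
      exact hpole ((Fermat.Agent.S24.Ord.ord_neg_iff Q hx'.ne_zero).mpr (not_le.mp hcon))
    obtain ⟨c', hc', -⟩ := Fermat.Agent.S24.Ord.exists_unique_center hx' Q hreg
    have hc'pos : 0 < Q.ord (ι x - algebraMap K' F' c') :=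
      (Fermat.Agent.S24.Ord.ord_pos_iff Q (sub_ne_zero.mpr (hx'.ne_algebraMap c'))).mpr hc'
    -- the conjugates of `Q` have the conjugate values
    have hconj : ∀ s : K' ≃ₐ[K] K', 0 < (φ s • Q).ord (ι x - algebraMap K' F' (s c')) := by
      intro s
      have h1 := SemilinearAut.ord_smul (φ s) Q (ι x - algebraMap K' F' c')
      rw [smul_sub, hφx, hφc] at h1
      rw [h1]
      exact hc'pos
    -- the value is determined by the place
    have hval : ∀ (Q₁ : Place K' F') (a b : K'), 0 < Q₁.ord (ι x - algebraMap K' F' a) →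
        0 < Q₁.ord (ι x - algebraMap K' F' b) → a = b := by
      intro Q₁ a b ha hb
      have ha' := (Fermat.Agent.S24.Ord.ord_pos_iff Q₁
        (sub_ne_zero.mpr (hx'.ne_algebraMap a))).mp ha
      have hb' := (Fermat.Agent.S24.Ord.ord_pos_iff Q₁
        (sub_ne_zero.mpr (hx'.ne_algebraMap b))).mp hb
      have hreg₁ : Q₁.adicValuation (ι x) ≤ 1 := by
        have h2 : ι x = (ι x - algebraMap K' F' a) + algebraMap K' F' a := by ring
        rw [h2]
        exact (Valuation.map_add _ _ _).trans (max_le ha'.le (Q₁.adicValuation_algebraMap_le_one a))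
      obtain ⟨c₀, -, huniq⟩ := Fermat.Agent.S24.Ord.exists_unique_center hx' Q₁ hreg₁
      rw [huniq a ha', huniq b hb']
    -- the conjugates of the value form a finite set
    have hfinc : (Set.range fun h : H => (h : K' ≃ₐ[K] K') c').Finite := by
      haveI : Finite (Set.range fun h : H => φ (h : K' ≃ₐ[K] K') • Q) := hfin
      let ψ : (Set.range fun h : H => φ (h : K' ≃ₐ[K] K') • Q) → K' :=
        fun y => ((Classical.choose y.2 : H) : K' ≃ₐ[K] K') c'
      refine (Set.finite_range ψ).subset ?_
      rintro _ ⟨h, rfl⟩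
      refine ⟨⟨φ (h : K' ≃ₐ[K] K') • Q, h, rfl⟩, ?_⟩
      have hch : φ ((Classical.choose (⟨h, rfl⟩ : ∃ h' : H,
          (fun h : H => φ (h : K' ≃ₐ[K] K') • Q) h' = φ (h : K' ≃ₐ[K] K') • Q) : H) :
            K' ≃ₐ[K] K') • Q = φ (h : K' ≃ₐ[K] K') • Q :=
        Classical.choose_spec (⟨h, rfl⟩ : ∃ h' : H,
          (fun h : H => φ (h : K' ≃ₐ[K] K') • Q) h' = φ (h : K' ≃ₐ[K] K') • Q)
      apply hval (φ (h : K' ≃ₐ[K] K') • Q)
      · have := hconj ((Classical.choose (⟨h, rfl⟩ : ∃ h' : H,
          (fun h : H => φ (h : K' ≃ₐ[K] K') • Q) h' = φ (h : K' ≃ₐ[K] K') • Q) : H) :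
            K' ≃ₐ[K] K')
        rw [hch] at this
        exact this
      · exact hconj h
    obtain ⟨c, rfl⟩ := FixedField.mem_range_of_finite_orbit H hfinc
    have h1 : Q ∈ zeros hx' hsep' (algebraMap K K' c) :=
      (mem_zeros_iff_ord_pos hx' hsep' _ Q).mpr hc'pos
    rw [← image_zeros ι hι hx hsep hx' hsep' hn ext hinj hord c] at h1
    obtain ⟨P, -, rfl⟩ := Finset.mem_image.mp h1
    exact ⟨P, rfl⟩

end Orbit

end Fermat.Agent.S30.Descent.RationalPlaces
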