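import Mathlib
import Fermat.Agent.S18.A.PrincipalDivisors
import Fermat.Agent.S18.A.RiemannX1
import Fermat.Agent.S30.Descent.Cap
import Fermat.Agent.S30.Descent.ConstGalois
import Fermat.Agent.S30.Descent.RationalPlaces
import Fermat.Agent.S30.Descent.Injective

/-!
# PROJECT J (S30), slice J-3b, steps (T8)+(T9) in the Laurent model

`K ⊆ K'` algebraically closed fields of characteristic zero, `F ⊆ K((q))`, `F' ⊆ K'((q))`
intermediate fields, `F'` stable under the coefficientwise action of `Aut(K'/K)`,
`ι : F → F'` the coefficientwise base change, `e : Place K F → Place K' F'`.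

Inputs (all provided by `Descent.ConstExt / ExtPlace / Cap` for `F' = K'(bc '' F)`):
* `hp : IsPlaceExt ι e` (order preserved, injective, restrict-or-trivial);
* `huniq` : `e P` is the only place of `F'` restricting to `P`;
* `hcap` : `K((q)) ∩ F' = F`;
* `hx : IsFF K x`, `hx' : IsFF K' (ι x)`, `hn : [F' : K'(ι x)] = [F : K(x)]`.

Outputs:
* `isGaloisCoord` : `RRBaseChange.IsGaloisCoord ι e (constGalois hst) (Cap.coeffLin F')`;
* `compat`, `extTorsion_bijective`, `torsionEquiv n : Pic0.torsion K F n ≃+ Pic0.torsion K' F' n`
  for every `n` with `Pic0.torsion K' F' n` finite, `coe_torsionEquiv`.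
-/

set_option autoImplicit false
set_option linter.unusedSectionVars false
set_option linter.style.haveILetI false

noncomputable section

namespace Fermat.Agent.S30.Descent.LaurentTorsion

open AlgebraicCurve ModularCurve IntermediateField HahnSeries
open Fermat.Agent.S24.FF Fermat.Agent.S30.Descent Fermat.Agent.S30.Descent.ConstGalois

universe w w'

/-- in characteristic zero every generator of a function field is separating -/
theorem isSeparable_of_isFF {K : Type w} {F : Type*} [Field K] [Field F] [Algebra K F]
    [CharZero K] {x : F} (hx : IsFF K x) : Algebra.IsSeparable K⟮x⟯ F := by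
  haveI := hx.finite
  infer_instance

variable {K : Type w} {K' : Type w'} [Field K] [Field K'] [Algebra K K']

variable {F : IntermediateField K (LaurentSeries K)}
  {F' : IntermediateField K' (LaurentSeries K')} (hst : Stable K F')
  (ι : F →+* F') (hι : ∀ f : F, (ι f : LaurentSeries K') = bc (f : LaurentSeries K))
  (e : Place K F → Place K' F') (hp : RRBaseChange.IsPlaceExt ι e)
  (huniq : ∀ (P : Place K F) (Q : Place K' F'), (∀ f : F, Q.ord (ι f) = P.ord f) → Q = e P)
  (hcap : ∀ f' : F', (∀ n : ℤ, (f' : LaurentSeries K').coeff n ∈ Set.range (algebraMap K K')) →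
    f' ∈ Set.range ι)

include hι in
/-- `ι` is compatible with the constants -/
theorem map_algebraMap (c : K) :
    ι (algebraMap K F c) = algebraMap K' F' (algebraMap K K' c) := by
  apply Subtype.ext
  rw [hι]
  show bc ((algebraMap K (LaurentSeries K)) c) = algebraMap K' (LaurentSeries K') (algebraMap K K' c)
  rw [algebraMap_laurentSeries_eq_single, algebraMap_laurentSeries_eq_single, bc, coeffMap_single]

include hst hι in
/-- the coefficientwise action fixes `ι f` -/
theorem constGalois_smul_map (s : K' ≃ₐ[K] K') (f : F) : constGalois hst s • ι f = ι f :=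
  constGalois_smul_of_bc hst s (ι f) (f : LaurentSeries K) (hι f)

include hst hι hp huniq in
/-- the coefficientwise action fixes the extended places -/
theorem constGalois_smul_place (s : K' ≃ₐ[K] K') (P : Place K F) :
    constGalois hst s • e P = e P :=
  smul_ext_eq ι e hp.ord huniq (constGalois hst s) (constGalois_smul_map hst ι hι s) P

variable [IsAlgClosed K] [IsAlgClosed K'] [CharZero K]

include hst hι hp huniq hcap in
/-- the Galois-coordinate package of `RRBaseChange` in the Laurent model -/
theorem isGaloisCoord :
    RRBaseChange.IsGaloisCoord ι e (fun s : K' ≃ₐ[K] K' => constGalois hst s) (Cap.coeffLin F') where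
  smul_place s P := constGalois_smul_place hst ι hι e hp huniq s P
  sep f' h := Subtype.ext (HahnSeries.ext (funext fun n => h n))
  coord_smul s n f' := by
    show ((constGalois hst s • f' : F') : LaurentSeries K').coeff n
      = s ((f' : LaurentSeries K').coeff n)
    rw [coe_constGalois_smul, coeffMap_coeff]
    rfl
  fixed a ha := FixedField.mem_range_of_fixed (K := K) fun s => ha s
  cap f' h := hcap f' h

variable {x : F} (hx : IsFF K x) (hx' : IsFF K' (ι x))
  (hn : Module.finrank K'⟮ι x⟯ F' = Module.finrank K⟮x⟯ F)

include hp hx hx' in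
/-- `Surjective.Compat` in the Laurent model -/
theorem compat : Surjective.Compat e :=
  Injective.compat hp (fun P => Fermat.Agent.S18.A.Instances.deg_one hx P)
    (fun Q => Fermat.Agent.S18.A.Instances.deg_one hx' Q)

include hst hι hp hx hx' hn in
/-- **(T7)** in the Laurent model -/
theorem mem_range_of_finite_orbit (H : Subgroup (K' ≃ₐ[K] K')) (hH : H.FiniteIndex)
    (Q : Place K' F')
    (hfin : (Set.range fun h : H => constGalois hst (h : K' ≃ₐ[K] K') • Q).Finite) :
    Q ∈ Set.range e := by
  haveI := hH
  exact RationalPlaces.mem_range_ext_of_finite_orbit ι (map_algebraMap ι hι) hx hx' hn e hp.inj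
    hp.ord (constGalois hst) (fun s => constGalois_smul_map hst ι hι s x)
    (fun s a => constGalois_smul_algebraMap hst s a) H Q hfin

include hst hι hp huniq hcap hx hx' hn in
/-- **(T8)+(T9)** in the Laurent model: base change of the constants is bijective on `n`-torsion
as soon as the `n`-torsion of `F'` is finite. -/
theorem extTorsion_bijective (n : ℕ) [Finite (Pic0.torsion K' F' n)] :
    Function.Bijective
      (Surjective.extTorsion (compat ι e hp hx hx') n) := by
  haveI := hx.finite
  haveI := hx'.finite
  haveI : CharZero K' := charZero_of_injective_algebraMap (algebraMap K K').injective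
  have hsep : Algebra.IsSeparable K⟮x⟯ F := isSeparable_of_isFF hx
  have hsep' : Algebra.IsSeparable K'⟮ι x⟯ F' := isSeparable_of_isFF hx'
  haveI := Fermat.Agent.S18.A.PrincipalDivisors.hasPrincipalDivisors hx hsep
  haveI := Fermat.Agent.S18.A.PrincipalDivisors.hasPrincipalDivisors hx' hsep'
  obtain ⟨g', HR', -⟩ := Fermat.Agent.S18.A.RiemannX1.exists_riemannHyp_of_sep hx' hsep'
  haveI : Infinite (Place K F) := Fermat.Agent.S18.A.Instances.infinite_place hx hsep
  obtain ⟨P₀⟩ : Nonempty (Place K F) := inferInstance
  exact Injective.extTorsion_bijective (constGalois hst) (compat ι e hp hx hx') hp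
    (isGaloisCoord hst ι hι e hp huniq hcap) HR'
    (fun P => Fermat.Agent.S18.A.Instances.deg_one hx P)
    (fun s P => constGalois_smul_place hst ι hι e hp huniq s P)
    (fun H hH Q hfin => mem_range_of_finite_orbit hst ι hι e hp hx hx' hn H hH Q hfin) P₀ n

/-- **(T9)** the isomorphism on `n`-torsion in the Laurent model -/
def torsionEquiv (n : ℕ) [Finite (Pic0.torsion K' F' n)] :
    Pic0.torsion K F n ≃+ Pic0.torsion K' F' n :=
  AddEquiv.ofBijective (Surjective.extTorsion (compat ι e hp hx hx') n)
    (extTorsion_bijective hst ι hι e hp huniq hcap hx hx' hn n)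

@[simp] theorem coe_torsionEquiv (n : ℕ) [Finite (Pic0.torsion K' F' n)]
    (c : Pic0.torsion K F n) :
    (torsionEquiv hst ι hι e hp huniq hcap hx hx' hn n c : Pic0 K' F')
      = Surjective.extPic0 (compat ι e hp hx hx') (c : Pic0 K F) := rfl

end Fermat.Agent.S30.Descent.LaurentTorsion
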