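import Mathlib
import Fermat.Agent.S30.Spec
import Fermat.Agent.S30.Descent.ExtPlace
import Fermat.Agent.S30.Descent.GaloisCoordLaurent
import Fermat.Agent.S30.Descent.LaurentTorsion
import Fermat.Agent.S18.A.Instances
import Fermat.Agent.S18.A.RiemannBasic
import Fermat.Agent.S18.A.RiemannX1

/-!
# PROJECT J (S30), slice J-3a: the descent package for a Laurent model of the constant field
extension, and its instance for `X₀(N)`, `ℚ̄ ⊆ ℂ`

Part 1 (`section Model`): `K ⊆ K'` algebraically closed of characteristic zero,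
`F ⊆ K((q))` a function field (`hx : IsFF K x`), `F' ⊆ K'((q))` ANY intermediate field with
`hF' : constExt K' F = F'` (so that `F'` may be the Prelude's `laurentBaseChange K' F₀`):

* `bcTo hF' : F →+* F'` (coefficientwise, `coe_bcTo` is `rfl`), `extTo hF' hx`,
  `isPlaceExt_extTo`, `compat_extTo`, `isGaloisCoord_extTo`;
* `extPic0_injective_extTo` (T6), `extTorsion_bijective_extTo`, `exists_extPic0_eq_of_torsion` (T9);
* `exists_const_of_ord_eq_zero` : functions on `F'` without zeros and poles are constant.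

Part 2 (`section X0`): `K = ℚ̄`, `K' = ℂ` along `ι : ℚ̄ →+* ℂ`, `F = modularFunctionFieldBar N`,
`F' = Spec.FC N`: `bcX N ι`, `extX N ι` and the same list, with no instance `Algebra ℚ̄ ℂ` in the
statements.
-/

set_option autoImplicit false
set_option linter.unusedSectionVars false
set_option linter.style.haveILetI false

noncomputable section

namespace Fermat.Agent.S30.Descent.X0Inst

open AlgebraicCurve ModularCurve IntermediateField
open Fermat.Agent.S24.FF Fermat.Agent.S30.Descent Fermat.Agent.S30.Descent.ConstExt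
  Fermat.Agent.S30.Descent.ExtPlace Fermat.Agent.S18.A

/-! ### Part 1: a Laurent model of the constant field extension -/

theorem charZero' (K K' : Type*) [Field K] [Field K'] [Algebra K K'] [CharZero K] : CharZero K' :=
  charZero_of_injective_algebraMap (algebraMap K K').injective

section Model

variable {K : Type*} {K' : Type*} [Field K] [Field K'] [Algebra K K']
  {F : IntermediateField K (LaurentSeries K)} {F' : IntermediateField K' (LaurentSeries K')}
  (hF' : constExt K' F = F')

/-- the coefficientwise base change `F → F'` -/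
def bcTo : F →+* F' where
  toFun f := ⟨bc K K' (f : LaurentSeries K), hF' ▸ bc_mem_constExt F f.2⟩
  map_one' := Subtype.ext (map_one (bc K K'))
  map_mul' _ _ := Subtype.ext (map_mul (bc K K') _ _)
  map_zero' := Subtype.ext (map_zero (bc K K'))
  map_add' _ _ := Subtype.ext (map_add (bc K K') _ _)

theorem coe_bcTo (f : F) :
    ((bcTo hF' f : F') : LaurentSeries K') = bc K K' (f : LaurentSeries K) := rfl

theorem preservesDegree_bcTo : PreservesDegree (K := K) (K' := K') (bcTo hF') := by
  subst hF'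
  exact preservesDegree_bcHom K' F

theorem bcTo_algebraMap (c : K) :
    bcTo hF' (algebraMap K F c) = algebraMap K' F' (algebraMap K K' c) :=
  (preservesDegree_bcTo hF').map_algebraMap c

include hF' in
/-- `F'` is stable under the coefficientwise action of `Aut(K'/K)` -/
theorem stable_of : ConstGalois.Stable K F' := by
  subst hF'
  exact GaloisCoordLaurent.stable F

/-- **(cap)** an element of `F'` with all coefficients in `K` comes from `F` -/
theorem cap_of (f' : F')
    (h : ∀ n : ℤ, (f' : LaurentSeries K').coeff n ∈ Set.range (algebraMap K K')) :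
    f' ∈ Set.range (bcTo hF') :=
  Cap.cap_field F F' (bcTo hF') (fun _ => rfl) hF'.symm f' h

variable [IsAlgClosed K] [IsAlgClosed K'] [CharZero K] {x : F} (hx : IsFF K x)

/-- the extension of places `Place K F → Place K' F'` -/
def extTo : Place K F → Place K' F' := extPlace (preservesDegree_bcTo hF') hx

theorem isPlaceExt_extTo : RRBaseChange.IsPlaceExt (bcTo hF') (extTo hF' hx) :=
  isPlaceExt (preservesDegree_bcTo hF') hx

theorem ord_extTo (P : Place K F) (f : F) : (extTo hF' hx P).ord (bcTo hF' f) = P.ord f :=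
  (isPlaceExt_extTo hF' hx).ord P f

theorem extTo_injective : Function.Injective (extTo hF' hx) := (isPlaceExt_extTo hF' hx).inj

include hx in
theorem isFF_bcTo : IsFF K' (bcTo hF' x) := (preservesDegree_bcTo hF').isFF hx

include hx in
theorem finrank_bcTo :
    Module.finrank K'⟮bcTo hF' x⟯ F' = Module.finrank K⟮x⟯ F :=
  (preservesDegree_bcTo hF').finrank_eq hx

theorem uniq_extTo (P : Place K F) (Q : Place K' F')
    (hQ : ∀ f : F, Q.ord (bcTo hF' f) = P.ord f) : Q = extTo hF' hx P :=
  GaloisCoordLaurent.uniq_of_isPlaceExt (isPlaceExt_extTo hF' hx) P Q hQ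

/-- the Galois-coordinate package for `F'` -/
theorem isGaloisCoord_extTo :
    RRBaseChange.IsGaloisCoord (bcTo hF') (extTo hF' hx)
      (fun s : K' ≃ₐ[K] K' => ConstGalois.constGalois (stable_of hF') s) (Cap.coeffLin F') :=
  LaurentTorsion.isGaloisCoord (stable_of hF') (bcTo hF') (fun _ => rfl) (extTo hF' hx)
    (isPlaceExt_extTo hF' hx) (uniq_extTo hF' hx) (cap_of hF')

/-- **(T3)** compatibility with degrees and principal divisors -/
theorem compat_extTo : Surjective.Compat (extTo hF' hx) :=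
  LaurentTorsion.compat (bcTo hF') (extTo hF' hx) (isPlaceExt_extTo hF' hx) hx (isFF_bcTo hF' hx)


include hx in
theorem hasPrincipalDivisors_of : HasPrincipalDivisors K F :=
  Instances.hasPrincipalDivisors_of_charZero hx

include hF' hx in
theorem hasPrincipalDivisors_to : HasPrincipalDivisors K' F' :=
  haveI := charZero' K K'
  Instances.hasPrincipalDivisors_of_charZero (isFF_bcTo hF' hx)

include hF' hx in
/-- Riemann's theorem for `F'` -/
theorem exists_riemannHyp_to : ∃ g' : ℕ, Fermat.Agent.S18.NonSpecial.RiemannHyp K' F' g' := by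
  haveI := charZero' K K'
  haveI := hasPrincipalDivisors_to hF' hx
  obtain ⟨g', h, -⟩ := RiemannX1.exists_riemannHyp_of_sep (isFF_bcTo hF' hx)
    (ExtPlace.isSeparable_of_charZero (isFF_bcTo hF' hx))
  exact ⟨g', h⟩

/-- **(T6)**: `Pic⁰ F → Pic⁰ F'` is injective. -/
theorem extPic0_injective_extTo :
    Function.Injective (Surjective.extPic0 (compat_extTo hF' hx)) := by
  haveI := hasPrincipalDivisors_of hx
  obtain ⟨g', HR'⟩ := exists_riemannHyp_to hF' hx
  exact Injective.extPic0_injective (compat_extTo hF' hx) (isPlaceExt_extTo hF' hx)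
    (isGaloisCoord_extTo hF' hx) (fun P => Instances.deg_one hx P) (fun _ => HR'.finite _)

/-- **(T8)+(T9)**: bijective on `n`-torsion as soon as the `n`-torsion of `F'` is finite. -/
theorem extTorsion_bijective_extTo (n : ℕ) [Finite (Pic0.torsion K' F' n)] :
    Function.Bijective (Surjective.extTorsion (compat_extTo hF' hx) n) :=
  LaurentTorsion.extTorsion_bijective (stable_of hF') (bcTo hF') (fun _ => rfl) (extTo hF' hx)
    (isPlaceExt_extTo hF' hx) (uniq_extTo hF' hx) (cap_of hF') hx (isFF_bcTo hF' hx)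
    (finrank_bcTo hF' hx) n

/-- **(T9)**: every `n`-torsion class of `F'` comes from `F`. -/
theorem exists_extPic0_eq_of_torsion (n : ℕ) [Finite (Pic0.torsion K' F' n)] (c' : Pic0 K' F')
    (hc' : (n : ℤ) • c' = 0) : ∃ c : Pic0 K F, (n : ℤ) • c = 0 ∧
      Surjective.extPic0 (compat_extTo hF' hx) c = c' := by
  obtain ⟨c, hc⟩ := (extTorsion_bijective_extTo hF' hx n).2 ⟨c', Pic0.mem_torsion.mpr hc'⟩
  exact ⟨(c : Pic0 K F), Pic0.mem_torsion.mp c.2, congrArg Subtype.val hc⟩

include hF' hx in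
/-- functions on `F'` without zeros and poles are constant -/
theorem exists_const_of_ord_eq_zero (u : F') (hu : u ≠ 0)
    (h0 : ∀ v : Place K' F', v.ord u = 0) : ∃ c : K', u = algebraMap K' F' c := by
  haveI := charZero' K K'
  haveI := hasPrincipalDivisors_to hF' hx
  have hx' := isFF_bcTo hF' hx
  haveI : Infinite (Place K' F') :=
    Instances.infinite_place hx' (ExtPlace.isSeparable_of_charZero hx')
  refine (Riemann.mem_rr_zero_iff (fun v => Instances.deg_one hx' v)).mp ?_
  rw [Riemann.mem_iff_of_ne_zero hu]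
  intro v
  rw [h0 v]
  simp

end Model

/-! ### Part 2: `X₀(N)`, `ℚ̄ ⊆ ℂ` -/

section X0

local notation "Kb" => AlgebraicClosure ℚ

/-- there is an embedding `ℚ̄ → ℂ` -/
def someEmb : Kb →+* ℂ :=
  haveI : Algebra.IsAlgebraic ℚ (AlgebraicClosure ℚ) := AlgebraicClosure.isAlgebraic ℚ
  ((IsAlgClosed.lift (R := ℚ) (S := AlgebraicClosure ℚ) (M := ℂ) : AlgebraicClosure ℚ →ₐ[ℚ] ℂ) :
    AlgebraicClosure ℚ →+* ℂ)

variable (N : ℕ) [NeZero N] (ι : Kb →+* ℂ)

/-- `ℂ(X₀(N))` is the constant field extension of `ℚ̄(X₀(N))` along `ι` -/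
theorem constExt_eq_FC :
    @constExt Kb ℂ _ _ ι.toAlgebra (modularFunctionFieldBar N) = Spec.FC N :=
  letI : Algebra Kb ℂ := ι.toAlgebra
  constExt_laurentBaseChange (K := Kb) (K' := ℂ) (modularFunctionFieldFull N)

/-- the coefficientwise base change `ℚ̄(X₀(N)) → ℂ(X₀(N))` along `ι` -/
def bcX : modularFunctionFieldBar N →+* Spec.FC N :=
  letI : Algebra Kb ℂ := ι.toAlgebra
  bcTo (constExt_eq_FC N ι)

theorem coe_bcX (f : modularFunctionFieldBar N) :
    ((bcX N ι f : Spec.FC N) : LaurentSeries ℂ) = coeffMap ι (f : LaurentSeries Kb) := rfl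

theorem bcX_algebraMap (c : Kb) :
    bcX N ι (algebraMap Kb (modularFunctionFieldBar N) c) = algebraMap ℂ (Spec.FC N) (ι c) :=
  letI : Algebra Kb ℂ := ι.toAlgebra
  bcTo_algebraMap (constExt_eq_FC N ι) c

/-- the extension of places `Place ℚ̄ (ℚ̄(X₀(N))) → Place ℂ (ℂ(X₀(N)))` -/
def extX : Place Kb (modularFunctionFieldBar N) → Place ℂ (Spec.FC N) :=
  letI : Algebra Kb ℂ := ι.toAlgebra
  extTo (constExt_eq_FC N ι) (Instances.isFF_jgen N)

/-- **(T2)** for `X₀(N)` -/
theorem isPlaceExt_extX : RRBaseChange.IsPlaceExt (bcX N ι) (extX N ι) :=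
  letI : Algebra Kb ℂ := ι.toAlgebra
  isPlaceExt_extTo (constExt_eq_FC N ι) (Instances.isFF_jgen N)

theorem ord_extX (P : Place Kb (modularFunctionFieldBar N)) (f : modularFunctionFieldBar N) :
    (extX N ι P).ord (bcX N ι f) = P.ord f := (isPlaceExt_extX N ι).ord P f

theorem extX_injective : Function.Injective (extX N ι) := (isPlaceExt_extX N ι).inj

/-- `j` on the `ℂ` side -/
theorem isFF_bcX : IsFF ℂ (bcX N ι (Fermat.Agent.S24.DegreeAlg.jgen N)) :=
  letI : Algebra Kb ℂ := ι.toAlgebra
  isFF_bcTo (constExt_eq_FC N ι) (Instances.isFF_jgen N)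

theorem finrank_bcX :
    Module.finrank ℂ⟮bcX N ι (Fermat.Agent.S24.DegreeAlg.jgen N)⟯ (Spec.FC N) =
      Module.finrank Kb⟮Fermat.Agent.S24.DegreeAlg.jgen N⟯ (modularFunctionFieldBar N) :=
  letI : Algebra Kb ℂ := ι.toAlgebra
  finrank_bcTo (constExt_eq_FC N ι) (Instances.isFF_jgen N)

/-- `ℂ(X₀(N))` is generated over `ℂ` by the coefficientwise image of `ℚ̄(X₀(N))` -/
theorem FC_eq_adjoin :
    Spec.FC N = IntermediateField.adjoin ℂ
      ((coeffMap ι : LaurentSeries Kb → LaurentSeries ℂ) ''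
        (modularFunctionFieldBar N : Set (LaurentSeries Kb))) :=
  (constExt_eq_FC N ι).symm

/-- `ℂ(X₀(N))` is stable under the coefficientwise action of `Aut(ℂ/ℚ̄)` -/
theorem stable_FC : @ConstGalois.Stable Kb ℂ _ _ ι.toAlgebra (Spec.FC N) :=
  letI : Algebra Kb ℂ := ι.toAlgebra
  stable_of (constExt_eq_FC N ι)

/-- **(cap)** for `X₀(N)`: an element of `ℂ(X₀(N))` with coefficients in `ι ℚ̄` comes from
`ℚ̄(X₀(N))` -/
theorem cap_X (f' : Spec.FC N)
    (h : ∀ n : ℤ, (f' : LaurentSeries ℂ).coeff n ∈ Set.range ι) : f' ∈ Set.range (bcX N ι) :=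
  letI : Algebra Kb ℂ := ι.toAlgebra
  cap_of (constExt_eq_FC N ι) f' h

/-- uniqueness of the extension of a place -/
theorem uniq_extX (P : Place Kb (modularFunctionFieldBar N)) (Q : Place ℂ (Spec.FC N))
    (hQ : ∀ f : modularFunctionFieldBar N, Q.ord (bcX N ι f) = P.ord f) : Q = extX N ι P :=
  GaloisCoordLaurent.uniq_of_isPlaceExt (isPlaceExt_extX N ι) P Q hQ

/-- **(T3)** for `X₀(N)` -/
theorem compat_extX : Surjective.Compat (extX N ι) :=
  letI : Algebra Kb ℂ := ι.toAlgebra
  compat_extTo (constExt_eq_FC N ι) (Instances.isFF_jgen N)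

theorem hasPrincipalDivisors_FC : HasPrincipalDivisors ℂ (Spec.FC N) :=
  Instances.hasPrincipalDivisors_of_charZero (isFF_bcX N someEmb)

theorem exists_riemannHyp_FC :
    ∃ g' : ℕ, Fermat.Agent.S18.NonSpecial.RiemannHyp ℂ (Spec.FC N) g' :=
  letI : Algebra Kb ℂ := someEmb.toAlgebra
  exists_riemannHyp_to (constExt_eq_FC N _) (Instances.isFF_jgen N)

/-- **(T6)** for `X₀(N)`: `J₀(N)(ℚ̄) → Pic⁰ (ℂ(X₀(N)))` is injective. -/
theorem extPic0_injective_X : Function.Injective (Surjective.extPic0 (compat_extX N ι)) :=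
  letI : Algebra Kb ℂ := ι.toAlgebra
  extPic0_injective_extTo (constExt_eq_FC N ι) (Instances.isFF_jgen N)

/-- **(T9)** for `X₀(N)`: every `n`-torsion class over `ℂ` is defined over `ℚ̄`, as soon as the
`n`-torsion over `ℂ` is finite. -/
theorem exists_extPic0_eq_X (n : ℕ) [Finite (Pic0.torsion ℂ (Spec.FC N) n)]
    (c' : Pic0 ℂ (Spec.FC N)) (hc' : (n : ℤ) • c' = 0) :
    ∃ c : JZero N, (n : ℤ) • c = 0 ∧ Surjective.extPic0 (compat_extX N ι) c = c' :=
  letI : Algebra Kb ℂ := ι.toAlgebra
  exists_extPic0_eq_of_torsion (constExt_eq_FC N ι) (Instances.isFF_jgen N) n c' hc'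

/-- **(T9)** for `X₀(N)`, `ℕ`-multiples -/
theorem exists_extPic0_eq_X' (n : ℕ) [Finite (Pic0.torsion ℂ (Spec.FC N) n)]
    (c' : Pic0 ℂ (Spec.FC N)) (hc' : n • c' = 0) :
    ∃ c : JZero N, n • c = 0 ∧ Surjective.extPic0 (compat_extX N ι) c = c' := by
  obtain ⟨c, hc, hcc⟩ := exists_extPic0_eq_X N ι n c' (by rw [natCast_zsmul]; exact hc')
  exact ⟨c, by rw [← natCast_zsmul]; exact hc, hcc⟩

/-- functions on `X₀(N)_ℂ` without zeros and poles are constant -/
theorem exists_const_X (u : Spec.FC N) (hu : u ≠ 0)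
    (h0 : ∀ v : Place ℂ (Spec.FC N), v.ord u = 0) : ∃ c : ℂ, u = algebraMap ℂ (Spec.FC N) c :=
  letI : Algebra Kb ℂ := someEmb.toAlgebra
  exists_const_of_ord_eq_zero (constExt_eq_FC N _) (Instances.isFF_jgen N) u hu h0

end X0

end Fermat.Agent.S30.Descent.X0Inst
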