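import Mathlib
import Fermat.Agent.S30.Spec
import Fermat.Agent.S30.Final.PhiMap
import Fermat.Agent.S30.Analytic.RepChar
import Fermat.Agent.S30.Descent.RRBaseChange
import Fermat.Agent.S30.Descent.Surjective

/-!
# PROJECT J (S30), slice J-3: `Spec.PsiDict N → Spec.PhiDict N ι` (transport along the descent)

Hypotheses-first.  `F = modularFunctionFieldBar N` over `ℚ̄`, `F' = Spec.FC N` over `ℂ`,
`bc : F →+* F'` with `(bc f : ℂ((q))) = coeffMap ι f`, `e : Place ℚ̄ F → Place ℂ F'` with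
`RRBaseChange.IsPlaceExt bc e`, `h : Surjective.Compat e`, and

* `(T6)` `hinj : Injective (extPic0 h)`;
* `(T9)` `hsurj : ∀ c' torsion, ∃ c, extPic0 h c = c'`;
* `hconst` : an element of `F'` without zeros and poles is a constant;
* `hrep` : every element of `F'` is a quotient of two forms (`FC N = repField N`).

Then
* `isPsiOf_of_isPhiOf` : `IsPhiOf N ι x ψ → IsPsiOf N (extPic0 h x) ψ`;
* `isPhiOf_of_isPsiOf` : `IsPsiOf N (extPic0 h x) ψ → IsPhiOf N ι x ψ`;
* `phiDict_of_psiDict` : `PsiDict N → PhiDict N ι`;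
* `finite_torsion_of_rel` (abstract) and `finite_torsion_of_psiDict` : the `n`-torsion of
  `Pic0 ℂ (FC N)` is finite, from `PsiDict N` alone.
-/

set_option autoImplicit false
set_option linter.unusedSectionVars false

namespace Fermat.Agent.S30.Descent.PhiDict

open AlgebraicCurve ModularCurve CongruenceSubgroup
open scoped MatrixGroups
open Fermat.Agent.S30.Spec Fermat.Agent.S30.Descent Fermat.Agent.S30.Descent.RRBaseChange
open Fermat.Agent.S30.Analytic.RepChar Fermat.Agent.S24.RepHom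

local notation "Kb" => AlgebraicClosure ℚ

/-! ### an abstract dictionary has finite torsion -/

section AbstractDict

variable {A : Type*} [AddCommGroup A] {Γ : Type*} [Group Γ]
  (R : A → (Γ →* ℂˣ) → Prop)
  (hex : ∀ x : A, (∃ n : ℕ, n ≠ 0 ∧ n • x = 0) → ∃ ψ, R x ψ)
  (huniq : ∀ x ψ ψ', R x ψ → R x ψ' → ψ = ψ')
  (hadd : ∀ x y ψ ψ', R x ψ → R y ψ' → R (x + y) (ψ * ψ'))

include hex huniq hadd

theorem rel_zero : R 0 1 := by
  obtain ⟨ψ, hψ⟩ := hex 0 ⟨1, one_ne_zero, by rw [one_smul]⟩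
  have h1 := hadd 0 0 ψ ψ hψ hψ
  rw [add_zero] at h1
  have h2 : ψ = ψ * ψ := huniq 0 _ _ hψ h1
  have h3 : ψ = 1 := by
    have h4 : ψ * 1 = ψ * ψ := (mul_one ψ).trans h2
    exact (mul_left_cancel h4).symm
  rwa [h3] at hψ

theorem rel_nsmul {x : A} {ψ : Γ →* ℂˣ} (hx : R x ψ) (n : ℕ) : R (n • x) (ψ ^ n) := by
  induction n with
  | zero =>
    have e : ψ ^ 0 = 1 := pow_zero ψ
    rw [zero_smul, e]
    exact rel_zero R hex huniq hadd
  | succ m ih =>
    have e : ψ ^ (m + 1) = ψ ^ m * ψ := pow_succ ψ m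
    rw [succ_nsmul, e]
    exact hadd _ _ _ _ ih hx

variable (hinj : ∀ x, R x 1 → x = 0)

include hinj

/-- the `n`-torsion of a group with a dictionary to the characters of a finitely generated
group is finite -/
theorem finite_torsion_of_rel [Group.FG Γ] {n : ℕ} (hn : n ≠ 0) : {y : A | n • y = 0}.Finite := by
  classical
  have hfin := Fermat.Agent.S30.Final.PhiMap.finite_monoidHom_pow_eq_one (Γ := Γ) hn
  have : Finite {ψ : Γ →* ℂˣ | ψ ^ n = 1} := hfin
  have htor : ∀ y : {y : A | n • y = 0}, ∃ ψ, R (y : A) ψ := fun y =>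
    hex _ ⟨n, hn, y.2⟩
  choose ψ hψ using htor
  have hpow : ∀ y, ψ y ^ n = 1 := by
    intro y
    have h1 := rel_nsmul R hex huniq hadd (hψ y) n
    rw [show n • (y : A) = 0 from y.2] at h1
    exact huniq 0 _ _ h1 (rel_zero R hex huniq hadd)
  let g : {y : A | n • y = 0} → {ψ : Γ →* ℂˣ | ψ ^ n = 1} := fun y => ⟨ψ y, hpow y⟩
  have hg : Function.Injective g := by
    intro y y' hyy'
    have h1 : ψ y = ψ y' := congrArg Subtype.val hyy'
    -- `-y'` is torsion
    have hneg : n • (-(y' : A)) = 0 := by rw [smul_neg, show n • (y' : A) = 0 from y'.2, neg_zero]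
    obtain ⟨ψ'', hψ''⟩ := hex (-(y' : A)) ⟨n, hn, hneg⟩
    have h2 := hadd _ _ _ _ (hψ y') hψ''
    rw [add_neg_cancel] at h2
    have h3 : ψ y' * ψ'' = 1 := huniq 0 _ _ h2 (rel_zero R hex huniq hadd)
    have h4 := hadd _ _ _ _ (hψ y) hψ''
    rw [h1, h3] at h4
    have h5 := hinj _ h4
    apply Subtype.ext
    rw [← sub_eq_add_neg, sub_eq_zero] at h5
    exact h5
  have : Finite {y : A | n • y = 0} := Finite.of_injective g hg
  exact Set.toFinite _

end AbstractDict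

/-! ### the transport -/

section Transport

variable {N : ℕ} [NeZero N] {ι : Kb →+* ℂ}
variable {bc : modularFunctionFieldBar N →+* FC N}
  (hbc : ∀ f : modularFunctionFieldBar N,
    ((bc f : FC N) : LaurentSeries ℂ) = coeffMap ι (f : LaurentSeries Kb))
  {e : Place Kb (modularFunctionFieldBar N) → Place ℂ (FC N)}
  (hp : IsPlaceExt bc e) (h : Surjective.Compat e)

include hbc hp in
/-- **(A)** the `ℚ̄`-side relation implies the `ℂ`-side relation for the extended class -/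
theorem isPsiOf_of_isPhiOf {x : JZero N} {ψ : Gamma0 N →* ℂˣ} (hx : IsPhiOf N ι x ψ) :
    IsPsiOf N (Surjective.extPic0 h x) ψ := by
  obtain ⟨n, D, f, k, a, b, hn, hf, rfl, hdiv, hrep, hroot⟩ := hx
  refine ⟨n, Surjective.extDegZero h D, bc f, k, a, b, hn, (map_ne_zero bc).mpr hf,
    Surjective.extPic0_mk h D, fun v => ?_, ?_, hroot⟩
  · have h1 : ∀ P : Place Kb (modularFunctionFieldBar N),
        (((n : ℤ) • (D : Divisor Kb (modularFunctionFieldBar N))) :
          Divisor Kb (modularFunctionFieldBar N)) P = P.ord f := by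
      intro P
      rw [Finsupp.smul_apply, smul_eq_mul]
      exact hdiv P
    have h2 := hp.mapDomain_eq_ord hf h1 v
    rw [Finsupp.mapDomain_smul, Finsupp.smul_apply, smul_eq_mul] at h2
    exact h2
  · rw [hbc]
    exact hrep

/-- a class `n` times which is the divisor of a function is `n`-torsion -/
theorem nsmul_mk_eq_zero {K F : Type*} [Field K] [Field F] [Algebra K F] {n : ℕ}
    {D : Divisor.degZero (K := K) (F := F)} {f : F} (hf : f ≠ 0)
    (hD : ∀ v : Place K F, (n : ℤ) * (D : Divisor K F) v = v.ord f) :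
    n • (Pic0.mk D : Pic0 K F) = 0 := by
  have h1 : ((n • D : Divisor.degZero (K := K) (F := F)) : Divisor K F) ∈
      Divisor.principal (K := K) (F := F) := by
    rw [Divisor.mem_principal]
    refine ⟨f, hf, fun v => ?_⟩
    rw [← hD v, AddSubgroup.coe_nsmul, Finsupp.smul_apply, nsmul_eq_mul]
  have h2 : n • (Pic0.mk D : Pic0 K F) = Pic0.mk (n • D) := rfl
  rw [h2]
  exact (QuotientAddGroup.eq_zero_iff _).mpr (AddSubgroup.mem_addSubgroupOf.mpr h1)

theorem nsmul_eq_zero_of_isPsiOf {x : Pic0 ℂ (FC N)} {ψ : Gamma0 N →* ℂˣ}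
    (hx : IsPsiOf N x ψ) : ∃ n : ℕ, n ≠ 0 ∧ n • x = 0 := by
  obtain ⟨n, D, f, k, a, b, hn, hf, rfl, hD, -, -⟩ := hx
  exact ⟨n, hn, nsmul_mk_eq_zero hf hD⟩

variable (hinj : Function.Injective (Surjective.extPic0 h))
  (hconst : ∀ u : FC N, u ≠ 0 → (∀ v : Place ℂ (FC N), v.ord u = 0) →
    ∃ c : ℂ, u = algebraMap ℂ (FC N) c)
  (hrepC : ∀ u : FC N, IsRepC N (u : LaurentSeries ℂ))

include hbc hp hinj hconst hrepC in
/-- **(B)** the `ℂ`-side relation for the extended class implies the `ℚ̄`-side relation -/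
theorem isPhiOf_of_isPsiOf {x : JZero N} {ψ : Gamma0 N →* ℂˣ}
    (hx : IsPsiOf N (Surjective.extPic0 h x) ψ) : IsPhiOf N ι x ψ := by
  obtain ⟨D₀, rfl⟩ := Pic0.mk_surjective x
  obtain ⟨n, D', f', k, a, b, hn, hf', hxD, hdiv, hrep, hroot⟩ := hx
  -- `mk D₀` is `n`-torsion
  have h1 : n • Surjective.extPic0 h (Pic0.mk D₀) = 0 := by
    rw [hxD]
    exact nsmul_mk_eq_zero hf' hdiv
  have h2 : n • (Pic0.mk D₀ : JZero N) = 0 := hinj (by rw [map_nsmul, h1, map_zero])
  have h3 : (Pic0.mk (n • D₀) : JZero N) = 0 := h2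
  rw [Surjective.mk_eq_zero_iff] at h3
  obtain ⟨f₀, hf₀, hdiv₀⟩ := h3
  have hdiv₀' : ∀ P : Place Kb (modularFunctionFieldBar N),
      (n : ℤ) * (D₀ : Divisor Kb (modularFunctionFieldBar N)) P = P.ord f₀ := by
    intro P
    rw [← hdiv₀ P, AddSubgroup.coe_nsmul, Finsupp.smul_apply, nsmul_eq_mul]
  -- `D' - extDiv D₀ = div h'`
  rw [Surjective.extPic0_mk, Surjective.mk_eq_mk_iff] at hxD
  obtain ⟨h', hh', hdivh⟩ := hxD
  -- the orders of `bc f₀`
  have hord : ∀ v : Place ℂ (FC N), v.ord (bc f₀) = v.ord f' - (n : ℤ) * v.ord h' := by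
    intro v
    have e1 : ∀ P : Place Kb (modularFunctionFieldBar N),
        (((n : ℤ) • (D₀ : Divisor Kb (modularFunctionFieldBar N))) :
          Divisor Kb (modularFunctionFieldBar N)) P = P.ord f₀ := by
      intro P
      rw [Finsupp.smul_apply, smul_eq_mul]
      exact hdiv₀' P
    have e2 := hp.mapDomain_eq_ord hf₀ e1 v
    rw [Finsupp.mapDomain_smul, Finsupp.smul_apply, smul_eq_mul] at e2
    have e3 := hdivh v
    rw [Finsupp.sub_apply, Surjective.coe_extDegZero, Surjective.extDiv_apply] at e3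
    have e4 := hdiv v
    rw [← e2]
    linear_combination e4 - (n : ℤ) * e3
  -- the unit `u`
  have hbc0 : bc f₀ ≠ 0 := (map_ne_zero bc).mpr hf₀
  have hhn : h' ^ n ≠ 0 := pow_ne_zero n hh'
  have hu0 : bc f₀ * h' ^ n * f'⁻¹ ≠ 0 :=
    mul_ne_zero (mul_ne_zero hbc0 hhn) (inv_ne_zero hf')
  have hu : ∀ v : Place ℂ (FC N), v.ord (bc f₀ * h' ^ n * f'⁻¹) = 0 := by
    intro v
    rw [v.ord_mul (mul_ne_zero hbc0 hhn) (inv_ne_zero hf'), v.ord_mul hbc0 hhn, v.ord_inv,
      ← zpow_natCast h' n, v.ord_zpow, hord v]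
    ring
  obtain ⟨c, hc⟩ := hconst _ hu0 hu
  -- `bc f₀ = c * f' * (h'⁻¹) ^ n`
  have heq : bc f₀ = algebraMap ℂ (FC N) c * f' * (h'⁻¹) ^ n := by
    rw [← hc, inv_pow]
    field_simp
  have heq' : coeffMap ι (f₀ : LaurentSeries Kb) =
      HahnSeries.C c * (f' : LaurentSeries ℂ) * (((h'⁻¹ : FC N) : LaurentSeries ℂ)) ^ n := by
    rw [← hbc, heq]
    have e5 : ((algebraMap ℂ (FC N) c : FC N) : LaurentSeries ℂ) = HahnSeries.C c := by
      show algebraMap ℂ (LaurentSeries ℂ) c = HahnSeries.C c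
      rw [algebraMap_laurentSeries_eq_single, HahnSeries.C_apply]
    rw [← e5]
    rfl
  -- the root character
  have r1 : RootCharOf N n (HahnSeries.C c) 1 := rootCharOf_const hn c
  have r2 : RootCharOf N n (f' : LaurentSeries ℂ) ψ := ⟨k, a, b, hrep, hroot⟩
  have r3 : RootCharOf N n ((((h'⁻¹ : FC N) : LaurentSeries ℂ)) ^ n) 1 :=
    rootCharOf_pow_self hn (hrepC h'⁻¹)
  have r := (r1.mul r2).mul r3
  have eψ : (1 : Gamma0 N →* ℂˣ) * ψ * 1 = ψ := (mul_one _).trans (one_mul ψ)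
  rw [eψ, ← heq'] at r
  obtain ⟨k₂, a₂, b₂, hrep₂, hroot₂⟩ := r
  exact ⟨n, D₀, f₀, k₂, a₂, b₂, hn, hf₀, rfl, hdiv₀', hrep₂, hroot₂⟩

variable (hsurj : ∀ (n : ℕ), n ≠ 0 → ∀ c' : Pic0 ℂ (FC N), n • c' = 0 →
    ∃ c : JZero N, Surjective.extPic0 h c = c')

include hbc hp hinj hconst hrepC hsurj in
/-- **`PsiDict N → PhiDict N ι`**: the transport of the analytic dictionary along the descent. -/
theorem phiDict_of_psiDict (hΨ : PsiDict N) : PhiDict N ι where
  exists_of_torsion x := by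
    rintro ⟨n, hn, hx⟩
    obtain ⟨ψ, hψ⟩ := hΨ.exists_of_torsion (Surjective.extPic0 h x)
      ⟨n, hn, by rw [← map_nsmul, hx, map_zero]⟩
    exact ⟨ψ, isPhiOf_of_isPsiOf hbc hp h hinj hconst hrepC hψ⟩
  unique x ψ ψ' hψ hψ' :=
    hΨ.unique _ _ _ (isPsiOf_of_isPhiOf hbc hp h hψ) (isPsiOf_of_isPhiOf hbc hp h hψ')
  add x y ψ ψ' hψ hψ' := by
    have h1 := hΨ.add _ _ _ _ (isPsiOf_of_isPhiOf hbc hp h hψ) (isPsiOf_of_isPhiOf hbc hp h hψ')
    rw [← map_add] at h1
    exact isPhiOf_of_isPsiOf hbc hp h hinj hconst hrepC h1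
  injective x hx := by
    have h1 := hΨ.injective _ (isPsiOf_of_isPhiOf hbc hp h hx)
    exact hinj (by rw [h1, map_zero])
  mem x ψ hψ := hΨ.mem _ _ (isPsiOf_of_isPhiOf hbc hp h hψ)
  surj ψ hψ hfin := by
    obtain ⟨x', hx'⟩ := hΨ.surj ψ hψ hfin
    obtain ⟨n, hn, hnx⟩ := nsmul_eq_zero_of_isPsiOf hx'
    obtain ⟨x, rfl⟩ := hsurj n hn x' hnx
    exact ⟨x, isPhiOf_of_isPsiOf hbc hp h hinj hconst hrepC hx'⟩

end Transport

/-! ### finiteness of the torsion of `Pic⁰` over `ℂ` -/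

section Finite

variable {N : ℕ} [NeZero N]

/-- the `n`-torsion of `Pic⁰(X₀(N)_ℂ)` is finite, from the analytic dictionary alone -/
theorem finite_torsion_of_psiDict (hΨ : PsiDict N) {n : ℕ} (hn : n ≠ 0) :
    {y : Pic0 ℂ (FC N) | n • y = 0}.Finite :=
  finite_torsion_of_rel (IsPsiOf N) hΨ.exists_of_torsion hΨ.unique hΨ.add hΨ.injective hn

/-- the same, in the form needed by `Surjective.extTorsion_bijective` -/
theorem finite_pic0_torsion_of_psiDict (hΨ : PsiDict N) {n : ℕ} (hn : n ≠ 0) :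
    Finite (Pic0.torsion ℂ (FC N) n) := by
  have h1 := finite_torsion_of_psiDict hΨ hn
  have h2 : ((Pic0.torsion ℂ (FC N) n : AddSubgroup (Pic0 ℂ (FC N))) : Set (Pic0 ℂ (FC N))) =
      {y : Pic0 ℂ (FC N) | n • y = 0} := by
    ext y
    rw [SetLike.mem_coe, Pic0.mem_torsion, natCast_zsmul]
    rfl
  exact (h2 ▸ h1 :
    ((Pic0.torsion ℂ (FC N) n : AddSubgroup (Pic0 ℂ (FC N))) : Set (Pic0 ℂ (FC N))).Finite)

end Finite

end Fermat.Agent.S30.Descent.PhiDict
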