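import Mathlib
import Fermat.Agent.S30.Descent.PhiDict
import Fermat.Agent.S30.Analytic.TwistedSurj
import Fermat.Agent.S18.A.RiemannBasic
import Fermat.Agent.S18.A.Instances

/-!
# PROJECT J (S30), slice J-3: `PsiDict N → PhiDict N ι`, the `FC N`-side inputs discharged

`Descent.PhiDict.phiDict_of_psiDict` takes two hypotheses about `FC N` alone:

* `isRepC_FC` : every element of `FC N` is a quotient of two forms for `Γ₀(N)` (`RepFieldEq`);
* `const_of_ord_eq_zero` : an element of `FC N` without zeros and poles is a constant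
  (`S18.A.Riemann.mem_rr_zero_iff` for the function field `FC N / ℂ`, `j` separating).

Both are proved here, together with `deg_one_FC`, `isSeparable_FC`, `infinite_place_FC`,
`finite_rr_FC`, and `phiDict_of_psiDict_FC`, which needs only the descent data
`(bc, e, IsPlaceExt bc e, Compat e, (T6), (T9))`.
-/

set_option autoImplicit false
set_option linter.unusedSectionVars false

namespace Fermat.Agent.S30.Descent.PhiDictFC

open AlgebraicCurve ModularCurve CongruenceSubgroup IntermediateField
open scoped MatrixGroups
open Fermat.Agent.S30.Spec Fermat.Agent.S30.Descent Fermat.Agent.S30.Descent.RRBaseChange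
open Fermat.Agent.S24.RepHom Fermat.Agent.S24.FF
open Fermat.Agent.S30.Analytic.TwistedSurj Fermat.Agent.S30.Analytic.RepFieldEq

local notation "Kb" => AlgebraicClosure ℚ

variable (N : ℕ) [NeZero N]

/-- every element of `FC N` is a quotient of two forms of the same weight for `Γ₀(N)` -/
theorem isRepC_FC (u : FC N) : IsRepC N (u : LaurentSeries ℂ) :=
  (mem_repField_iff N).mpr u.2

theorem deg_one_FC (v : Place ℂ (FC N)) : v.deg = 1 :=
  Fermat.Agent.S18.A.Instances.deg_one (isFF_jFC N) v

theorem isSeparable_FC : Algebra.IsSeparable ℂ⟮jFC N⟯ (FC N) := by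
  have := (isFF_jFC N).finite
  infer_instance

theorem infinite_place_FC : Infinite (Place ℂ (FC N)) :=
  Fermat.Agent.S18.A.Instances.infinite_place (isFF_jFC N) (isSeparable_FC N)

/-- `L(D)` is finite dimensional for every divisor of `FC N` -/
theorem finite_rr_FC (D : Divisor ℂ (FC N)) : Module.Finite ℂ (riemannRochSpace D) := by
  have := hasPrincipalDivisors_FC N
  have : Nonempty (Place ℂ (FC N)) := (infinite_place_FC N).nonempty
  exact Fermat.Agent.S18.A.Riemann.finite_rr (deg_one_FC N) D

/-- an element of `FC N` without zeros and poles is a constant -/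
theorem const_of_ord_eq_zero (u : FC N) (_hu : u ≠ 0)
    (h : ∀ v : Place ℂ (FC N), v.ord u = 0) : ∃ c : ℂ, u = algebraMap ℂ (FC N) c := by
  have := hasPrincipalDivisors_FC N
  have : Nonempty (Place ℂ (FC N)) := (infinite_place_FC N).nonempty
  refine (Fermat.Agent.S18.A.Riemann.mem_rr_zero_iff (deg_one_FC N)).mp ?_
  rw [mem_riemannRochSpace_iff]
  intro v
  right
  rw [h v, Finsupp.zero_apply, neg_zero]

variable {N} {ι : Kb →+* ℂ}
variable {bc : modularFunctionFieldBar N →+* FC N}
  {e : Place Kb (modularFunctionFieldBar N) → Place ℂ (FC N)}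

/-- **`PsiDict N → PhiDict N ι`** from the descent data alone. -/
theorem phiDict_of_psiDict_FC
    (hbc : ∀ f : modularFunctionFieldBar N,
      ((bc f : FC N) : LaurentSeries ℂ) = coeffMap ι (f : LaurentSeries Kb))
    (hp : IsPlaceExt bc e) (h : Surjective.Compat e)
    (hinj : Function.Injective (Surjective.extPic0 h))
    (hsurj : ∀ (n : ℕ), n ≠ 0 → ∀ c' : Pic0 ℂ (FC N), n • c' = 0 →
      ∃ c : JZero N, Surjective.extPic0 h c = c')
    (hΨ : PsiDict N) : PhiDict N ι :=
  PhiDict.phiDict_of_psiDict hbc hp h hinj (const_of_ord_eq_zero N) (isRepC_FC N) hsurj hΨ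

end Fermat.Agent.S30.Descent.PhiDictFC
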