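import Mathlib
import Fermat.Agent.S24.Hurwitz
import Fermat.Agent.S30.Spec
import Fermat.Agent.S30.Analytic.RepChar
import Fermat.Agent.S30.Analytic.RepFieldEq
import Fermat.Agent.S30.Final.PhiMap
import Fermat.Agent.S30.Descent.LaurentTorsion

/-!
# PROJECT J (S30), slice J-3b: `PsiDict N → PhiDict N ι` (core, hypotheses-first)

The analytic dictionary `Ψ` over `ℂ` (`Spec.PsiDict N`, deliverable of J-1 + J-2) is transported to
the dictionary `Φ = Ψ ∘ ext` on `J₀(N) = Pic⁰(ℚ̄(X₀(N)))` (`Spec.PhiDict N ι`) by the descent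
`ext : Pic⁰ ℚ̄ F → Pic⁰ ℂ F_ℂ` of J-3.

Section hypotheses = the Laurent-model package of `Descent.LaurentTorsion` for `K = ℚ̄`, `K' = ℂ`,
`F = modularFunctionFieldBar N`, `F' = Spec.FC N` (provided by `Descent.ConstExt / ExtPlace / Cap`
and `constExt_laurentBaseChange`).

* `finite_torsion_of_dict` : an abstract dictionary (`exists`, `unique`, `add`, `injective`) into
  the characters of a finitely generated group has finite `n`-torsion;
* `const_of_ord_eq_zero` : functions without zeros and poles are constant;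
* `isPsiOf_of_isPhiOf`, `isPhiOf_of_isPsiOf` : `IsPhiOf N ι y ψ ↔ IsPsiOf N (ext y) ψ`;
* `phiDict` : `PsiDict N → PhiDict N ι`.
-/

set_option autoImplicit false
set_option linter.unusedSectionVars false
set_option linter.style.haveILetI false

noncomputable section

namespace Fermat.Agent.S30.Descent.PhiDictCore

open AlgebraicCurve ModularCurve IntermediateField CongruenceSubgroup UpperHalfPlane
open scoped MatrixGroups
open Fermat.Agent.S24.FF Fermat.Agent.S24.RepHom Fermat.Agent.S30.Spec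
open Fermat.Agent.S30.Analytic.RepChar Fermat.Agent.S30.Analytic.Character
open Fermat.Agent.S30.Descent Fermat.Agent.S30.Descent.ConstGalois

local notation "Kb" => AlgebraicClosure ℚ

/-! ### abstract dictionaries -/

section AbstractDict

variable {A : Type*} [AddCommGroup A] {Γ : Type*} [Group Γ] (R : A → (Γ →* ℂˣ) → Prop)
  (hex : ∀ x : A, (∃ n : ℕ, n ≠ 0 ∧ n • x = 0) → ∃ ψ, R x ψ)
  (huniq : ∀ x ψ ψ', R x ψ → R x ψ' → ψ = ψ')
  (hadd : ∀ x y ψ ψ', R x ψ → R y ψ' → R (x + y) (ψ * ψ'))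
  (hinj : ∀ x, R x 1 → x = 0)

include hex huniq hadd

theorem rel_zero_one : R 0 1 := by
  obtain ⟨ψ, hψ⟩ := hex 0 ⟨1, one_ne_zero, by simp⟩
  have h2 := hadd 0 0 ψ ψ hψ hψ
  rw [add_zero] at h2
  have h3 : ψ = ψ * ψ := huniq 0 _ _ hψ h2
  have h4 : ψ = 1 := by
    have h5 : ψ * 1 = ψ * ψ := (mul_one ψ).trans h3
    exact (mul_left_cancel h5).symm
  rwa [h4] at hψ

theorem rel_nsmul {x : A} {ψ : Γ →* ℂˣ} (h : R x ψ) (n : ℕ) : R (n • x) (ψ ^ n) := by
  induction n with
  | zero =>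
      have e : ψ ^ 0 = 1 := pow_zero ψ
      rw [zero_nsmul, e]
      exact rel_zero_one R hex huniq hadd
  | succ k ih =>
      have e : ψ ^ (k + 1) = ψ ^ k * ψ := pow_succ ψ k
      rw [succ_nsmul, e]
      exact hadd _ _ _ _ ih h

include hinj in
/-- the `n`-torsion of the source of an abstract dictionary is finite -/
theorem finite_torsion_of_dict [Group.FG Γ] {n : ℕ} (hn : n ≠ 0) : {x : A | n • x = 0}.Finite := by
  classical
  have h01 := rel_zero_one R hex huniq hadd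
  have hfin := Fermat.Agent.S30.Final.PhiMap.finite_monoidHom_pow_eq_one (Γ := Γ) hn
  haveI : Finite {ψ : Γ →* ℂˣ | ψ ^ n = 1} := hfin
  have hex' : ∀ y : {x : A | n • x = 0}, ∃ ψ, R y.1 ψ := fun y => hex y.1 ⟨n, hn, y.2⟩
  choose φ hφ using hex'
  have hpow : ∀ y : {x : A | n • x = 0}, φ y ^ n = 1 := by
    intro y
    have h1 := rel_nsmul R hex huniq hadd (hφ y) n
    have h2 : n • y.1 = 0 := y.2
    rw [h2] at h1
    exact huniq 0 _ _ h1 h01
  let g : {x : A | n • x = 0} → {ψ : Γ →* ℂˣ | ψ ^ n = 1} := fun y => ⟨φ y, hpow y⟩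
  have hg : Function.Injective g := by
    intro y y' hyy'
    have h1 : φ y = φ y' := congrArg Subtype.val hyy'
    have hneg : n • (-y'.1) = 0 := by
      rw [smul_neg, (show n • y'.1 = 0 from y'.2), neg_zero]
    obtain ⟨ψ', hψ'⟩ := hex (-y'.1) ⟨n, hn, hneg⟩
    have h2 := hadd _ _ _ _ (hφ y') hψ'
    rw [add_neg_cancel] at h2
    have h3 : φ y' * ψ' = 1 := huniq 0 _ _ h2 h01
    have h4 := hadd _ _ _ _ (hφ y) hψ'
    rw [h1, h3] at h4
    have h5 := hinj _ h4
    exact Subtype.ext (by rwa [← sub_eq_add_neg, sub_eq_zero] at h5)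
  haveI : Finite {x : A | n • x = 0} := Finite.of_injective g hg
  exact Set.toFinite _

end AbstractDict

/-! ### functions without zeros and poles -/

section Const

universe u w

variable {K : Type w} {F : Type u} [Field K] [Field F] [Algebra K F] [IsAlgClosed K] [CharZero K]

open Fermat.Agent.S24.Hurwitz in
/-- A nonzero function without zeros and poles is constant. -/
theorem const_of_ord_eq_zero {x : F} (hx : IsFF K x) (g : F) (_hg : g ≠ 0)
    (h : ∀ P : Place K F, P.ord g = 0) : ∃ c : K, g = algebraMap K F c := by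
  by_contra hne
  push Not at hne
  have hg' : IsFF K g := hx.of_not_mem_range (fun c hc => hne c hc.symm)
  have hsum := sum_poles hg'
  have hpos : 0 < Module.finrank K⟮g⟯ F := by
    have := hg'.finite
    exact Module.finrank_pos
  rw [Finset.sum_congr rfl (fun v _ => by rw [h v, neg_zero])] at hsum
  simp only [Finset.sum_const_zero] at hsum
  omega

end Const

/-! ### the core: `IsPhiOf N ι y ψ ↔ IsPsiOf N (ext y) ψ` -/

section Core

variable (N : ℕ) [NeZero N] [Algebra Kb ℂ] (ι : Kb →+* ℂ) (hι : algebraMap Kb ℂ = ι)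
  (hst : Stable Kb (FC N))
  (bcH : modularFunctionFieldBar N →+* FC N)
  (hbc : ∀ f : modularFunctionFieldBar N,
    (bcH f : LaurentSeries ℂ) = bc (f : LaurentSeries Kb))
  (e : Place Kb (modularFunctionFieldBar N) → Place ℂ (FC N))
  (hp : RRBaseChange.IsPlaceExt bcH e)
  (huniq : ∀ (P : Place Kb (modularFunctionFieldBar N)) (Q : Place ℂ (FC N)),
    (∀ f : modularFunctionFieldBar N, Q.ord (bcH f) = P.ord f) → Q = e P)
  (hcap : ∀ f' : FC N,
    (∀ n : ℤ, (f' : LaurentSeries ℂ).coeff n ∈ Set.range (algebraMap Kb ℂ)) → f' ∈ Set.range bcH)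
  {x : modularFunctionFieldBar N} (hx : IsFF Kb x) (hx' : IsFF ℂ (bcH x))
  (hn : Module.finrank ℂ⟮bcH x⟯ (FC N) = Module.finrank Kb⟮x⟯ (modularFunctionFieldBar N))

/-- the extension of constants on `Pic⁰` -/
abbrev extJ : JZero N →+ Pic0 ℂ (FC N) :=
  Surjective.extPic0 (LaurentTorsion.compat bcH e hp hx hx')

include hι hbc in
theorem coe_bcH (f : modularFunctionFieldBar N) :
    (bcH f : LaurentSeries ℂ) = coeffMap ι (f : LaurentSeries Kb) := by
  rw [hbc, bc, hι]

/-- `n • mk D = 0` when `n D = div f` -/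
theorem nsmul_mk_eq_zero {K F : Type*} [Field K] [Field F] [Algebra K F] {n : ℕ}
    {D : Divisor.degZero (K := K) (F := F)} {f : F} (hf : f ≠ 0)
    (hD : ∀ v : Place K F, (n : ℤ) * (D : Divisor K F) v = v.ord f) : n • Pic0.mk D = 0 := by
  have h1 : ((n • D : Divisor.degZero (K := K) (F := F)) : Divisor K F) ∈
      Divisor.principal (K := K) (F := F) := by
    rw [Divisor.mem_principal]
    refine ⟨f, hf, fun v => ?_⟩
    rw [← hD v, AddSubgroup.coe_nsmul, Finsupp.smul_apply, nsmul_eq_mul]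
  have h2 : n • Pic0.mk D = Pic0.mk (n • D) := rfl
  rw [h2]
  exact (QuotientAddGroup.eq_zero_iff _).mpr (AddSubgroup.mem_addSubgroupOf.mpr h1)

include hι hbc in
/-- `Φ = Ψ ∘ ext`, first half -/
theorem isPsiOf_of_isPhiOf {y : JZero N} {ψ : Gamma0 N →* ℂˣ} (h : IsPhiOf N ι y ψ) :
    IsPsiOf N (extJ N bcH e hp hx hx' y) ψ := by
  obtain ⟨n, D, f, k, a, b, hn0, hf, rfl, hD, hrep, hroot⟩ := h
  refine ⟨n, Surjective.extDegZero (LaurentTorsion.compat bcH e hp hx hx') D, bcH f, k, a, b, hn0,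
    (map_ne_zero bcH).mpr hf, rfl, fun v => ?_, ?_, hroot⟩
  · have h1 := hp.mapDomain_eq_ord (D := (n : ℤ) • (D : Divisor Kb (modularFunctionFieldBar N))) hf
      (fun P => by rw [Finsupp.smul_apply, smul_eq_mul, hD P]) v
    rw [← h1, Finsupp.mapDomain_smul, Finsupp.smul_apply, smul_eq_mul]
    rfl
  · rw [coe_bcH N ι hι bcH hbc]
    exact hrep

include hst hι hbc huniq hcap in
/-- `ext` is injective on `Pic⁰` (T6) -/
theorem extJ_injective : Function.Injective (extJ N bcH e hp hx hx') := by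
  haveI := hx.finite
  haveI := hx'.finite
  have hsep : Algebra.IsSeparable Kb⟮x⟯ (modularFunctionFieldBar N) :=
    LaurentTorsion.isSeparable_of_isFF hx
  have hsep' : Algebra.IsSeparable ℂ⟮bcH x⟯ (FC N) := LaurentTorsion.isSeparable_of_isFF hx'
  haveI := Fermat.Agent.S18.A.PrincipalDivisors.hasPrincipalDivisors hx hsep
  haveI := Fermat.Agent.S18.A.PrincipalDivisors.hasPrincipalDivisors hx' hsep'
  obtain ⟨g', HR', -⟩ := Fermat.Agent.S18.A.RiemannX1.exists_riemannHyp_of_sep hx' hsep'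
  exact Injective.extPic0_injective (LaurentTorsion.compat bcH e hp hx hx') hp
    (LaurentTorsion.isGaloisCoord hst bcH hbc e hp huniq hcap)
    (fun P => Fermat.Agent.S18.A.Instances.deg_one hx P) (fun _ => HR'.finite _)

include hst hι hbc huniq hcap in
/-- `Φ = Ψ ∘ ext`, second half: the character does not depend on the representation. -/
theorem isPhiOf_of_isPsiOf {y : JZero N} {ψ : Gamma0 N →* ℂˣ}
    (h : IsPsiOf N (extJ N bcH e hp hx hx' y) ψ) : IsPhiOf N ι y ψ := by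
  obtain ⟨n, D', f', k, a, b, hn0, hf', hE, hD', hrep, hroot⟩ := h
  obtain ⟨D, rfl⟩ := Pic0.mk_surjective y
  have hcompat := LaurentTorsion.compat bcH e hp hx hx'
  -- `n • mk D = 0`
  have h1 : n • extJ N bcH e hp hx hx' (Pic0.mk D) = 0 := by
    rw [hE]
    exact nsmul_mk_eq_zero hf' hD'
  rw [← map_nsmul] at h1
  have h2 : n • Pic0.mk D = 0 :=
    extJ_injective N ι hι hst bcH hbc e hp huniq hcap hx hx' (h1.trans (map_zero _).symm)
  have h3 : Pic0.mk (n • D) = 0 := h2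
  obtain ⟨f, hf, hDf⟩ := Surjective.mk_eq_zero_iff.mp h3
  -- `D' - ext D = div h'`
  have h4 : Pic0.mk (Surjective.extDegZero hcompat D) = Pic0.mk D' := hE
  obtain ⟨h', hh', hDh⟩ := Surjective.mk_eq_mk_iff.mp h4
  -- the orders of `bcH f`
  have hordf : ∀ v : Place ℂ (FC N), v.ord (bcH f) =
      (n : ℤ) * (Finsupp.mapDomain e (D : Divisor Kb (modularFunctionFieldBar N)) :
        Divisor ℂ (FC N)) v := by
    intro v
    have h5 := hp.mapDomain_eq_ord
      (D := ((n • D : Divisor.degZero (K := Kb) (F := modularFunctionFieldBar N)) :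
        Divisor Kb (modularFunctionFieldBar N))) hf hDf v
    rw [← h5, AddSubgroup.coe_nsmul, Finsupp.mapDomain_smul, Finsupp.smul_apply, nsmul_eq_mul]
  -- `u = bcH f / (f' h'^n)` is constant
  have hbf : bcH f ≠ 0 := (map_ne_zero bcH).mpr hf
  have hu0 : bcH f * f'⁻¹ * (h' ^ n) ≠ 0 :=
    mul_ne_zero (mul_ne_zero hbf (inv_ne_zero hf')) (pow_ne_zero n hh')
  have hu : ∀ v : Place ℂ (FC N), v.ord (bcH f * f'⁻¹ * (h' ^ n)) = 0 := by
    intro v
    rw [v.ord_mul (mul_ne_zero hbf (inv_ne_zero hf')) (pow_ne_zero n hh'),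
      v.ord_mul hbf (inv_ne_zero hf'), v.ord_inv, ← zpow_natCast, v.ord_zpow, hordf v, ← hD' v,
      ← hDh v]
    simp only [Finsupp.sub_apply, Surjective.coe_extDegZero, Surjective.extDiv_apply]
    ring
  obtain ⟨c, hc⟩ := const_of_ord_eq_zero hx' _ hu0 hu
  have hc0 : c ≠ 0 := by
    rintro rfl
    rw [map_zero] at hc
    exact hu0 hc
  -- `bcH f = c * f' * (h'⁻¹)^n`
  have hfe : bcH f = algebraMap ℂ (FC N) c * f' * (h'⁻¹) ^ n := by
    rw [← hc, inv_pow]
    field_simp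
  have hfe' : (bcH f : LaurentSeries ℂ) =
      HahnSeries.C c * (f' : LaurentSeries ℂ) * ((h'⁻¹ : FC N) : LaurentSeries ℂ) ^ n := by
    rw [hfe]
    push_cast
    congr 2
    show algebraMap ℂ (LaurentSeries ℂ) c = HahnSeries.C c
    rw [algebraMap_laurentSeries_eq_single]
    rfl
  have hrepC : IsRepC N ((h'⁻¹ : FC N) : LaurentSeries ℂ) :=
    mem_repField.mp ((Fermat.Agent.S30.Analytic.RepFieldEq.mem_repField_iff N).mpr (h'⁻¹ : FC N).2)
  have hroot' : RootCharOf N n (bcH f : LaurentSeries ℂ) ψ := by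
    rw [hfe']
    have h6 := ((rootCharOf_const (N := N) hn0 c).mul ⟨k, a, b, hrep, hroot⟩).mul
      (rootCharOf_pow_self hn0 hrepC)
    have e1 : (1 : Gamma0 N →* ℂˣ) * ψ * 1 = ψ := (mul_one _).trans (one_mul ψ)
    rwa [e1] at h6
  obtain ⟨k₂, a₂, b₂, hrep₂, hroot₂⟩ := hroot'
  refine ⟨n, D, f, k₂, a₂, b₂, hn0, hf, rfl, fun v => ?_, ?_, hroot₂⟩
  · rw [← hDf v, AddSubgroup.coe_nsmul, Finsupp.smul_apply, nsmul_eq_mul]
  · rw [← coe_bcH N ι hι bcH hbc]
    exact hrep₂

/-- the relation `IsPsiOf` implies torsion -/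
theorem nsmul_eq_zero_of_isPsiOf {z : Pic0 ℂ (FC N)} {ψ : Gamma0 N →* ℂˣ} (h : IsPsiOf N z ψ) :
    ∃ n : ℕ, n ≠ 0 ∧ n • z = 0 := by
  obtain ⟨n, D, f, k, a, b, hn0, hf, rfl, hD, -, -⟩ := h
  exact ⟨n, hn0, nsmul_mk_eq_zero hf hD⟩

/-- **finiteness of the `n`-torsion of `Pic⁰(X₀(N)_ℂ)`** from the analytic dictionary -/
theorem finite_torsion_C (h : PsiDict N) {n : ℕ} (hn0 : n ≠ 0) :
    Finite (Pic0.torsion ℂ (FC N) n) := by
  have h1 : {z : Pic0 ℂ (FC N) | n • z = 0}.Finite :=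
    finite_torsion_of_dict (IsPsiOf N) h.exists_of_torsion h.unique h.add h.injective hn0
  refine Set.Finite.subset h1 (s := {z : Pic0 ℂ (FC N) | n • z = 0})
    (t := ((Pic0.torsion ℂ (FC N) n : AddSubgroup (Pic0 ℂ (FC N))) : Set (Pic0 ℂ (FC N)))) ?_
  intro z hz
  have h2 : (n : ℤ) • z = 0 := Pic0.mem_torsion.mp hz
  rwa [natCast_zsmul] at h2

include hst hι hbc hp huniq hcap hx hx' hn in
/-- **`PsiDict N → PhiDict N ι`** (core form) -/
theorem phiDict (h : PsiDict N) : PhiDict N ι := by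
  have hab : ∀ {y : JZero N} {ψ : Gamma0 N →* ℂˣ}, IsPhiOf N ι y ψ →
      IsPsiOf N (extJ N bcH e hp hx hx' y) ψ :=
    fun hy => isPsiOf_of_isPhiOf N ι hι bcH hbc e hp hx hx' hy
  have hba : ∀ {y : JZero N} {ψ : Gamma0 N →* ℂˣ}, IsPsiOf N (extJ N bcH e hp hx hx' y) ψ →
      IsPhiOf N ι y ψ :=
    fun hy => isPhiOf_of_isPsiOf N ι hι hst bcH hbc e hp huniq hcap hx hx' hy
  refine ⟨?_, ?_, ?_, ?_, ?_, ?_⟩
  · rintro y ⟨n, hn0, hy⟩
    obtain ⟨ψ, hψ⟩ := h.exists_of_torsion (extJ N bcH e hp hx hx' y)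
      ⟨n, hn0, by rw [← map_nsmul, hy, map_zero]⟩
    exact ⟨ψ, hba hψ⟩
  · intro y ψ ψ' hy hy'
    exact h.unique _ _ _ (hab hy) (hab hy')
  · intro y y' ψ ψ' hy hy'
    apply hba
    rw [map_add]
    exact h.add _ _ _ _ (hab hy) (hab hy')
  · intro y hy
    have h1 := h.injective _ (hab hy)
    exact extJ_injective N ι hι hst bcH hbc e hp huniq hcap hx hx' (h1.trans (map_zero _).symm)
  · intro y ψ hy
    exact h.mem _ _ (hab hy)
  · intro ψ hψ hfin
    obtain ⟨z, hz⟩ := h.surj ψ hψ hfin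
    obtain ⟨n, hn0, hnz⟩ := nsmul_eq_zero_of_isPsiOf N hz
    haveI := finite_torsion_C N h hn0
    have hzt : z ∈ Pic0.torsion ℂ (FC N) n := by
      rw [Pic0.mem_torsion, natCast_zsmul]
      exact hnz
    obtain ⟨c, hc⟩ :=
      (LaurentTorsion.extTorsion_bijective hst bcH hbc e hp huniq hcap hx hx' hn n).2 ⟨z, hzt⟩
    refine ⟨(c : JZero N), hba ?_⟩
    have h1 : extJ N bcH e hp hx hx' (c : JZero N) = z := congrArg Subtype.val hc
    rw [h1]
    exact hz

end Core

end Fermat.Agent.S30.Descent.PhiDictCore
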