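import Mathlib
import Fermat.Agent.S18.A.Instances
import Fermat.Agent.S30.Descent.ExtPlace
import Fermat.Agent.S30.Descent.GaloisCoordLaurent
import Fermat.Agent.S30.Descent.PhiDictCore

/-!
# PROJECT J (S30), slice J-3b: `PsiDict N → PhiDict N ι`, unconditionally

* `exists_package` : for `K ⊆ K'` algebraically closed of characteristic zero,
  `F : IntermediateField K K((q))` a function field and ANY `F'` with `constExt K' F = F'`, the
  whole Laurent-model package of `Descent.LaurentTorsion` exists (transport along the equality).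
* `phiDict` : `Spec.PsiDict N → Spec.PhiDict N ι` for every `ι : ℚ̄ →+* ℂ`.
* `finite_torsion_JZero` : the `n`-torsion of `J₀(N)` is finite, from `PsiDict N`.
-/

set_option autoImplicit false
set_option linter.unusedSectionVars false
set_option linter.style.haveILetI false

noncomputable section

namespace Fermat.Agent.S30.Descent.PhiDictFinal

open AlgebraicCurve ModularCurve IntermediateField
open Fermat.Agent.S24.FF Fermat.Agent.S30.Spec
open Fermat.Agent.S30.Descent Fermat.Agent.S30.Descent.ConstGalois

local notation "Kb" => AlgebraicClosure ℚ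

section Package

variable {K : Type*} {K' : Type*} [Field K] [Field K'] [Algebra K K']
  [IsAlgClosed K] [IsAlgClosed K'] [CharZero K]

/-- the Laurent-model package for any `F'` equal to `constExt K' F` -/
theorem exists_package {F : IntermediateField K (LaurentSeries K)} {x : F} (hx : IsFF K x)
    (F' : IntermediateField K' (LaurentSeries K')) (hF' : ConstExt.constExt K' F = F') :
    ∃ (ι : F →+* F') (e : Place K F → Place K' F'),
      Stable K F' ∧ (∀ f : F, (ι f : LaurentSeries K') = bc (f : LaurentSeries K)) ∧
      RRBaseChange.IsPlaceExt ι e ∧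
      (∀ f' : F', (∀ n : ℤ, (f' : LaurentSeries K').coeff n ∈ Set.range (algebraMap K K')) →
        f' ∈ Set.range ι) ∧
      IsFF K' (ι x) ∧ Module.finrank K'⟮ι x⟯ F' = Module.finrank K⟮x⟯ F := by
  subst hF'
  haveI := hx.finite
  refine ⟨ConstExt.bcHom K' F, ExtPlace.extL K' hx, GaloisCoordLaurent.stable F, ConstExt.coe_bcHom F,
    ExtPlace.isPlaceExt_extL K' hx, ?_, ConstExt.isFF_bcHom hx,
    (ConstExt.finrank_bcHom hx.transcendental).2⟩
  intro f' h
  exact Cap.cap_field F (ConstExt.constExt K' F) (ConstExt.bcHom K' F) (ConstExt.coe_bcHom F) rfl f' h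

end Package

section X0

variable (N : ℕ) [NeZero N]

/-- **`PsiDict N → PhiDict N ι`**: the analytic dictionary over `ℂ` descends to `J₀(N)`. -/
theorem phiDict (ι : Kb →+* ℂ) (h : PsiDict N) : PhiDict N ι := by
  letI : Algebra Kb ℂ := ι.toAlgebra
  have hx := Fermat.Agent.S18.A.Instances.isFF_jgen N
  obtain ⟨bcH, e, hst, hbc, hp, hcap, hx', hn⟩ := exists_package (K' := ℂ) hx (FC N)
    (ConstExt.constExt_laurentBaseChange (K := Kb) (K' := ℂ) (modularFunctionFieldFull N))
  exact PhiDictCore.phiDict N ι rfl hst bcH hbc e hp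
    (GaloisCoordLaurent.uniq_of_isPlaceExt hp) hcap hx hx' hn h

/-- **finiteness of the `n`-torsion of `J₀(N)`** from the analytic dictionary -/
theorem finite_torsion_JZero (ι : Kb →+* ℂ) (h : PsiDict N) {n : ℕ} (hn : n ≠ 0) :
    {y : JZero N | n • y = 0}.Finite :=
  Fermat.Agent.S30.Final.PhiMap.finite_torsion (phiDict N ι h) hn

end X0

end Fermat.Agent.S30.Descent.PhiDictFinal
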