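import Mathlib
import Fermat.Agent.S30.Analytic.PsiSurj
import Fermat.Agent.S30.Descent.PhiDictFinal

/-!
# PROJECT J (S30): the dictionary `Φ` on `J₀(N)` is a theorem

`Analytic.PsiSurj.psiDict N : Spec.PsiDict N` (J-1 + J-2, over `ℂ`) and
`Descent.PhiDictFinal.phiDict` (J-3, descent `ℂ → ℚ̄`) give, unconditionally:

* `phiDict N ι : Spec.PhiDict N ι` for every `ι : ℚ̄ →+* ℂ`;
* `finite_torsion N hn : {y : JZero N | n • y = 0}.Finite` for `n ≠ 0`
  (= the input `(H2)` of `Final.Chain.s30_of_inputs`);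
* `finite_pow_torsion`.
-/

set_option autoImplicit false

namespace Fermat.Agent.S30.Descent.PhiDictThm

open ModularCurve Fermat.Agent.S30.Spec

local notation "Kb" => AlgebraicClosure ℚ

variable (N : ℕ) [NeZero N]

/-- **The dictionary `Φ` on `J₀(N)`**, unconditionally. -/
theorem phiDict (ι : Kb →+* ℂ) : PhiDict N ι :=
  Fermat.Agent.S30.Descent.PhiDictFinal.phiDict N ι (Fermat.Agent.S30.Analytic.PsiSurj.psiDict N)

/-- there is an embedding `ℚ̄ → ℂ` -/
theorem nonempty_ringHom : Nonempty (Kb →+* ℂ) := by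
  have : Algebra.IsAlgebraic ℚ Kb :=
    ⟨fun x => by
      have h := (AlgebraicClosure.isAlgebraic ℚ).isAlgebraic x
      convert h using 1
      · rfl
      · exact Subsingleton.elim _ _⟩
  exact ⟨(IsAlgClosed.lift (R := ℚ) (S := Kb) (M := ℂ)).toRingHom⟩

/-- **The `n`-torsion of `J₀(N)` is finite.** -/
theorem finite_torsion {n : ℕ} (hn : n ≠ 0) : {y : JZero N | n • y = 0}.Finite := by
  obtain ⟨ι⟩ := nonempty_ringHom
  exact Fermat.Agent.S30.Final.PhiMap.finite_torsion (phiDict N ι) hn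

theorem finite_pow_torsion (p : ℕ) (hp : p ≠ 0) (n : ℕ) : {y : JZero N | p ^ n • y = 0}.Finite :=
  finite_torsion N (pow_ne_zero n hp)

end Fermat.Agent.S30.Descent.PhiDictThm
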