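import Mathlib
import Fermat.Agent.S30.Descent.PhiDictFC
import Fermat.Agent.S30.Descent.LaurentTorsion
import Fermat.Agent.S30.Descent.GaloisCoordLaurent

/-!
# PROJECT J (S30), slice J-3: `PsiDict N → PhiDict N ι` from the Laurent-model data at level `N`

Inputs (hypotheses-first; all of them are produced by `Descent.ConstExt / ExtPlace` once the data
are transported to `FC N = constExt ℂ (modularFunctionFieldBar N)`), for an `Algebra ℚ̄ ℂ`
structure:

* `hst : ConstGalois.Stable ℚ̄ (FC N)`;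
* `bc : modularFunctionFieldBar N →+* FC N` with `(bc f : ℂ((q))) = coeffMap (algebraMap ℚ̄ ℂ) f`;
* `e` with `hp : IsPlaceExt bc e`;
* `hFC : FC N = ℂ(bc '' F)`;
* `hx : IsFF ℚ̄ x`, `hx' : IsFF ℂ (bc x)`, `hn : [FC N : ℂ(bc x)] = [F : ℚ̄(x)]`.

Output: `phiDict_of_laurent : PsiDict N → PhiDict N (algebraMap ℚ̄ ℂ)`; also the intermediate
`extPic0_injective_FC`, `exists_extPic0_eq_FC` ((T6), (T9) at level `N`).
-/

set_option autoImplicit false
set_option linter.unusedSectionVars false

namespace Fermat.Agent.S30.Descent.PhiDictLaurent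

open AlgebraicCurve ModularCurve IntermediateField
open Fermat.Agent.S30.Spec Fermat.Agent.S30.Descent Fermat.Agent.S30.Descent.RRBaseChange
open Fermat.Agent.S24.FF

local notation "Kb" => AlgebraicClosure ℚ

variable {N : ℕ} [NeZero N] [Algebra Kb ℂ]
variable (hst : ConstGalois.Stable Kb (FC N))
  (bc : modularFunctionFieldBar N →+* FC N)
  (hbc : ∀ f : modularFunctionFieldBar N,
    ((bc f : FC N) : LaurentSeries ℂ) = coeffMap (algebraMap Kb ℂ) (f : LaurentSeries Kb))
  (e : Place Kb (modularFunctionFieldBar N) → Place ℂ (FC N))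
  (hp : IsPlaceExt bc e)
  (hFC : FC N = IntermediateField.adjoin ℂ
    ((Cap.bcL : LaurentSeries Kb → LaurentSeries ℂ) ''
      ((modularFunctionFieldBar N : IntermediateField Kb (LaurentSeries Kb)) :
        Set (LaurentSeries Kb))))
  {x : modularFunctionFieldBar N} (hx : IsFF Kb x) (hx' : IsFF ℂ (bc x))
  (hn : Module.finrank ℂ⟮bc x⟯ (FC N) = Module.finrank Kb⟮x⟯ (modularFunctionFieldBar N))

include hbc hFC in
/-- `ℚ̄((q)) ∩ FC N = modularFunctionFieldBar N` -/
theorem hcap (f' : FC N)
    (h : ∀ n : ℤ, (f' : LaurentSeries ℂ).coeff n ∈ Set.range (algebraMap Kb ℂ)) :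
    f' ∈ Set.range bc :=
  Cap.cap_field (modularFunctionFieldBar N) (FC N) bc hbc hFC f' h

include hp hx hx' in
theorem compat : Surjective.Compat e :=
  LaurentTorsion.compat bc e hp hx hx'

include hst hbc hp hFC in
theorem isGaloisCoord :
    IsGaloisCoord bc e (fun s : ℂ ≃ₐ[Kb] ℂ => ConstGalois.constGalois hst s)
      (Cap.coeffLin (FC N)) :=
  LaurentTorsion.isGaloisCoord hst bc hbc e hp (GaloisCoordLaurent.uniq_of_isPlaceExt hp)
    (hcap bc hbc hFC)

include hst hbc hp hFC hx hx' in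
/-- **(T6)** at level `N` -/
theorem extPic0_injective_FC :
    Function.Injective (Surjective.extPic0 (compat bc e hp hx hx')) := by
  have := Fermat.Agent.S18.A.Instances.hasPrincipalDivisors_bar N
  exact Injective.extPic0_injective (compat bc e hp hx hx') hp
    (isGaloisCoord hst bc hbc e hp hFC)
    (fun P => Fermat.Agent.S18.A.Instances.deg_one hx P)
    (fun D => PhiDictFC.finite_rr_FC N _)

include hst hbc hp hFC hx hx' hn in
/-- **(T9)** at level `N`: every torsion class of `FC N` comes from `ℚ̄`, given the analytic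
dictionary (which makes the torsion finite). -/
theorem exists_extPic0_eq_FC (hΨ : PsiDict N) (n : ℕ) (hn0 : n ≠ 0) (c' : Pic0 ℂ (FC N))
    (hc' : n • c' = 0) :
    ∃ c : JZero N, Surjective.extPic0 (compat bc e hp hx hx') c = c' := by
  have := PhiDict.finite_pic0_torsion_of_psiDict hΨ hn0
  have hbij := LaurentTorsion.extTorsion_bijective hst bc hbc e hp
    (GaloisCoordLaurent.uniq_of_isPlaceExt hp) (hcap bc hbc hFC) hx hx' hn n
  have hmem : c' ∈ Pic0.torsion ℂ (FC N) n := by
    rw [Pic0.mem_torsion, natCast_zsmul]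
    exact hc'
  obtain ⟨c, hc⟩ := hbij.2 ⟨c', hmem⟩
  exact ⟨(c : JZero N), congrArg Subtype.val hc⟩

include hst hbc hp hFC hx hx' hn in
/-- **`PsiDict N → PhiDict N ι`** for `ι = algebraMap ℚ̄ ℂ`. -/
theorem phiDict_of_laurent (hΨ : PsiDict N) : PhiDict N (algebraMap Kb ℂ) :=
  PhiDictFC.phiDict_of_psiDict_FC hbc hp (compat bc e hp hx hx')
    (extPic0_injective_FC hst bc hbc e hp hFC hx hx')
    (exists_extPic0_eq_FC hst bc hbc e hp hFC hx hx' hn hΨ) hΨ

end Fermat.Agent.S30.Descent.PhiDictLaurent
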